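/-
T2-F (= S35; architect helper3): **shared definitions and interface statements**.

Setting: `p` prime, level `N = N' * q`, `q` prime, `q ∤ N'`, `q ≠ p`;
`TT = parabolicHoms ℤ_[p] (Gamma0 N) ℤ_[p]` with `gal`, `hecke = tdmHeckeP p N` as in `t2z_package`.

* `T2fNewAt N N' lam`: the eigencharacter `lam` of the full Hecke algebra of level `N` does not occur
  (away from `N`) at level `N'`.
* `T2fNewform` (owner F2): the eigencharacter of a newform of level `N' q` is new at `q`.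
* `T2fInf N A Y`: `Y ∈ ℚ̄^× · (1 + 𝔪_A)` for the `q`-expansion Gauss valuation attached to `A`.
* `T2fP1K` (owner lead): `U_q y / φ y ∈ ℚ̄^× · (1 + 𝔪_A)` for every Frobenius lift `φ` at `A | q`.
* `T2fP4K` (owner F3): `φ² y ≡ y ^ (q²)` modulo `m`-th powers for `y ∈ tWsub` such that both `y` and
  `w_q y` are in `ℚ̄^× · (1 + 𝔪_A) · F^{× m}` (the toric part).
* `T2fH8`, `T2fPackage`: the Tate module package with the Frobenius relation (H8) at `q ∥ N`.
-/
import Mathlib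
import Fermat.Agent.Lib.T2.Asm.Package
import Fermat.Agent.Lib.T2.AL.Comm
import Fermat.Agent.Lib.T1.Kron.Assembly
import Fermat.Agent.Lib.T1.Kron.HeckeU
import Fermat.Agent.Lib.T1.Asm.Res.EigenChar
import Fermat.Prelude.Def_CuspForm_Newforms

set_option autoImplicit false
set_option linter.unusedSectionVars false
set_option linter.unusedVariables false
set_option linter.style.haveILetI false

open scoped TensorProduct
open IsLocalRing Polynomial Fermat.Agent.T1 ModularCurve CongruenceSubgroup Fermat.Agent.S24Lib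

namespace Fermat.Agent.T2

local notation "Kbar" => AlgebraicClosure ℚ
local notation "GQ" => (AlgebraicClosure ℚ ≃ₐ[ℚ] AlgebraicClosure ℚ)

/-- the eigencharacter `lam` of the full Hecke algebra of level `N` does **not** occur at level
`N'`: there is no character of the Hecke algebra of level `N'` away from `N` with the same
eigenvalues of `T_l` for all primes `l ∤ N` -/
def T2fNewAt (N N' : ℕ) [NeZero N] [NeZero N'] {𝒪 : Type} [CommRing 𝒪]
    (lam : CuspForm.heckeAlgebra N 2 (∅ : Set ℕ) →+* 𝒪) : Prop :=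
  ¬ ∃ lam' : CuspForm.heckeAlgebra N' 2 {r : ℕ | r ∣ N} →+* 𝒪,
    ∀ (l : ℕ) (hl : l.Prime) (hlN : ¬ l ∣ N) (hlN' : ¬ l ∣ N'),
      lam' (CuspForm.heckeAlgebra.T hl hlN' hlN)
        = lam (CuspForm.heckeAlgebra.T hl hlN (Set.notMem_empty l))

/-- **(F2)** the full eigencharacter of a newform of level `M = N' q` (composed with any ring
homomorphism `j` from its range to a domain of characteristic zero) does not occur at level `N'` -/
def T2fNewform : Prop :=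
  ∀ (M : ℕ) [NeZero M] (g : CuspForm (CongruenceSubgroup.Gamma0 M) 2) (hg : g.IsNewform)
    (N' q : ℕ) [NeZero N'], M = N' * q → q.Prime →
    ∀ (𝒪 : Type) [CommRing 𝒪] [IsDomain 𝒪] [CharZero 𝒪]
      (j : (terEigenCharC hg.1 (∅ : Set ℕ)).range →+* 𝒪),
      T2fNewAt M N' (j.comp (terEigenCharC hg.1 (∅ : Set ℕ)).rangeRestrict)

/-- `Y ∈ ℚ̄^× · (1 + 𝔪_A)`: a constant multiple of `Y` is a quotient of two Laurent series with
coefficients in `A` which have the same non-zero reduction -/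
def T2fInf (N : ℕ) (A : ValuationSubring Kbar) (Y : (↥(modularFunctionFieldBar N))ˣ) : Prop :=
  ∃ c : Kbar, c ≠ 0 ∧ ∃ a b : LaurentSeries ↥A,
    coeffMap (IsLocalRing.residue ↥A) a = coeffMap (IsLocalRing.residue ↥A) b ∧
    coeffMap (IsLocalRing.residue ↥A) b ≠ 0 ∧
    TkrRep A (algebraMap Kbar (LaurentSeries Kbar) c
      * ((Y : ↥(modularFunctionFieldBar N)) : LaurentSeries Kbar)) a b

/-- **(P1-K)** the congruence `U_q y ≡ φ y` at the component `∞`: for every Frobenius lift `φ` at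
`A | q`, `q ∣ N`, and every `y ≠ 0`: `U_q y / φ y ∈ ℚ̄^× · (1 + 𝔪_A)` -/
def T2fP1K : Prop :=
  ∀ (N : ℕ) [NeZero N] (q : ℕ), q.Prime → q ∣ N → ∀ A : ValuationSubring Kbar,
    A.LiesOverPrime q → ∀ φ : GQ, A.IsFrobeniusAt φ q →
      ∀ y : (↥(modularFunctionFieldBar N))ˣ,
        T2fInf N A (tkrHeckeUUnits N q y * (tkrSig N φ y)⁻¹)

/-- **(P4-K)** the Frobenius weights of the toric part: if `y ∈ tWsub` and both `y` and `w_q y` are
in `ℚ̄^× · (1 + 𝔪_A)` modulo `m`-th powers, then `φ² y = y ^ (q²) · t ^ m` -/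
def T2fP4K : Prop :=
  ∀ (N' q : ℕ) [NeZero N'] [Fact q.Prime] (h : ¬ q ∣ N') (A : ValuationSubring Kbar),
    A.LiesOverPrime q → ∀ φ : GQ, A.IsFrobeniusAt φ q → ∀ m : ℕ, Nat.Coprime m q → m ≠ 0 →
      ∀ y : (↥(modularFunctionFieldBar (N' * q)))ˣ, y ∈ tWsub Kbar (N' * q) m →
        (∃ s : (↥(modularFunctionFieldBar (N' * q)))ˣ, T2fInf (N' * q) A (y * s ^ m)) →
        (∃ s : (↥(modularFunctionFieldBar (N' * q)))ˣ,
          T2fInf (N' * q) A (Units.map ((t2w Kbar N' q h :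
            ↥(modularFunctionFieldBar (N' * q)) ≃ₐ[Kbar] ↥(modularFunctionFieldBar (N' * q))) :
            ↥(modularFunctionFieldBar (N' * q)) →* ↥(modularFunctionFieldBar (N' * q))) y
              * s ^ m)) →
        ∃ t : (↥(modularFunctionFieldBar (N' * q)))ˣ,
          tkrSig (N' * q) φ (tkrSig (N' * q) φ y) = y ^ (q ^ 2) * t ^ m

/-- **(H8)**: for `q ∥ N`, `q ≠ p`, an eigencharacter `lam` which is new at `q` has
`lam(U_q)² = 1`, and every Frobenius lift `φ` at `q` satisfies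
`(φ² - q²)(φ - U_q) = 0` on the `lam`-eigen-lattice -/
def T2fH8 (p : ℕ) [Fact p.Prime] (N : ℕ) [NeZero N] {T : Type} [AddCommGroup T] [Module ℤ_[p] T]
    (gal : GQ →* Module.End ℤ_[p] T)
    (hecke : CuspForm.heckeAlgebra N 2 (∅ : Set ℕ) →+* Module.End ℤ_[p] T) : Prop :=
  ∀ (q : ℕ) (hq : q.Prime) (hqN : q ∣ N), q ≠ p → ∀ (N' : ℕ) [NeZero N'], N = N' * q → ¬ q ∣ N' →
    ∀ (𝒪 : Type) [CommRing 𝒪] [IsDomain 𝒪] [IsDiscreteValuationRing 𝒪] [CharZero 𝒪]
      [Algebra ℤ_[p] 𝒪] (lam : CuspForm.heckeAlgebra N 2 (∅ : Set ℕ) →+* 𝒪),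
      T2fNewAt N N' lam →
      lam (CuspForm.heckeAlgebra.U hq hqN (Set.notMem_empty q)) ^ 2 = 1 ∧
      ∀ A : ValuationSubring Kbar, A.LiesOverPrime q → ∀ φ : GQ, A.IsFrobeniusAt φ q →
        ∀ v ∈ teEigen hecke lam,
          (((gal φ * gal φ - ((q : ℤ_[p]) ^ 2) • (1 : Module.End ℤ_[p] T)) *
            (gal φ - hecke (CuspForm.heckeAlgebra.U hq hqN (Set.notMem_empty q)))).baseChange 𝒪)
              v = 0

/-- the Tate module package of `J₀(N)` with the additional property (H8) -/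
def T2fPackage (p : ℕ) [Fact p.Prime] (N : ℕ) [NeZero N] : Prop :=
  ∃ (T : Type) (_ : AddCommGroup T) (_ : Module ℤ_[p] T) (_ : Module.Free ℤ_[p] T)
    (_ : Module.Finite ℤ_[p] T) (gal : GQ →* Module.End ℤ_[p] T)
    (hecke : CuspForm.heckeAlgebra N 2 (∅ : Set ℕ) →+* Module.End ℤ_[p] T),
    (∀ σ t, gal σ * hecke t = hecke t * gal σ) ∧
    (∀ n : ℕ, ∃ L : IntermediateField ℚ Kbar, FiniteDimensional ℚ L ∧
      ∀ σ : GQ, (∀ x ∈ L, σ x = x) → ∀ v : T, ∃ w : T, gal σ v - v = (p : ℤ_[p]) ^ n • w) ∧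
    (∀ q : ℕ, q.Prime → ¬ q ∣ N → q ≠ p → ∀ P : ValuationSubring Kbar,
      P.LiesOverPrime q → ∀ σ ∈ P.inertiaSubgroupIn ℚ, gal σ = 1) ∧
    (∀ (l : ℕ) (hl : l.Prime) (hlN : ¬ l ∣ N), l ≠ p → ∀ A : ValuationSubring Kbar,
      A.LiesOverPrime l → ∀ σ : GQ, A.IsFrobeniusAt σ l →
        gal σ * gal σ - hecke (CuspForm.heckeAlgebra.T hl hlN (Set.notMem_empty l)) * gal σ +
          (l : ℤ_[p]) • (1 : Module.End ℤ_[p] T) = 0) ∧
    T2fH8 p N gal hecke ∧
    (∀ (𝒪 : Type) [CommRing 𝒪] [IsDomain 𝒪] [IsDiscreteValuationRing 𝒪] [CharZero 𝒪]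
      [Algebra ℤ_[p] 𝒪] (lam : CuspForm.heckeAlgebra N 2 (∅ : Set ℕ) →+* 𝒪),
      Module.finrank 𝒪 ↥(teEigen hecke lam) = 2 ∧
      ∃ c : GQ, ∃ v ∈ teEigen hecke lam, ∀ z : 𝒪, (gal c).baseChange 𝒪 v ≠ z • v)

end Fermat.Agent.T2
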