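/-
T2-F, F3 (helper4): **interface statements for the proof of `T2fP4K`**.
* `T2fP4KAt N' q h`: the statement (P4-K) at a fixed level `N' q`;
* `T2fP4KGood`: (P4-K) at the levels with `4 ∣ N'` or `9 ∣ N'` (where the T2-C instance exists);
* `T2fExport`: the export of T2-C (helper9) in the shape needed here: for every normal subgroup `H`
  of finite index of inertia a `T2Setup` on `t2iBase2Fix 𝔓 H N' h` with the symmetric chart, the
  Riemann–Roch numbers of `F_K` and the Frobenius compatibility (FR) of the node evaluation `ev`.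
Plan: `T2fExport → T2fP4KGood` (helper4, `Lib/T2/F/Toric*.lean`), `T2fP4KGood → T2fP4K` (level
descent).
-/
import Mathlib
import Fermat.Agent.Lib.T2.F.Defs
import Fermat.Agent.Lib.T2.Gal.Adapter

set_option autoImplicit false
set_option linter.unusedSectionVars false
set_option linter.unusedVariables false
set_option linter.style.haveILetI false

namespace Fermat.Agent.T2

open ModularCurve Module AlgebraicCurve IntermediateField Fermat.Agent.Curve
  Fermat.Agent.T1 Fermat.Agent.TW Fermat.Agent.S24Lib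

local notation "Kbar" => AlgebraicClosure ℚ
local notation "GQ" => (AlgebraicClosure ℚ ≃ₐ[ℚ] AlgebraicClosure ℚ)

attribute [local instance] t2i_dvr t2i_isAlgClosed t2i_charP t2i_fact

/-- **(P4-K) at the level `N' q`** -/
def T2fP4KAt (N' q : ℕ) [NeZero N'] [Fact q.Prime] (h : ¬ q ∣ N') : Prop :=
  ∀ A : ValuationSubring Kbar,
    A.LiesOverPrime q → ∀ φ : GQ, A.IsFrobeniusAt φ q → ∀ m : ℕ, Nat.Coprime m q → m ≠ 0 →
      ∀ y : (↥(modularFunctionFieldBar (N' * q)))ˣ, y ∈ tWsub Kbar (N' * q) m →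
        (∃ s : (↥(modularFunctionFieldBar (N' * q)))ˣ, T2fInf (N' * q) A (y * s ^ m)) →
        (∃ s : (↥(modularFunctionFieldBar (N' * q)))ˣ,
          T2fInf (N' * q) A (Units.map ((t2w Kbar N' q h :
            ↥(modularFunctionFieldBar (N' * q)) ≃ₐ[Kbar] ↥(modularFunctionFieldBar (N' * q))) :
            ↥(modularFunctionFieldBar (N' * q)) →* ↥(modularFunctionFieldBar (N' * q))) y
              * s ^ m)) →
        ∃ t : (↥(modularFunctionFieldBar (N' * q)))ˣ,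
          tkrSig (N' * q) φ (tkrSig (N' * q) φ y) = y ^ (q ^ 2) * t ^ m

/-- (P4-K) at the levels with `4 ∣ N'` or `9 ∣ N'` -/
def T2fP4KGood : Prop :=
  ∀ (N' q : ℕ) [NeZero N'] [Fact q.Prime] (h : ¬ q ∣ N'), (4 ∣ N' ∨ 9 ∣ N') → T2fP4KAt N' q h

theorem t2f_P4K_iff_at : T2fP4K ↔ ∀ (N' q : ℕ) [NeZero N'] [Fact q.Prime] (h : ¬ q ∣ N'),
    T2fP4KAt N' q h :=
  ⟨fun hP N' q _ _ h A hA φ hφ m hm hm0 y hy h1 h2 => hP N' q h A hA φ hφ m hm hm0 y hy h1 h2,
    fun hP N' q _ _ h A hA φ hφ m hm hm0 y hy h1 h2 => hP N' q h A hA φ hφ m hm hm0 y hy h1 h2⟩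

/-- **the export of T2-C in the shape needed for (P4-K)**: as `T2gExport`, for ALL normal subgroups
`H` of finite index of inertia, with the Frobenius compatibility (FR) of the node evaluation -/
def T2fExport : Prop :=
  ∀ (𝔓 : FFPlace) (N' : ℕ) [NeZero N'] (h : ¬ 𝔓.p ∣ N'), (4 ∣ N' ∨ 9 ∣ N') →
    ∀ m : ℕ, Nat.Coprime m 𝔓.p →
      ∃ Q : ℕ, 2 ≤ Q ∧
        ∀ (H : Subgroup 𝔓.I) [H.FiniteIndex] [H.Normal],
          ∃ (n : ℕ) (su : T2Setup (t2iBase2Fix 𝔓 H N' h) (Fin n)),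
            su.m = m ∧ su.x = t2gaX 𝔓 H N' h Q ∧
            (su.n : ℤ) = finrank ↥Kbar⟮tbPhiF 𝔓 (N' * 𝔓.p) H su.x⟯
              ↥(modularFunctionFieldBar (N' * 𝔓.p)) ∧
            su.c = 1 - CurveP.genusR Kbar ↥(modularFunctionFieldBar (N' * 𝔓.p)) ∧
            ∀ r r' : ↥(t2R (k := IsLocalRing.ResidueField ↥𝔓.P) su.xb),
              (((r' : ↥(tbBarF 𝔓 N') × ↥(tbBarF 𝔓 N')).1 : ↥(tbBarF 𝔓 N')) :
                  LaurentSeries (IsLocalRing.ResidueField ↥𝔓.P)) =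
                coeffMap (frobenius (IsLocalRing.ResidueField ↥𝔓.P) 𝔓.p)
                  (coeffMap (frobenius (IsLocalRing.ResidueField ↥𝔓.P) 𝔓.p)
                    (((r : ↥(tbBarF 𝔓 N') × ↥(tbBarF 𝔓 N')).1 : ↥(tbBarF 𝔓 N')) :
                      LaurentSeries (IsLocalRing.ResidueField ↥𝔓.P))) →
              (((r' : ↥(tbBarF 𝔓 N') × ↥(tbBarF 𝔓 N')).2 : ↥(tbBarF 𝔓 N')) :
                  LaurentSeries (IsLocalRing.ResidueField ↥𝔓.P)) =
                coeffMap (frobenius (IsLocalRing.ResidueField ↥𝔓.P) 𝔓.p)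
                  (coeffMap (frobenius (IsLocalRing.ResidueField ↥𝔓.P) 𝔓.p)
                    (((r : ↥(tbBarF 𝔓 N') × ↥(tbBarF 𝔓 N')).2 : ↥(tbBarF 𝔓 N')) :
                      LaurentSeries (IsLocalRing.ResidueField ↥𝔓.P))) →
              su.ev r' = su.ev r ^ (𝔓.p ^ 2)

/-- the export for (P4-K) contains the export for S34 -/
theorem t2f_export_to_g (hE : T2fExport) : T2gExport := by
  intro 𝔓 N' _ h h49 m hm
  obtain ⟨Q, hQ, hall⟩ := hE 𝔓 N' h h49 m hm
  refine ⟨Q, hQ, ⊤, inferInstance, fun H _ _ _ => ?_⟩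
  obtain ⟨n, su, h1, h2, h3, h4, -⟩ := hall H
  exact ⟨n, su, h1, h2, h3, h4⟩

end Fermat.Agent.T2
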