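/-
T2-F F3 (helper5), part (e): **descent of the level** for (P4-K).

`t2f_P4KAt_of_mul`: the statement `T2fP4KAt (N' * e) q` at the level `N' e q` implies the statement
`T2fP4KAt N' q` at the level `N' q` (`q ∤ N' e`): view `y, s, s'` in `F_{N' e q} ⊇ F_{N' q}`
(`tkr_pull_tWsub`; `T2fInf` only sees the `q`-expansion; `w_q` at the level `N' e q` restricts to
`w_q` at the level `N' q`), and descend the `m`-th root with (K2) (`tkr_root_descend_mul`) and the
divisibility of the order at the cusp `0` (`tdd_cusp_dvd`).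

`t2f_P4K_of_good : T2fP4KGood → T2fP4K`: raise the level by `4` (`q` odd) or `9` (`q = 2`).
-/
import Fermat.Agent.Lib.T2.F.ToricDefs
import Fermat.Agent.Lib.T2.Gal.Level

set_option autoImplicit false
set_option linter.unusedSectionVars false
set_option linter.unusedVariables false
set_option linter.style.haveILetI false

namespace Fermat.Agent.T2

open ModularCurve HahnSeries AlgebraicCurve Fermat.Agent.T1 Fermat.Agent.S24Lib
open ModularGroup (S T)

local notation "Kbar" => AlgebraicClosure ℚ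
local notation "GQ" => (AlgebraicClosure ℚ ≃ₐ[ℚ] AlgebraicClosure ℚ)

section Inc

variable (N' q e : ℕ) [NeZero N'] [NeZero e] [hq : Fact q.Prime]

/-- `F_{N' q} ⊆ F_{N' e q}` -/
theorem t2fl_le : modularFunctionFieldBar (N' * q) ≤ modularFunctionFieldBar (N' * e * q) := by
  intro y hy
  have h1 := tkr_bar_mono (N' * q) e hy
  rwa [Nat.mul_right_comm] at h1

/-- the inclusion `F_{N' q} → F_{N' e q}` -/
noncomputable def t2flInc :
    ↥(modularFunctionFieldBar (N' * q)) →ₐ[Kbar] ↥(modularFunctionFieldBar (N' * e * q)) :=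
  IntermediateField.inclusion (t2fl_le N' q e)

theorem coe_t2flInc (x : ↥(modularFunctionFieldBar (N' * q))) :
    ((t2flInc N' q e x : ↥(modularFunctionFieldBar (N' * e * q))) : LaurentSeries Kbar) =
      (x : LaurentSeries Kbar) :=
  IntermediateField.coe_inclusion (t2fl_le N' q e) x

/-- the inclusion on units -/
noncomputable def t2flIncU :
    (↥(modularFunctionFieldBar (N' * q)))ˣ →* (↥(modularFunctionFieldBar (N' * e * q)))ˣ :=
  Units.map ((t2flInc N' q e : ↥(modularFunctionFieldBar (N' * q)) →+*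
    ↥(modularFunctionFieldBar (N' * e * q))) : ↥(modularFunctionFieldBar (N' * q)) →*
    ↥(modularFunctionFieldBar (N' * e * q)))

theorem coe_t2flIncU (y : (↥(modularFunctionFieldBar (N' * q)))ˣ) :
    (((t2flIncU N' q e y : (↥(modularFunctionFieldBar (N' * e * q)))ˣ) :
      ↥(modularFunctionFieldBar (N' * e * q))) : LaurentSeries Kbar) =
      ((y : ↥(modularFunctionFieldBar (N' * q))) : LaurentSeries Kbar) := by
  rw [t2flIncU, Units.coe_map]
  exact coe_t2flInc N' q e (y : ↥(modularFunctionFieldBar (N' * q)))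

/-- the Galois action commutes with the change of level -/
theorem t2fl_sig (φ : GQ) (y : (↥(modularFunctionFieldBar (N' * q)))ˣ) :
    tkrSig (N' * e * q) φ (t2flIncU N' q e y) = t2flIncU N' q e (tkrSig (N' * q) φ y) := by
  apply Units.ext
  apply Subtype.ext
  rw [tkrSig_coe, coe_t2flIncU, coe_t2flIncU, tkrSig_coe]

/-- `T2fInf` only sees the `q`-expansion -/
theorem t2fl_inf (A : ValuationSubring Kbar) {Y : (↥(modularFunctionFieldBar (N' * q)))ˣ}
    (hY : T2fInf (N' * q) A Y) : T2fInf (N' * e * q) A (t2flIncU N' q e Y) := by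
  obtain ⟨c, hc, a, b, hab, hb, hrep⟩ := hY
  refine ⟨c, hc, a, b, hab, hb, ?_⟩
  rw [coe_t2flIncU]
  exact hrep

/-- transport of `tWsub` along an equality of levels -/
theorem t2fl_tWsub_congr {N₁ N₂ : ℕ} (hN : N₁ = N₂) (m : ℕ)
    {y₁ : (↥(modularFunctionFieldBar N₁))ˣ} {y₂ : (↥(modularFunctionFieldBar N₂))ˣ}
    (hy : ((y₁ : ↥(modularFunctionFieldBar N₁)) : LaurentSeries Kbar) =
      ((y₂ : ↥(modularFunctionFieldBar N₂)) : LaurentSeries Kbar))
    (h₁ : y₁ ∈ tWsub Kbar N₁ m) : y₂ ∈ tWsub Kbar N₂ m := by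
  subst hN
  have : y₁ = y₂ := Units.ext (Subtype.ext hy)
  rwa [← this]

/-- pull-back of `tWsub` -/
theorem t2fl_tWsub (m : ℕ) {y : (↥(modularFunctionFieldBar (N' * q)))ˣ}
    (hy : y ∈ tWsub Kbar (N' * q) m) : t2flIncU N' q e y ∈ tWsub Kbar (N' * e * q) m := by
  have h1 := tkr_pull_tWsub (N' * q) e m hy
  refine t2fl_tWsub_congr (Nat.mul_right_comm N' q e) m ?_ h1
  rw [coe_t2flIncU]
  exact coe_heckeAlphaBar _ _ _

end Inc

section W

variable (N' q e : ℕ) [NeZero N'] [NeZero e] [hq : Fact q.Prime] (h : ¬ q ∣ N')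
  (h' : ¬ q ∣ N' * e)

theorem t2fl_inc_jd {d : ℕ} (hd : d ∣ N' * q) (hd' : d ∣ N' * e * q) :
    t2flInc N' q e (t2wJd Kbar (N' * q) d hd) = t2wJd Kbar (N' * e * q) d hd' := by
  haveI : NeZero d := t2w_neZero_of_dvd (N' * q) hd
  apply Subtype.ext
  rw [coe_t2flInc, coe_t2wJd, coe_t2wJd]

/-- **`w_q` at the level `N' e q` restricts to `w_q` at the level `N' q`** -/
theorem t2fl_w (x : ↥(modularFunctionFieldBar (N' * q))) :
    t2w Kbar (N' * e) q h' (t2flInc N' q e x) = t2flInc N' q e (t2w Kbar N' q h x) := by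
  have key : (((t2w Kbar (N' * e) q h' : ↥(modularFunctionFieldBar (N' * e * q)) ≃ₐ[Kbar]
        ↥(modularFunctionFieldBar (N' * e * q))) : ↥(modularFunctionFieldBar (N' * e * q)) →+*
        ↥(modularFunctionFieldBar (N' * e * q))).comp
        ((t2flInc N' q e : ↥(modularFunctionFieldBar (N' * q)) →ₐ[Kbar]
          ↥(modularFunctionFieldBar (N' * e * q))) : ↥(modularFunctionFieldBar (N' * q)) →+*
          ↥(modularFunctionFieldBar (N' * e * q))))
      = ((t2flInc N' q e : ↥(modularFunctionFieldBar (N' * q)) →ₐ[Kbar]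
          ↥(modularFunctionFieldBar (N' * e * q))) : ↥(modularFunctionFieldBar (N' * q)) →+*
          ↥(modularFunctionFieldBar (N' * e * q))).comp
        ((t2w Kbar N' q h : ↥(modularFunctionFieldBar (N' * q)) ≃ₐ[Kbar]
          ↥(modularFunctionFieldBar (N' * q))) : ↥(modularFunctionFieldBar (N' * q)) →+*
          ↥(modularFunctionFieldBar (N' * q))) := by
    apply t2w_ringHom_ext
    · intro c
      simp
    · intro d hd
      rcases t2w_dvd_cases N' q hq.out hd with hd' | ⟨d', hd', rfl⟩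
      · have hde : d ∣ N' * e := hd'.mul_right e
        show t2w Kbar (N' * e) q h' (t2flInc N' q e (t2wJd Kbar (N' * q) d hd))
          = t2flInc N' q e (t2w Kbar N' q h (t2wJd Kbar (N' * q) d hd))
        rw [t2fl_inc_jd N' q e hd (t2w_dvd₁ (N' * e) q hde), t2w_jd₁ Kbar (N' * e) q h' hde,
          t2w_jd₁ Kbar N' q h hd', t2fl_inc_jd N' q e (t2w_dvd₂ N' q hd') (t2w_dvd₂ (N' * e) q hde)]
      · have hde : d' ∣ N' * e := hd'.mul_right e
        show t2w Kbar (N' * e) q h' (t2flInc N' q e (t2wJd Kbar (N' * q) (q * d') hd))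
          = t2flInc N' q e (t2w Kbar N' q h (t2wJd Kbar (N' * q) (q * d') hd))
        rw [t2fl_inc_jd N' q e hd (t2w_dvd₂ (N' * e) q hde), t2w_jd₂ Kbar (N' * e) q h' hde,
          t2w_jd₂ Kbar N' q h hd', t2fl_inc_jd N' q e (t2w_dvd₁ N' q hd') (t2w_dvd₁ (N' * e) q hde)]
  exact RingHom.congr_fun key x

/-- the same on units -/
theorem t2fl_wU (y : (↥(modularFunctionFieldBar (N' * q)))ˣ) :
    Units.map ((t2w Kbar (N' * e) q h' :
        ↥(modularFunctionFieldBar (N' * e * q)) ≃ₐ[Kbar] ↥(modularFunctionFieldBar (N' * e * q))) :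
        ↥(modularFunctionFieldBar (N' * e * q)) →* ↥(modularFunctionFieldBar (N' * e * q)))
      (t2flIncU N' q e y)
    = t2flIncU N' q e (Units.map ((t2w Kbar N' q h :
        ↥(modularFunctionFieldBar (N' * q)) ≃ₐ[Kbar] ↥(modularFunctionFieldBar (N' * q))) :
        ↥(modularFunctionFieldBar (N' * q)) →* ↥(modularFunctionFieldBar (N' * q))) y) := by
  apply Units.ext
  exact t2fl_w N' q e h h' (y : ↥(modularFunctionFieldBar (N' * q)))

end W

section Main

/-- **descent of the level** for (P4-K): the statement at the level `N' e q` implies the statement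
at the level `N' q` -/
theorem t2f_P4KAt_of_mul (N' q e : ℕ) [NeZero N'] [NeZero e] [hq : Fact q.Prime] (h : ¬ q ∣ N')
    (h' : ¬ q ∣ N' * e) (hup : T2fP4KAt (N' * e) q h') : T2fP4KAt N' q h := by
  intro A hA φ hφ m hm hm0 y hy hinf1 hinf2
  obtain ⟨s₁, hs₁⟩ := hinf1
  obtain ⟨s₂, hs₂⟩ := hinf2
  -- the hypotheses at the level `N' e q`
  have hy' : t2flIncU N' q e y ∈ tWsub Kbar (N' * e * q) m := t2fl_tWsub N' q e m hy
  have h1 : T2fInf (N' * e * q) A (t2flIncU N' q e y * t2flIncU N' q e s₁ ^ m) := by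
    have := t2fl_inf N' q e A hs₁
    rwa [map_mul, map_pow] at this
  have h2 : T2fInf (N' * e * q) A
      (Units.map ((t2w Kbar (N' * e) q h' :
        ↥(modularFunctionFieldBar (N' * e * q)) ≃ₐ[Kbar] ↥(modularFunctionFieldBar (N' * e * q))) :
        ↥(modularFunctionFieldBar (N' * e * q)) →* ↥(modularFunctionFieldBar (N' * e * q)))
        (t2flIncU N' q e y) * t2flIncU N' q e s₂ ^ m) := by
    have := t2fl_inf N' q e A hs₂
    rwa [map_mul, map_pow, ← t2fl_wU N' q e h h'] at this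
  obtain ⟨ts, hts⟩ := hup A hA φ hφ m hm hm0 (t2flIncU N' q e y) hy' ⟨_, h1⟩ ⟨_, h2⟩
  -- the quotient `u = φ² y / y ^ (q²)`
  set u : (↥(modularFunctionFieldBar (N' * q)))ˣ :=
    tkrSig (N' * q) φ (tkrSig (N' * q) φ y) * (y ^ (q ^ 2))⁻¹ with hu
  have huW : u ∈ tWsub Kbar (N' * q) m :=
    (tWsub Kbar (N' * q) m).mul_mem
      (tkrSig_mem_tWsub (N' * q) m φ (tkrSig_mem_tWsub (N' * q) m φ hy))
      ((tWsub Kbar (N' * q) m).inv_mem ((tWsub Kbar (N' * q) m).pow_mem hy (q ^ 2)))
  have hιu : t2flIncU N' q e u = ts ^ m := by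
    rw [hu, map_mul, map_inv, map_pow, ← t2fl_sig, ← t2fl_sig, hts]
    exact mul_inv_cancel_comm _ _
  have hcoe : ((ts : ↥(modularFunctionFieldBar (N' * e * q))) : LaurentSeries Kbar) ^ m
      = ((u : ↥(modularFunctionFieldBar (N' * q))) : LaurentSeries Kbar) := by
    rw [← coe_t2flIncU N' q e u, hιu, Units.val_pow_eq_pow_val, SubmonoidClass.coe_pow]
  have htsmem : ((ts : ↥(modularFunctionFieldBar (N' * e * q))) : LaurentSeries Kbar)
      ∈ modularFunctionFieldBar (N' * q * e) := by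
    have key : ∀ z : LaurentSeries Kbar, z ∈ modularFunctionFieldBar (N' * e * q) →
        z ∈ modularFunctionFieldBar (N' * q * e) := by
      intro z hz
      rwa [Nat.mul_right_comm] at hz
    exact key _ (ts : ↥(modularFunctionFieldBar (N' * e * q))).2
  have hgN : ((ts : ↥(modularFunctionFieldBar (N' * e * q))) : LaurentSeries Kbar)
      ∈ modularFunctionFieldBar (N' * q) :=
    tkr_root_descend_mul hm0 e (NeZero.ne e) (N' * q) (u : ↥(modularFunctionFieldBar (N' * q))).2
      htsmem hcoe (tdd_cusp_dvd (N' * q) m u huW S)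
  have hg0 : (⟨((ts : ↥(modularFunctionFieldBar (N' * e * q))) : LaurentSeries Kbar), hgN⟩ :
      ↥(modularFunctionFieldBar (N' * q))) ≠ 0 := by
    intro h0
    have h3 : ((ts : ↥(modularFunctionFieldBar (N' * e * q))) : LaurentSeries Kbar) = 0 :=
      congrArg Subtype.val h0
    have h4 : (ts : ↥(modularFunctionFieldBar (N' * e * q))) = 0 := Subtype.ext h3
    exact ts.ne_zero h4
  refine ⟨Units.mk0 _ hg0, ?_⟩
  have hut : u = Units.mk0 _ hg0 ^ m := by
    apply Units.ext
    apply Subtype.ext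
    rw [Units.val_pow_eq_pow_val, Units.val_mk0, SubmonoidClass.coe_pow]
    exact hcoe.symm
  rw [← hut, hu, mul_comm (y ^ (q ^ 2)), inv_mul_cancel_right]

/-- **reduction of (P4-K) to the good levels** `4 ∣ N'` or `9 ∣ N'` -/
theorem t2f_P4K_of_good (hgood : T2fP4KGood) : T2fP4K := by
  rw [t2f_P4K_iff_at]
  intro N' q _ hq h
  by_cases h2 : q = 2
  · -- `q = 2`: raise the level by `9`
    have h' : ¬ q ∣ N' * 9 := by
      intro hdvd
      rcases (Nat.Prime.dvd_mul hq.out).mp hdvd with h3 | h3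
      · exact h h3
      · rw [h2] at h3
        omega
    exact t2f_P4KAt_of_mul N' q 9 h h' (hgood (N' * 9) q h' (Or.inr (Dvd.intro_left N' rfl)))
  · -- `q` odd: raise the level by `4`
    have h' : ¬ q ∣ N' * 4 := by
      intro hdvd
      rcases (Nat.Prime.dvd_mul hq.out).mp hdvd with h3 | h3
      · exact h h3
      · have h4 : q ∣ 2 ^ 2 := by norm_num; exact h3
        exact h2 ((Nat.prime_dvd_prime_iff_eq hq.out Nat.prime_two).mp (hq.out.dvd_of_dvd_pow h4))
    exact t2f_P4KAt_of_mul N' q 4 h h' (hgood (N' * 4) q h' (Or.inl (Dvd.intro_left N' rfl)))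

end Main

end Fermat.Agent.T2
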