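/-
T2-F, F3 (helper4): **the node data with its kernel and the Frobenius compatibility**.
Strengthening of `t2ni_exists_prod` / `t2fe_node_prod` (helper5): the same `ev`, with in addition
`ev r = 0` when both components of `r` are of the form `g - Θ g`, and, for the modular function
field `E`, `ev (Fr² r) = (ev r) ^ (q²)` for the coefficientwise Frobenius `Fr` (needed for (P4),
the Frobenius weights of the toric part).
-/
import Fermat.Agent.Lib.T2.Inst.FrobE

set_option autoImplicit false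
set_option linter.unusedSectionVars false
set_option linter.style.haveILetI false

noncomputable section

namespace Fermat.Agent.T2

open Polynomial IntermediateField ModularCurve HahnSeries Fermat.Agent.T1

section ND

universe u

variable {k : Type*} {E : Type u} [Field k] [Field E] [Algebra k E] (jb : E)
  (Q : ℕ) (ψ : E →+* E) (hψk : ∀ c : k, ∃ c' : k, ψ (algebraMap k E c) = algebraMap k E c')
  (hψj : ψ jb = jb) (Θ : E →ₐ[k] E) (hΘ : ∀ f, Θ f = ψ f ^ Q)
  (hjb : Transcendental k jb) [hfd : FiniteDimensional ↥k⟮jb⟯ E]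
  [hsep : Algebra.IsSeparable ↥k⟮jb⟯ E] [IsAlgClosed k]

include hψk hψj hΘ hjb hfd hsep in
/-- **the node data on the product, with the kernel**: as `t2ni_exists_prod`, and moreover `ev`
kills every `r` both of whose components are of the form `g - Θ g`, `g ∈ R'` -/
theorem t2fd_exists_prod (hQ : 2 ≤ Q) (a b : E) (ha : a ∈ Algebra.adjoin k {jb})
    (hb : b ∈ Algebra.adjoin k {jb}) :
    ∃ (n : ℕ) (ev : ↥(t2R (k := k) ((a, b) : E × E)) →ₐ[k] (Fin n → k)),
      (∀ S₁ : Subalgebra k (E × E),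
        (∀ f ∈ t2R (k := k) jb, ∃ f' : E, (f, f') ∈ S₁) →
        (∀ f ∈ t2R (k := k) jb, ∃ f' : E, (f', f) ∈ S₁) →
        (∀ f ∈ t2R (k := k) jb, (f - Θ f, (0 : E)) ∈ S₁) →
        (∀ f ∈ t2R (k := k) jb, ((0 : E), f - Θ f) ∈ S₁) →
        ∀ r, ev r = 0 → (r : E × E) ∈ S₁) ∧
      (∀ r : ↥(t2R (k := k) ((a, b) : E × E)),
        (∃ g ∈ t2R (k := k) jb, (r : E × E).1 = g - Θ g) →
        (∃ g ∈ t2R (k := k) jb, (r : E × E).2 = g - Θ g) → ev r = 0) ∧
      ∀ r r' : ↥(t2R (k := k) ((a, b) : E × E)),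
        ψ (r' : E × E).1 = (r : E × E).1 → ψ (r' : E × E).2 = (r : E × E).2 →
        ev r' = ev r ^ Q := by
  obtain ⟨n, ev', -, hker, -⟩ := t2ni_exists_fin (k := k) jb Q ψ hψk hψj Θ hΘ hjb hQ
  -- the two projections
  let p₁ : ↥(t2R (k := k) ((a, b) : E × E)) →ₐ[k] ↥(t2R (k := k) jb) :=
    ((AlgHom.fst k E E).comp (t2R (k := k) ((a, b) : E × E)).val).codRestrict (t2R (k := k) jb)
      (fun r => by
        have h : IsIntegral ↥(Algebra.adjoin k {((a, b) : E × E).1}) (r : E × E).1 :=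
          t2c_isIntegral_fst r.2
        have h' : IsIntegral ↥(Algebra.adjoin k {jb}) (r : E × E).1 :=
          t2c_isIntegral_of_mem_adjoin ha h
        exact h')
  let p₂ : ↥(t2R (k := k) ((a, b) : E × E)) →ₐ[k] ↥(t2R (k := k) jb) :=
    ((AlgHom.snd k E E).comp (t2R (k := k) ((a, b) : E × E)).val).codRestrict (t2R (k := k) jb)
      (fun r => by
        have h : IsIntegral ↥(Algebra.adjoin k {((a, b) : E × E).2}) (r : E × E).2 :=
          t2c_isIntegral_snd r.2
        have h' : IsIntegral ↥(Algebra.adjoin k {jb}) (r : E × E).2 :=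
          t2c_isIntegral_of_mem_adjoin hb h
        exact h')
  have hp₁ : ∀ r, ((p₁ r : ↥(t2R (k := k) jb)) : E) = (r : E × E).1 := fun _ => rfl
  have hp₂ : ∀ r, ((p₂ r : ↥(t2R (k := k) jb)) : E) = (r : E × E).2 := fun _ => rfl
  let e : Fin n ⊕ Fin n ≃ Fin (n + n) := finSumFinEquiv
  let ev : ↥(t2R (k := k) ((a, b) : E × E)) →ₐ[k] (Fin (n + n) → k) :=
    AlgHom.pi (R := k) (A := fun _ : Fin (n + n) => k) (fun i => Sum.rec
      (fun s => (Pi.evalAlgHom k (fun _ : Fin n => k) s).comp (ev'.comp p₁))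
      (fun s => (Pi.evalAlgHom k (fun _ : Fin n => k) s).comp (ev'.comp p₂)) (e.symm i))
  have hev₁ : ∀ r s, ev r (e (Sum.inl s)) = ev' (p₁ r) s := by
    intro r s
    show (Sum.rec (motive := fun _ => ↥(t2R (k := k) ((a, b) : E × E)) →ₐ[k] k) _ _
      (e.symm (e (Sum.inl s)))) r = _
    rw [Equiv.symm_apply_apply]
    rfl
  have hev₂ : ∀ r s, ev r (e (Sum.inr s)) = ev' (p₂ r) s := by
    intro r s
    show (Sum.rec (motive := fun _ => ↥(t2R (k := k) ((a, b) : E × E)) →ₐ[k] k) _ _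
      (e.symm (e (Sum.inr s)))) r = _
    rw [Equiv.symm_apply_apply]
    rfl
  have hK : ∀ r : ↥(t2R (k := k) ((a, b) : E × E)),
      (∃ g ∈ t2R (k := k) jb, (r : E × E).1 = g - Θ g) →
      (∃ g ∈ t2R (k := k) jb, (r : E × E).2 = g - Θ g) → ev r = 0 := by
    rintro r ⟨g₁, hg₁, h1⟩ ⟨g₂, hg₂, h2⟩
    have hk1 : ev' (p₁ r) = 0 := by
      rw [hker]
      have : p₁ r = (⟨g₁, hg₁⟩ : ↥(t2R (k := k) jb)) -
          t2niThetaR jb Q ψ hψk hψj Θ hΘ ⟨g₁, hg₁⟩ := Subtype.ext (by rw [hp₁, h1]; rfl)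
      rw [this]
      exact t2ni_sub_mem jb Q ψ hψk hψj Θ hΘ _
    have hk2 : ev' (p₂ r) = 0 := by
      rw [hker]
      have : p₂ r = (⟨g₂, hg₂⟩ : ↥(t2R (k := k) jb)) -
          t2niThetaR jb Q ψ hψk hψj Θ hΘ ⟨g₂, hg₂⟩ := Subtype.ext (by rw [hp₂, h2]; rfl)
      rw [this]
      exact t2ni_sub_mem jb Q ψ hψk hψj Θ hΘ _
    funext i
    obtain ⟨s, rfl⟩ := e.surjective i
    rcases s with s | s
    · rw [hev₁, hk1]
      rfl
    · rw [hev₂, hk2]
      rfl
  refine ⟨n + n, ev, ?_, hK, ?_⟩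
  · intro S₁ hpr₁ hpr₂ hl hr r hzero
    have h1 : ev' (p₁ r) = 0 := by
      funext s
      rw [← hev₁, hzero]
      rfl
    have h2 : ev' (p₂ r) = 0 := by
      funext s
      rw [← hev₂, hzero]
      rfl
    rw [hker] at h1 h2
    -- `(t, 0) ∈ S₁` and `(0, t) ∈ S₁` for `t ∈ I₁`
    have hleft : ∀ t : ↥(t2R (k := k) jb), t ∈ t2niI jb Q ψ hψk hψj Θ hΘ →
        ((t : E), (0 : E)) ∈ S₁ := by
      intro t ht
      have ht' : t ∈ Submodule.span ↥(t2R (k := k) jb)
        (Set.range fun f : ↥(t2R (k := k) jb) => f - t2niThetaR jb Q ψ hψk hψj Θ hΘ f) := ht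
      refine Submodule.span_induction
        (p := fun (t : ↥(t2R (k := k) jb)) _ => ((t : E), (0 : E)) ∈ S₁) ?_ ?_ ?_ ?_ ht'
      · rintro _ ⟨f, rfl⟩
        exact hl f f.2
      · exact S₁.zero_mem
      · intro x y _ _ hx hy
        have := S₁.add_mem hx hy
        simpa using this
      · intro c x _ hx
        obtain ⟨c', hc'⟩ := hpr₁ c c.2
        have := S₁.mul_mem hc' hx
        simpa using this
    have hright : ∀ t : ↥(t2R (k := k) jb), t ∈ t2niI jb Q ψ hψk hψj Θ hΘ →
        ((0 : E), (t : E)) ∈ S₁ := by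
      intro t ht
      have ht' : t ∈ Submodule.span ↥(t2R (k := k) jb)
        (Set.range fun f : ↥(t2R (k := k) jb) => f - t2niThetaR jb Q ψ hψk hψj Θ hΘ f) := ht
      refine Submodule.span_induction
        (p := fun (t : ↥(t2R (k := k) jb)) _ => ((0 : E), (t : E)) ∈ S₁) ?_ ?_ ?_ ?_ ht'
      · rintro _ ⟨f, rfl⟩
        exact hr f f.2
      · exact S₁.zero_mem
      · intro x y _ _ hx hy
        have := S₁.add_mem hx hy
        simpa using this
      · intro c x _ hx
        obtain ⟨c', hc'⟩ := hpr₂ c c.2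
        have := S₁.mul_mem hc' hx
        simpa using this
    have := S₁.add_mem (hleft _ h1) (hright _ h2)
    rw [hp₁, hp₂] at this
    simpa using this
  · intro r r' h1 h2
    have hzero : ev (r' - r ^ Q) = 0 := by
      refine hK _ ⟨_, (p₁ r').2, ?_⟩ ⟨_, (p₂ r').2, ?_⟩
      · rw [hp₁, hΘ, h1]
        rfl
      · rw [hp₂, hΘ, h2]
        rfl
    rw [map_sub, map_pow, sub_eq_zero] at hzero
    exact hzero

end ND

section FE

universe u

variable (k : Type u) [Field k] (q : ℕ) [hq : Fact q.Prime] [CharP k q] [PerfectRing k q]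
  (N' : ℕ) [NeZero N']

/-- the coefficientwise inverse Frobenius undoes the coefficientwise Frobenius -/
theorem t2fd_coeffMap_frobInv_frob (f : LaurentSeries k) :
    coeffMap ((frobeniusEquiv k q).symm : k →+* k) (coeffMap (frobenius k q) f) = f := by
  rw [coeffMap_coeffMap]
  have : ((frobeniusEquiv k q).symm : k →+* k).comp (frobenius k q) = RingHom.id k := by
    ext c
    simp
  rw [coeffMap_congr this, coeffMap_id]

/-- `ψ²` undoes the square of the coefficientwise Frobenius -/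
theorem t2fd_psi_sq_eq {g f : ↥(modularFunctionFieldFullC k N')}
    (h : (g : LaurentSeries k) =
      coeffMap (frobenius k q) (coeffMap (frobenius k q) (f : LaurentSeries k))) :
    ((t2fePsi k q N').comp (t2fePsi k q N')) g = f := by
  apply Subtype.ext
  rw [RingHom.comp_apply, coe_t2fePsi, coe_t2fePsi, h, t2fd_coeffMap_frobInv_frob,
    t2fd_coeffMap_frobInv_frob]

variable [IsAlgClosed k] (hN : (N' : k) ≠ 0)

include hN

/-- **the node data `ev`, `hJ` of `T2Setup`, with the Frobenius compatibility**: as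
`t2fe_node_prod`, and moreover `ev (Fr² r) = (ev r) ^ (q²)` for the coefficientwise Frobenius
`Fr` -/
theorem t2fd_node_prod
    (a b : ↥(modularFunctionFieldFullC k N')) (ha : a ∈ Algebra.adjoin k {taBarJ k N'})
    (hb : b ∈ Algebra.adjoin k {taBarJ k N'}) :
    ∃ (n : ℕ) (ev : ↥(t2R (k := k) ((a, b) :
        ↥(modularFunctionFieldFullC k N') × ↥(modularFunctionFieldFullC k N'))) →ₐ[k] (Fin n → k)),
      (∀ S₁ : Subalgebra k
          (↥(modularFunctionFieldFullC k N') × ↥(modularFunctionFieldFullC k N')),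
        (∀ f ∈ t2R (k := k) (taBarJ k N'), (f, t2fePhi k q N' f) ∈ S₁) →
        (∀ f ∈ t2R (k := k) (taBarJ k N'), (t2fePhi k q N' f, f) ∈ S₁) →
        ∀ r, ev r = 0 →
          (r : ↥(modularFunctionFieldFullC k N') × ↥(modularFunctionFieldFullC k N')) ∈ S₁) ∧
      ∀ r r' : ↥(t2R (k := k) ((a, b) :
          ↥(modularFunctionFieldFullC k N') × ↥(modularFunctionFieldFullC k N'))),
        (((r' : ↥(modularFunctionFieldFullC k N') × ↥(modularFunctionFieldFullC k N')).1 :
            ↥(modularFunctionFieldFullC k N')) : LaurentSeries k) =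
          coeffMap (frobenius k q) (coeffMap (frobenius k q)
            (((r : ↥(modularFunctionFieldFullC k N') × ↥(modularFunctionFieldFullC k N')).1 :
              ↥(modularFunctionFieldFullC k N')) : LaurentSeries k)) →
        (((r' : ↥(modularFunctionFieldFullC k N') × ↥(modularFunctionFieldFullC k N')).2 :
            ↥(modularFunctionFieldFullC k N')) : LaurentSeries k) =
          coeffMap (frobenius k q) (coeffMap (frobenius k q)
            (((r : ↥(modularFunctionFieldFullC k N') × ↥(modularFunctionFieldFullC k N')).2 :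
              ↥(modularFunctionFieldFullC k N')) : LaurentSeries k)) →
        ev r' = ev r ^ (q ^ 2) := by
  haveI := ta_bar_finiteDimensional k N'
  haveI := ta_bar_isSeparable k N' hN
  obtain ⟨n, ev, h, -, hF⟩ := t2fd_exists_prod (k := k) (taBarJ k N') (q ^ 2)
    ((t2fePsi k q N').comp (t2fePsi k q N')) (t2fe_psi_sq_algebraMap k q N')
    (t2fe_psi_sq_J k q N') (t2feTheta k q N') (t2feTheta_eq k q N')
    (ta_bar_transcendental k N') (t2fe_two_le q) a b ha hb
  refine ⟨n, ev, fun S₁ hα hβ r hr => h S₁ (fun f hf => ⟨_, hα f hf⟩) (fun f hf => ⟨_, hβ f hf⟩)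
    ?_ ?_ r hr, ?_⟩
  · intro f hf
    have h1 := hα f hf
    have h2 := hβ (t2fePhi k q N' f) (t2fePhi_mem_t2R k q N' hf)
    have := S₁.sub_mem h1 h2
    simpa [t2feTheta_apply] using this
  · intro f hf
    have h1 := hβ f hf
    have h2 := hα (t2fePhi k q N' f) (t2fePhi_mem_t2R k q N' hf)
    have := S₁.sub_mem h1 h2
    simpa [t2feTheta_apply] using this
  · intro r r' h1 h2
    exact hF r r' (t2fd_psi_sq_eq k q N' h1) (t2fd_psi_sq_eq k q N' h2)

end FE

end Fermat.Agent.T2
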