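/-
T2-F, F3 (helper4): **(P4-K)**, the toric congruence `φ² y = y^(q²) t^m` over `ℚ̄`:
`t2f_P4K : T2fP4K`, assembled from

* `t2i_export : T2fExport` (helper9, `Lib/T2/Inst/ExportF.lean`): the `T2Setup` of T2-C at every
  level `H`, with the Frobenius compatibility (FR) of the node evaluation;
* `t2f_P4KGood_of_export` (helper4, `ToricMain.lean`): (P4-K) at the levels with `4 ∣ N'` or
  `9 ∣ N'`;
* `t2f_P4K_of_good` (helper5, `ToricLevel.lean`): level descent.
-/
import Fermat.Agent.Lib.T2.F.ToricMain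
import Fermat.Agent.Lib.T2.F.ToricLevel
import Fermat.Agent.Lib.T2.Inst.ExportF

set_option autoImplicit false

namespace Fermat.Agent.T2

/-- **(P4-K)** -/
theorem t2f_P4K : T2fP4K := t2f_P4K_of_good (t2f_P4KGood_of_export t2i_export)

end Fermat.Agent.T2
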