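/-
T2-F F3 (helper5), part (b): the **Frobenius-semilinear form of the two-component core**.

* `t2ft_core`: `su : T2Setup d σ`, `τ` a ring automorphism of `F` (in the application `φ²` at a
  finite level `H`, `φ` a Frobenius lift), `Q` a natural number (`= q²`), such that `τ⁻¹` preserves
  `𝒪` and integrality over `K[x]`, and such that for `f ∈ 𝒪` with `res f, res (τ⁻¹ f) ∈ R`:
  `ev (res f) = ev (res (τ⁻¹ f)) ^ Q`  (the reduction of `τ` is the `Q`-Frobenius, which fixes the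
  singular points).  For twists `tw₀` (by `z`), `tw₁` (by `τ z`), `tw₂` (by `z ^ Q`), `tw'` (by
  `τ z / z ^ Q`) the gluing invariants satisfy `M̄(τ z) ⊆ M̄(z ^ Q)`, and `t2_core` gives a global
  section of the twist by `τ z / z ^ Q` reducing to `1`.
* `t2ft_core_isIntegral`: the section unfolded.
* `t2ft_level`: at the level `H` of the modular function field: `tbPhiF (τ z / z ^ Q)` is an `m`-th
  power in `F_K = modularFunctionFieldBar N`.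
-/
import Fermat.Agent.Lib.T2.Gal.LevelCore

set_option autoImplicit false
set_option linter.unusedSectionVars false
set_option linter.style.haveILetI false

namespace Fermat.Agent.T2

open T1 (tbL tbLbar)

section Abstract

variable {K F k Fb : Type*} [Field K] [Field F] [Algebra K F] [Field k] [CommRing Fb] [Algebra k Fb]
variable {d : T2Base K F k Fb} {σ : Type*} [Fintype σ] {su : T2Setup d σ}

/-- **the Frobenius-semilinear form of the two-component core** -/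
theorem t2ft_core [DecidableEq σ] (τ : F ≃+* F) (Q : ℕ)
    (hτOv : ∀ f ∈ d.Ov, τ.symm f ∈ d.Ov)
    (hτint : ∀ f ∈ t2Int (K := K) su.x, τ.symm f ∈ t2Int (K := K) su.x)
    (hev : ∀ (f : F) (hf : f ∈ d.Ov) (h1 : d.res ⟨f, hf⟩ ∈ t2R (k := k) su.xb)
      (h2 : d.res ⟨τ.symm f, hτOv f hf⟩ ∈ t2R (k := k) su.xb),
      su.ev ⟨d.res ⟨f, hf⟩, h1⟩ = su.ev ⟨d.res ⟨τ.symm f, hτOv f hf⟩, h2⟩ ^ Q)
    (tw₀ tw₁ tw₂ tw' : T2Twist su) (hy₁ : tw₁.y = τ tw₀.y) (hy₂ : tw₂.y = tw₀.y ^ Q)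
    (hy' : tw'.y * tw₂.y = tw₁.y)
    (hL₀ : ∀ s : F, s ^ su.m * tw₀.y ∈ t2Int (K := K) su.x → s ∈ tw₀.L1)
    (hL₁ : ∀ s : F, s ^ su.m * tw₁.y ∈ t2Int (K := K) su.x → s ∈ tw₁.L1)
    (hL₂ : ∀ s : F, s ^ su.m * tw₂.y ∈ t2Int (K := K) su.x → s ∈ tw₂.L1) :
    ∃ s : F, s ∈ tw'.L1 ∧ s ∈ tw'.L2 ∧ ∃ h : s ∈ d.Ov, d.res ⟨s, h⟩ = 1 := by
  refine t2_core tw₁ tw₂ tw' ?_ ?_
  · intro s hs t ht
    apply hL₁
    have h1 := tw'.pow1 s hs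
    have h2 := tw₂.pow1 t ht
    have h3 := t2Int_mul h1 h2
    have h4 : (s * t) ^ su.m * tw₁.y = s ^ su.m * tw'.y * (t ^ su.m * tw₂.y) := by
      rw [← hy']; ring
    rw [h4]
    exact h3
  · rintro _ ⟨s, hs, rfl⟩
    -- `s' = τ⁻¹ s ∈ L1(z) ∩ 𝒪`
    have h1 := tw₁.pow1 s hs.1
    have h2 := hτint _ h1
    have h3 : τ.symm (s ^ su.m * tw₁.y) = (τ.symm s) ^ su.m * tw₀.y := by
      rw [map_mul, map_pow, hy₁, RingEquiv.symm_apply_apply]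
    rw [h3] at h2
    have hs'L : τ.symm s ∈ tw₀.L1 := hL₀ _ h2
    have hs'O : τ.symm s ∈ d.Ov := hτOv s hs.2
    -- `s' ^ Q ∈ L1(z ^ Q) ∩ 𝒪`
    have h4 : ((τ.symm s) ^ Q) ^ su.m * tw₂.y ∈ t2Int (K := K) su.x := by
      have h5 : ((τ.symm s) ^ Q) ^ su.m * tw₂.y = ((τ.symm s) ^ su.m * tw₀.y) ^ Q := by
        rw [hy₂]; ring
      rw [h5]
      exact IsIntegral.pow h2 Q
    have hsQL : (τ.symm s) ^ Q ∈ tw₂.L1 := hL₂ _ h4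
    have hsQO : (τ.symm s) ^ Q ∈ d.Ov := d.Ov.pow_mem hs'O Q
    have hmem2 : d.res ⟨(τ.symm s) ^ Q, hsQO⟩ ∈ tw₂.Mbar := ⟨_, ⟨hsQL, hsQO⟩, rfl⟩
    -- the difference lies in `ker ev ⊆ M̄(z ^ Q)`
    have hr : d.res ⟨s, hs.2⟩ ∈ t2R (k := k) su.xb := tw₁.res_mem_R hs.1 hs.2
    have hr' : d.res ⟨τ.symm s, hs'O⟩ ∈ t2R (k := k) su.xb := tw₀.res_mem_R hs'L hs'O
    have hker := tw₂.mult.1 ((⟨d.res ⟨s, hs.2⟩, hr⟩ : ↥(t2R (k := k) su.xb)) -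
      (⟨d.res ⟨τ.symm s, hs'O⟩, hr'⟩ : ↥(t2R (k := k) su.xb)) ^ Q)
      ((map_sub su.ev _ _).trans
        (sub_eq_zero.mpr ((hev s hs.2 hr hr').trans (map_pow su.ev _ Q).symm)))
    have h6 : d.res ⟨s, hs.2⟩ =
        (((⟨d.res ⟨s, hs.2⟩, hr⟩ : ↥(t2R (k := k) su.xb)) -
          (⟨d.res ⟨τ.symm s, hs'O⟩, hr'⟩ : ↥(t2R (k := k) su.xb)) ^ Q :
            ↥(t2R (k := k) su.xb)) : Fb) + d.res ⟨(τ.symm s) ^ Q, hsQO⟩ := by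
      rw [d.res_pow' hs'O Q]
      simp
    rw [h6]
    exact tw₂.Mbar.add_mem hker hmem2

/-- the section of `t2ft_core`, unfolded: `s ^ m * y'` is integral on both charts -/
theorem t2ft_core_isIntegral [DecidableEq σ] (τ : F ≃+* F) (Q : ℕ)
    (hτOv : ∀ f ∈ d.Ov, τ.symm f ∈ d.Ov)
    (hτint : ∀ f ∈ t2Int (K := K) su.x, τ.symm f ∈ t2Int (K := K) su.x)
    (hev : ∀ (f : F) (hf : f ∈ d.Ov) (h1 : d.res ⟨f, hf⟩ ∈ t2R (k := k) su.xb)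
      (h2 : d.res ⟨τ.symm f, hτOv f hf⟩ ∈ t2R (k := k) su.xb),
      su.ev ⟨d.res ⟨f, hf⟩, h1⟩ = su.ev ⟨d.res ⟨τ.symm f, hτOv f hf⟩, h2⟩ ^ Q)
    (tw₀ tw₁ tw₂ tw' : T2Twist su) (hy₁ : tw₁.y = τ tw₀.y) (hy₂ : tw₂.y = tw₀.y ^ Q)
    (hy' : tw'.y * tw₂.y = tw₁.y)
    (hL₀ : ∀ s : F, s ^ su.m * tw₀.y ∈ t2Int (K := K) su.x → s ∈ tw₀.L1)
    (hL₁ : ∀ s : F, s ^ su.m * tw₁.y ∈ t2Int (K := K) su.x → s ∈ tw₁.L1)
    (hL₂ : ∀ s : F, s ^ su.m * tw₂.y ∈ t2Int (K := K) su.x → s ∈ tw₂.L1)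
    (h1ne : (1 : Fb) ≠ 0) :
    ∃ s : F, s ≠ 0 ∧ IsIntegral ↥(Algebra.adjoin K {su.x}) (s ^ su.m * tw'.y) ∧
      IsIntegral ↥(Algebra.adjoin K {su.x⁻¹}) (s ^ su.m * tw'.y) := by
  obtain ⟨s, hs1, hs2, hsO, hres⟩ :=
    t2ft_core τ Q hτOv hτint hev tw₀ tw₁ tw₂ tw' hy₁ hy₂ hy' hL₀ hL₁ hL₂
  refine ⟨s, ?_, tw'.pow1 s hs1, tw'.pow2 s hs2⟩
  rintro rfl
  rw [d.res_zero'] at hres
  exact h1ne hres.symm

end Abstract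

section Level

open ModularCurve Module AlgebraicCurve IntermediateField Fermat.Agent.Curve
  Fermat.Agent.T1 Fermat.Agent.TW

local notation "Qb" => AlgebraicClosure ℚ

set_option synthInstance.maxHeartbeats 400000 in
set_option maxHeartbeats 4000000 in
/-- **the toric core at level `H`**: `τ z / z ^ Q` is an `m`-th power over `ℚ̄` -/
theorem t2ft_level (𝔓 : FFPlace) (N : ℕ) [NeZero N] (H : Subgroup 𝔓.I)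
    {k Fb : Type*} [Field k] [CommRing Fb] [Algebra k Fb]
    {d : T2Base ↥(tbFix 𝔓 H) ↥(tbLevF 𝔓 N H) k Fb} {σ' : Type*} [Fintype σ'] [DecidableEq σ']
    (su : T2Setup d σ')
    (hX : IsFunctionFieldGen Qb ↥(modularFunctionFieldBar N) (tbPhiF 𝔓 N H su.x))
    (hn : (su.n : ℤ) = finrank ↥Qb⟮tbPhiF 𝔓 N H su.x⟯ ↥(modularFunctionFieldBar N))
    (hc : su.c = 1 - CurveP.genusR Qb ↥(modularFunctionFieldBar N))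
    (h1ne : (1 : Fb) ≠ 0) (Q : ℕ)
    (τ : ↥(tbLevF 𝔓 N H) ≃+* ↥(tbLevF 𝔓 N H))
    (hτOv : ∀ f ∈ d.Ov, τ.symm f ∈ d.Ov)
    (hτint : ∀ f ∈ t2Int (K := ↥(tbFix 𝔓 H)) su.x, τ.symm f ∈ t2Int (K := ↥(tbFix 𝔓 H)) su.x)
    (hev : ∀ (f : ↥(tbLevF 𝔓 N H)) (hf : f ∈ d.Ov)
      (h1 : d.res ⟨f, hf⟩ ∈ t2R (k := k) su.xb)
      (h2 : d.res ⟨τ.symm f, hτOv f hf⟩ ∈ t2R (k := k) su.xb),
      su.ev ⟨d.res ⟨f, hf⟩, h1⟩ = su.ev ⟨d.res ⟨τ.symm f, hτOv f hf⟩, h2⟩ ^ Q)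
    {z : ↥(tbLevF 𝔓 N H)} (hz0 : z ≠ 0) (hz : z ∈ d.Ov) (hzi : z⁻¹ ∈ d.Ov)
    (hz1 : d.res ⟨z, hz⟩ = 1) (hτz : τ z ∈ d.Ov) (hτz1 : d.res ⟨τ z, hτz⟩ = 1)
    (hdiv : ∀ v : Place Qb ↥(modularFunctionFieldBar N), (su.m : ℤ) ∣ v.ord (tbPhiF 𝔓 N H z))
    (hdivτ : ∀ v : Place Qb ↥(modularFunctionFieldBar N),
      (su.m : ℤ) ∣ v.ord (tbPhiF 𝔓 N H (τ z))) :
    ∃ g : ↥(modularFunctionFieldBar N), g ^ su.m = tbPhiF 𝔓 N H (τ z / z ^ Q) := by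
  have hτz0 : τ z ≠ 0 := (map_ne_zero τ).mpr hz0
  have hzQ0 : z ^ Q ≠ 0 := pow_ne_zero Q hz0
  have hzQO : z ^ Q ∈ d.Ov := d.Ov.pow_mem hz Q
  have hzQiO : (z ^ Q)⁻¹ ∈ d.Ov := by
    rw [← inv_pow]
    exact d.Ov.pow_mem hzi Q
  have hzQ1 : d.res ⟨z ^ Q, hzQO⟩ = 1 := by
    rw [d.res_pow' hz Q, hz1, one_pow]
  have hq0 : τ z / z ^ Q ≠ 0 := div_ne_zero hτz0 hzQ0
  have hqO : τ z / z ^ Q ∈ d.Ov := by
    rw [div_eq_mul_inv]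
    exact d.Ov.mul_mem hτz hzQiO
  have hzQi1 : d.res ⟨(z ^ Q)⁻¹, hzQiO⟩ = 1 := by
    have h2 : (⟨z ^ Q, hzQO⟩ : ↥d.Ov) * ⟨(z ^ Q)⁻¹, hzQiO⟩ = 1 :=
      Subtype.ext (mul_inv_cancel₀ hzQ0)
    have h3 := congrArg d.res h2
    rwa [map_mul, hzQ1, one_mul, map_one] at h3
  have hq1 : d.res ⟨τ z / z ^ Q, hqO⟩ = 1 := by
    have h2 : (⟨τ z / z ^ Q, hqO⟩ : ↥d.Ov) = ⟨τ z, hτz⟩ * ⟨(z ^ Q)⁻¹, hzQiO⟩ :=
      Subtype.ext (div_eq_mul_inv _ _)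
    rw [h2, map_mul, hτz1, hzQi1, one_mul]
  have hY : tbPhiF 𝔓 N H z ≠ 0 := fun h => hz0 (tbPhiF_injective 𝔓 N H (by rw [h, map_zero]))
  have hY' : tbPhiF 𝔓 N H (τ z) ≠ 0 :=
    fun h => hτz0 (tbPhiF_injective 𝔓 N H (by rw [h, map_zero]))
  have hdivQ : ∀ v : Place Qb ↥(modularFunctionFieldBar N),
      (su.m : ℤ) ∣ v.ord (tbPhiF 𝔓 N H (z ^ Q)) := by
    intro v
    rw [map_pow, ← zpow_natCast, v.ord_zpow]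
    exact Dvd.dvd.mul_left (hdiv v) _
  have hdivq : ∀ v : Place Qb ↥(modularFunctionFieldBar N),
      (su.m : ℤ) ∣ v.ord (tbPhiF 𝔓 N H (τ z / z ^ Q)) := by
    intro v
    have hYQ : tbPhiF 𝔓 N H (z ^ Q) ≠ 0 := by
      rw [map_pow]
      exact pow_ne_zero Q hY
    rw [map_div₀, div_eq_mul_inv, v.ord_mul hY' (inv_ne_zero hYQ), v.ord_inv]
    exact dvd_add (hdivτ v) ((dvd_neg).mpr (hdivQ v))
  obtain ⟨tw₀, hy₀, hL₀, -⟩ := t2g_exists_twist 𝔓 N H su hX hn hc hz0 hz hz1 hdiv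
  obtain ⟨tw₁, hy₁, hL₁, -⟩ := t2g_exists_twist 𝔓 N H su hX hn hc hτz0 hτz hτz1 hdivτ
  obtain ⟨tw₂, hy₂, hL₂, -⟩ := t2g_exists_twist 𝔓 N H su hX hn hc hzQ0 hzQO hzQ1 hdivQ
  obtain ⟨tw', hy', -, -⟩ := t2g_exists_twist 𝔓 N H su hX hn hc hq0 hqO hq1 hdivq
  obtain ⟨s, hs0, hs1, hs2⟩ := t2ft_core_isIntegral τ Q hτOv hτint hev tw₀ tw₁ tw₂ tw'
    (by rw [hy₁, hy₀]) (by rw [hy₂, hy₀]) (by rw [hy', hy₂, hy₁, div_mul_cancel₀ _ hzQ0])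
    (fun s hs => hL₀ s (by rw [← hy₀]; exact hs))
    (fun s hs => hL₁ s (by rw [← hy₁]; exact hs))
    (fun s hs => hL₂ s (by rw [← hy₂]; exact hs)) h1ne
  rw [hy'] at hs1 hs2
  exact t2g_exists_root_mod 𝔓 N H hX hq0 su.m_pos hdivq hs0 hs1 hs2

end Level

end Fermat.Agent.T2
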