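/-
T2-F, F3 (helper4): **the action of the decomposition group at the DVR levels**.
Generalisation of `Lib/T2/Gal/Sigma.lean` from inertia to elements `φ` of the decomposition group
of `𝔓` which stabilise the field `L_H = tbFix 𝔓 H` (`T2fsStab`): restriction `t2fsL` to `L_H`,
to `O_H` (`t2fsO`), action `t2fsBar` on the residue field (the Frobenius for a Frobenius element),
coefficientwise action `t2fsF` on `F_H = tbLevF 𝔓 N H`, compatible with `tbPhiF`, the Gauss ring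
and its residue map (semilinearly), integrality, `j`, the Atkin–Lehner involution; and the choice
of a level `H` (normal of finite index in inertia) stable under the whole decomposition group
(`t2fs_exists_level`).
-/
import Mathlib
import Fermat.Agent.Lib.T2.Gal.Sigma

set_option autoImplicit false
set_option linter.unusedSectionVars false
set_option linter.style.haveILetI false

namespace Fermat.Agent.T2

open Fermat.Agent.T1 Fermat.Agent.TW Fermat.Agent.S05Lib ModularCurve HahnSeries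

local notation "Qb" => AlgebraicClosure ℚ
local notation "GQ" => (AlgebraicClosure ℚ ≃ₐ[ℚ] AlgebraicClosure ℚ)

noncomputable section

/-! ### Semilinear functoriality of the Gauss ring -/

section Functorial

theorem t2fs_coeffMap_injective {R S : Type*} [CommRing R] [CommRing S] {f : R →+* S}
    (hf : Function.Injective f) : Function.Injective (coeffMap f) := by
  intro a b hab
  ext k
  apply hf
  rw [← coeffMap_coeff, ← coeffMap_coeff, hab]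

variable {K : Type*} [Field K] (A : ValuationSubring K) {k : Type*} [Field k] (π : ↥A →+* k)
variable (φ : K →+* K) (ψ : ↥A →+* ↥A) (hψ : ∀ a : ↥A, ((ψ a : ↥A) : K) = φ (a : K))
  (s : k →+* k) (hπ : ∀ a : ↥A, π (ψ a) = s (π a))

include hπ in
theorem t2fs_red_map (f : LaurentSeries ↥A) :
    tbRed π (coeffMap ψ f) = coeffMap s (tbRed π f) := by
  ext n
  rw [tbRed_coeff, coeffMap_coeff, coeffMap_coeff, tbRed_coeff, hπ]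

include hψ hπ in
/-- Gauss elements map to Gauss elements under a semilinear map -/
theorem t2fs_gauss_map {f : LaurentSeries K} (hf : TbGauss A π f) :
    TbGauss A π (coeffMap φ f) := by
  obtain ⟨g, h, hh, e⟩ := hf
  refine ⟨coeffMap ψ g, coeffMap ψ h, ?_, ?_⟩
  · rw [t2fs_red_map A π ψ s hπ]
    intro h0
    exact hh (t2fs_coeffMap_injective s.injective (h0.trans (map_zero _).symm))
  · rw [tbInc_map A A φ ψ hψ, tbInc_map A A φ ψ hψ, ← map_mul, e]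

include hψ hπ in
/-- the residue map is semilinear -/
theorem t2fs_rho_map {f : LaurentSeries K} (hf : TbGauss A π f) :
    tbRhoFun A π (coeffMap φ f) = coeffMap s (tbRhoFun A π f) := by
  obtain ⟨g, h, hh, e⟩ := hf
  have e' : coeffMap φ f * tbInc A (coeffMap ψ h) = tbInc A (coeffMap ψ g) := by
    rw [tbInc_map A A φ ψ hψ, tbInc_map A A φ ψ hψ, ← map_mul, e]
  have hh' : tbRed π (coeffMap ψ h) ≠ 0 := by
    rw [t2fs_red_map A π ψ s hπ]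
    intro h0
    exact hh (t2fs_coeffMap_injective s.injective (h0.trans (map_zero _).symm))
  rw [tbRhoFun_eq A π hh' e', tbRhoFun_eq A π hh e, t2fs_red_map A π ψ s hπ,
    t2fs_red_map A π ψ s hπ, map_div₀]

end Functorial

/-! ### Elements of the decomposition group stabilising `L_H` -/

variable (𝔓 : FFPlace) (H : Subgroup 𝔓.I)

/-- `φ` lies in the decomposition group of `𝔓` and stabilises the field `L_H` -/
structure T2fsStab (φ : GQ) : Prop where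
  mem_D : φ ∈ 𝔓.D
  map_mem : ∀ z ∈ tbFix 𝔓 H, φ z ∈ tbFix 𝔓 H
  symm_mem : ∀ z ∈ tbFix 𝔓 H, φ⁻¹ z ∈ tbFix 𝔓 H

variable {𝔓 H}

theorem T2fsStab.inv {φ : GQ} (hφ : T2fsStab 𝔓 H φ) : T2fsStab 𝔓 H φ⁻¹ :=
  ⟨𝔓.D.inv_mem hφ.mem_D, hφ.symm_mem, by rw [inv_inv]; exact hφ.map_mem⟩

theorem T2fsStab.mul {φ ψ : GQ} (hφ : T2fsStab 𝔓 H φ) (hψ : T2fsStab 𝔓 H ψ) :
    T2fsStab 𝔓 H (φ * ψ) :=
  ⟨𝔓.D.mul_mem hφ.mem_D hψ.mem_D, fun z hz => hφ.map_mem _ (hψ.map_mem z hz), fun z hz => by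
    rw [mul_inv_rev]
    exact hψ.symm_mem _ (hφ.symm_mem z hz)⟩

variable (𝔓 H)

/-- elements of inertia stabilise `L_H` when `H` is normal -/
theorem t2fs_stab_of_mem_I [H.Normal] (σ : 𝔓.I) : T2fsStab 𝔓 H ((σ : 𝔓.I) : GQ) :=
  ⟨𝔓.I_le_D σ.2, fun _ hz => t2gs_mem_tbFix 𝔓 H σ hz, fun _ hz => t2gs_mem_tbFix 𝔓 H σ⁻¹ hz⟩

variable (φ : GQ) (hφ : T2fsStab 𝔓 H φ)

/-- the restriction of `φ` to `L_H`, as an algebra homomorphism -/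
def t2fsHom : ↥(tbFix 𝔓 H) →ₐ[ℚ] ↥(tbFix 𝔓 H) :=
  ((φ : Qb →ₐ[ℚ] Qb).comp (tbFix 𝔓 H).val).codRestrict (tbFix 𝔓 H).toSubalgebra
    (fun z => hφ.map_mem z z.2)

theorem coe_t2fsHom (c : ↥(tbFix 𝔓 H)) :
    ((t2fsHom 𝔓 H φ hφ c : ↥(tbFix 𝔓 H)) : Qb) = φ (c : Qb) := rfl

/-- **the restriction of `φ` to `L_H`** -/
def t2fsL : ↥(tbFix 𝔓 H) ≃ₐ[ℚ] ↥(tbFix 𝔓 H) :=
  AlgEquiv.ofAlgHom (t2fsHom 𝔓 H φ hφ) (t2fsHom 𝔓 H φ⁻¹ hφ.inv)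
    (AlgHom.ext fun c => Subtype.ext (by
      show φ (φ⁻¹ (c : Qb)) = (c : Qb)
      exact AlgEquiv.apply_symm_apply _ _))
    (AlgHom.ext fun c => Subtype.ext (by
      show φ⁻¹ (φ (c : Qb)) = (c : Qb)
      exact AlgEquiv.symm_apply_apply _ _))

@[simp] theorem coe_t2fsL (c : ↥(tbFix 𝔓 H)) :
    ((t2fsL 𝔓 H φ hφ c : ↥(tbFix 𝔓 H)) : Qb) = φ (c : Qb) := rfl

theorem t2fsL_symm_apply (c : ↥(tbFix 𝔓 H)) :
    (t2fsL 𝔓 H φ hφ).symm c = t2fsL 𝔓 H φ⁻¹ hφ.inv c := rfl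

/-- `φ` preserves the valuation ring of `L_H` -/
theorem t2fsL_mem_tbFixO {c : ↥(tbFix 𝔓 H)} (hc : c ∈ tbFixO 𝔓 H) :
    t2fsL 𝔓 H φ hφ c ∈ tbFixO 𝔓 H := by
  rw [mem_tbFixO] at hc ⊢
  rw [coe_t2fsL]
  exact 𝔓.ge_D hφ.mem_D hc

/-- the restriction of `φ` to the valuation ring `O_H` -/
def t2fsO : ↥(tbFixO 𝔓 H) →+* ↥(tbFixO 𝔓 H) :=
  (((t2fsL 𝔓 H φ hφ : ↥(tbFix 𝔓 H) ≃ₐ[ℚ] ↥(tbFix 𝔓 H)) : ↥(tbFix 𝔓 H) →+* ↥(tbFix 𝔓 H)).comp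
    (tbFixO 𝔓 H).subtype).codRestrict (tbFixO 𝔓 H).toSubring
    (fun a => t2fsL_mem_tbFixO 𝔓 H φ hφ a.2)

theorem coe_t2fsO (a : ↥(tbFixO 𝔓 H)) :
    ((t2fsO 𝔓 H φ hφ a : ↥(tbFixO 𝔓 H)) : ↥(tbFix 𝔓 H)) = t2fsL 𝔓 H φ hφ (a : ↥(tbFix 𝔓 H)) :=
  rfl

/-- the action of `φ` on the residue field -/
def t2fsBar : IsLocalRing.ResidueField ↥𝔓.P →+* IsLocalRing.ResidueField ↥𝔓.P :=
  MulSemiringAction.toRingHom (𝔓.P.decompositionSubgroup ℚ) (IsLocalRing.ResidueField ↥𝔓.P)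
    ⟨φ, hφ.mem_D⟩

/-- **the residue map of `O_H` is equivariant** -/
theorem tbFixRes_t2fsO (a : ↥(tbFixO 𝔓 H)) :
    tbFixRes 𝔓 H (t2fsO 𝔓 H φ hφ a) = t2fsBar 𝔓 H φ hφ (tbFixRes 𝔓 H a) := by
  show IsLocalRing.residue ↥𝔓.P (tbFixIncl 𝔓 H (t2fsO 𝔓 H φ hφ a))
    = (⟨φ, hφ.mem_D⟩ : 𝔓.P.decompositionSubgroup ℚ) •
        IsLocalRing.residue ↥𝔓.P (tbFixIncl 𝔓 H a)
  rw [← IsLocalRing.ResidueField.residue_smul]
  rfl

/-- a Frobenius element acts as the Frobenius on the residue field -/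
theorem t2fsBar_of_frobenius [Fact 𝔓.p.Prime] [CharP (IsLocalRing.ResidueField ↥𝔓.P) 𝔓.p]
    (hF : 𝔓.P.IsFrobeniusAt φ 𝔓.p) :
    t2fsBar 𝔓 H φ hφ = frobenius (IsLocalRing.ResidueField ↥𝔓.P) 𝔓.p := by
  ext a
  rw [frobenius_def]
  exact hF.smul_residue_eq a

theorem t2fsBar_mul {φ ψ : GQ} (hφ : T2fsStab 𝔓 H φ) (hψ : T2fsStab 𝔓 H ψ) :
    t2fsBar 𝔓 H (φ * ψ) (hφ.mul hψ) = (t2fsBar 𝔓 H φ hφ).comp (t2fsBar 𝔓 H ψ hψ) := by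
  ext a
  show (⟨φ * ψ, _⟩ : 𝔓.P.decompositionSubgroup ℚ) • a
    = (⟨φ, hφ.mem_D⟩ : 𝔓.P.decompositionSubgroup ℚ) •
      ((⟨ψ, hψ.mem_D⟩ : 𝔓.P.decompositionSubgroup ℚ) • a)
  rw [← mul_smul]
  rfl

/-! ### The action on `F_H` -/

variable (N : ℕ) [NeZero N]

/-- **the coefficientwise action of `φ` on `F_H`** -/
def t2fsF : ↥(tbLevF 𝔓 N H) ≃+* ↥(tbLevF 𝔓 N H) :=
  arithmeticRingAut (modularFunctionFieldFull N) (t2fsL 𝔓 H φ hφ)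

theorem coe_t2fsF (f : ↥(tbLevF 𝔓 N H)) :
    ((t2fsF 𝔓 H φ hφ N f : ↥(tbLevF 𝔓 N H)) : LaurentSeries ↥(tbFix 𝔓 H))
      = coeffMap ((t2fsL 𝔓 H φ hφ : ↥(tbFix 𝔓 H) ≃ₐ[ℚ] ↥(tbFix 𝔓 H)) :
          ↥(tbFix 𝔓 H) →+* ↥(tbFix 𝔓 H)) (f : LaurentSeries ↥(tbFix 𝔓 H)) := rfl

theorem t2fsF_symm_apply (f : ↥(tbLevF 𝔓 N H)) :
    (t2fsF 𝔓 H φ hφ N).symm f = t2fsF 𝔓 H φ⁻¹ hφ.inv N f := rfl

theorem t2fsF_algebraMap (c : ↥(tbFix 𝔓 H)) :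
    t2fsF 𝔓 H φ hφ N (algebraMap ↥(tbFix 𝔓 H) ↥(tbLevF 𝔓 N H) c)
      = algebraMap ↥(tbFix 𝔓 H) ↥(tbLevF 𝔓 N H) (t2fsL 𝔓 H φ hφ c) :=
  arithmeticRingAut_algebraMap (modularFunctionFieldFull N) (t2fsL 𝔓 H φ hφ) c

/-- compatibility with the action over `ℚ̄` -/
theorem tbPhiF_t2fsF (f : ↥(tbLevF 𝔓 N H)) :
    tbPhiF 𝔓 N H (t2fsF 𝔓 H φ hφ N f)
      = arithmeticRingAut (modularFunctionFieldFull N) φ (tbPhiF 𝔓 N H f) := by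
  apply Subtype.ext
  rw [coe_arithmeticRingAut_apply, coe_tbPhiF, coe_tbPhiF, coe_t2fsF, coeffMap_coeffMap,
    coeffMap_coeffMap]
  exact coeffMap_congr (RingHom.ext fun a => rfl) _

/-- `φ` preserves the Gauss ring of `F_H` -/
theorem t2fsF_gauss {f : LaurentSeries ↥(tbFix 𝔓 H)}
    (hf : TbGauss (tbFixO 𝔓 H) (tbFixRes 𝔓 H) f) :
    TbGauss (tbFixO 𝔓 H) (tbFixRes 𝔓 H)
      (coeffMap ((t2fsL 𝔓 H φ hφ : ↥(tbFix 𝔓 H) ≃ₐ[ℚ] ↥(tbFix 𝔓 H)) :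
          ↥(tbFix 𝔓 H) →+* ↥(tbFix 𝔓 H)) f) :=
  t2fs_gauss_map (tbFixO 𝔓 H) (tbFixRes 𝔓 H) _ (t2fsO 𝔓 H φ hφ) (fun _ => rfl)
    (t2fsBar 𝔓 H φ hφ) (tbFixRes_t2fsO 𝔓 H φ hφ) hf

/-- the residue map of the Gauss ring is equivariant -/
theorem t2fsF_rho {f : LaurentSeries ↥(tbFix 𝔓 H)}
    (hf : TbGauss (tbFixO 𝔓 H) (tbFixRes 𝔓 H) f) :
    tbRhoFun (tbFixO 𝔓 H) (tbFixRes 𝔓 H)
      (coeffMap ((t2fsL 𝔓 H φ hφ : ↥(tbFix 𝔓 H) ≃ₐ[ℚ] ↥(tbFix 𝔓 H)) :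
          ↥(tbFix 𝔓 H) →+* ↥(tbFix 𝔓 H)) f)
      = coeffMap (t2fsBar 𝔓 H φ hφ) (tbRhoFun (tbFixO 𝔓 H) (tbFixRes 𝔓 H) f) :=
  t2fs_rho_map (tbFixO 𝔓 H) (tbFixRes 𝔓 H) _ (t2fsO 𝔓 H φ hφ) (fun _ => rfl)
    (t2fsBar 𝔓 H φ hφ) (tbFixRes_t2fsO 𝔓 H φ hφ) hf

/-- `φ` preserves integrality over `L_H[x]` when `φ x = x` -/
theorem t2fsF_isIntegral {x f : ↥(tbLevF 𝔓 N H)} (hx : t2fsF 𝔓 H φ hφ N x = x)
    (hf : IsIntegral ↥(Algebra.adjoin ↥(tbFix 𝔓 H) {x}) f) :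
    IsIntegral ↥(Algebra.adjoin ↥(tbFix 𝔓 H) {x}) (t2fsF 𝔓 H φ hφ N f) :=
  t2gs_isIntegral_of_semilinear
    ((t2fsF 𝔓 H φ hφ N : ↥(tbLevF 𝔓 N H) ≃+* ↥(tbLevF 𝔓 N H)) :
      ↥(tbLevF 𝔓 N H) →+* ↥(tbLevF 𝔓 N H))
    ((t2fsL 𝔓 H φ hφ : ↥(tbFix 𝔓 H) ≃ₐ[ℚ] ↥(tbFix 𝔓 H)) : ↥(tbFix 𝔓 H) →+* ↥(tbFix 𝔓 H))
    (t2fsF_algebraMap 𝔓 H φ hφ N) hx hf

/-- `φ` fixes `j` -/
theorem t2fsF_tbLevJ : t2fsF 𝔓 H φ hφ N (tbLevJ 𝔓 N H) = tbLevJ 𝔓 N H := by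
  apply Subtype.ext
  rw [coe_t2fsF]
  exact coeffMap_jqModC _

/-! ### Choice of the level -/

section Level

omit H φ hφ

/-- stabilisers of algebraic numbers in `Gal(ℚ̄/ℚ)` have finite index -/
theorem t2fs_finiteIndex_stabilizer (z : Qb) : (MulAction.stabilizer GQ z).FiniteIndex := by
  constructor
  rw [MulAction.index_stabilizer]
  have hsub : MulAction.orbit GQ z ⊆ (minpoly ℚ z).rootSet Qb := by
    rintro _ ⟨σ, rfl⟩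
    have hz : IsIntegral ℚ z := (AlgebraicClosure.isAlgebraic ℚ).isIntegral.isIntegral z
    rw [Polynomial.mem_rootSet]
    refine ⟨minpoly.ne_zero hz, ?_⟩
    show Polynomial.aeval (σ z) (minpoly ℚ z) = 0
    rw [Polynomial.aeval_algHom_apply, minpoly.aeval, map_zero]
  have hfin : (MulAction.orbit GQ z).Finite := (Polynomial.rootSet_finite _ _).subset hsub
  exact ((Set.ncard_pos hfin).mpr ⟨z, MulAction.mem_orbit_self z⟩).ne'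

/-- the inertia group is normalised by the decomposition group -/
theorem t2fs_conj_mem_I {φ σ : GQ} (hφ : φ ∈ 𝔓.D) (hσ : σ ∈ 𝔓.I) : φ⁻¹ * σ * φ ∈ 𝔓.I := by
  obtain ⟨g, hg, rfl⟩ := Subgroup.mem_map.mp hσ
  refine Subgroup.mem_map.mpr ⟨(⟨φ, hφ⟩ : 𝔓.P.decompositionSubgroup ℚ)⁻¹ * g * ⟨φ, hφ⟩, ?_, rfl⟩
  have hn : (ValuationSubring.inertiaSubgroup ℚ 𝔓.P).Normal := by
    unfold ValuationSubring.inertiaSubgroup
    infer_instance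
  have := hn.conj_mem g hg (⟨φ, hφ⟩ : 𝔓.P.decompositionSubgroup ℚ)⁻¹
  rwa [inv_inv] at this

/-- **choice of the level**: finitely many functions over `ℚ̄` come from a level `H` which is
normal of finite index in the inertia group and whose fixed field is stable under the whole
decomposition group -/
theorem t2fs_exists_level (T : Finset ↥(modularFunctionFieldBar N)) :
    ∃ H : Subgroup 𝔓.I, H.FiniteIndex ∧ H.Normal ∧ (∀ φ ∈ 𝔓.D, T2fsStab 𝔓 H φ) ∧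
      ∀ y ∈ T, ∃ f : ↥(tbLevF 𝔓 N H), tbPhiF 𝔓 N H f = y := by
  classical
  obtain ⟨S, hS⟩ := tbd_exists_finset_family (modularFunctionFieldFull N) T
    (fun y => ((y : ↥(modularFunctionFieldBar N)) : LaurentSeries Qb)) (fun y _ => y.2)
  set N₀ : Subgroup GQ := ⨅ z ∈ S, MulAction.stabilizer GQ z with hN₀
  haveI hN₀fin : N₀.FiniteIndex :=
    Subgroup.finiteIndex_iInf' _ (fun z _ => t2fs_finiteIndex_stabilizer z)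
  set Nc : Subgroup GQ := N₀.normalCore with hNc
  haveI : Nc.FiniteIndex := inferInstance
  haveI : Nc.Normal := Subgroup.normalCore_normal _
  set H : Subgroup 𝔓.I := Nc.subgroupOf 𝔓.I with hH
  have hfix : ∀ σ : 𝔓.I, σ ∈ H → ∀ z ∈ S, ((σ : 𝔓.I) : GQ) z = z := by
    intro σ hσ z hz
    have h1 : ((σ : 𝔓.I) : GQ) ∈ N₀ := Subgroup.normalCore_le _ (Subgroup.mem_subgroupOf.mp hσ)
    have h2 := (Subgroup.mem_iInf.mp ((Subgroup.mem_iInf.mp h1) z)) hz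
    exact MulAction.mem_stabilizer_iff.mp h2
  have hconj : ∀ φ ∈ 𝔓.D, ∀ σ : 𝔓.I, σ ∈ H → ∀ z ∈ tbFix 𝔓 H,
      ((σ : 𝔓.I) : GQ) (φ z) = φ z := by
    intro φ hφ σ hσ z hz
    have h1 : φ⁻¹ * ((σ : 𝔓.I) : GQ) * φ ∈ 𝔓.I := t2fs_conj_mem_I 𝔓 hφ σ.2
    have h2 : (⟨φ⁻¹ * ((σ : 𝔓.I) : GQ) * φ, h1⟩ : 𝔓.I) ∈ H := by
      rw [hH, Subgroup.mem_subgroupOf]
      have := (inferInstance : Nc.Normal).conj_mem _ (Subgroup.mem_subgroupOf.mp hσ) φ⁻¹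
      rwa [inv_inv] at this
    have h3 := (mem_tbFix 𝔓 H z).mp hz _ h2
    have h4 : (φ⁻¹ * ((σ : 𝔓.I) : GQ) * φ) z = φ⁻¹ (((σ : 𝔓.I) : GQ) (φ z)) := rfl
    rw [show (((⟨φ⁻¹ * ((σ : 𝔓.I) : GQ) * φ, h1⟩ : 𝔓.I) : 𝔓.I) : GQ) z
      = φ⁻¹ (((σ : 𝔓.I) : GQ) (φ z)) from rfl] at h3
    have h5 := congrArg φ h3
    rwa [show φ (φ⁻¹ (((σ : 𝔓.I) : GQ) (φ z))) = ((σ : 𝔓.I) : GQ) (φ z) from
      AlgEquiv.apply_symm_apply _ _] at h5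
  refine ⟨H, inferInstance, inferInstance, fun φ hφ => ⟨hφ, fun z hz => ?_, fun z hz => ?_⟩,
    fun y hy => ?_⟩
  · rw [mem_tbFix]
    intro σ hσ
    exact hconj φ hφ σ hσ z hz
  · rw [mem_tbFix]
    intro σ hσ
    exact hconj φ⁻¹ (𝔓.D.inv_mem hφ) σ hσ z hz
  · obtain ⟨f, hf, hfy⟩ := hS (tbFix 𝔓 H) (fun a ha => by
      rw [mem_tbFix]
      intro σ hσ
      exact hfix σ hσ a ha) y hy
    exact ⟨⟨f, hf⟩, Subtype.ext hfy⟩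

end Level

section AL

open Fermat.Agent.S24Lib

variable (N' q : ℕ) [NeZero N'] [hq : Fact q.Prime] (h : ¬ q ∣ N')

/-- **`φ` commutes with the Atkin–Lehner involution at level `H`** -/
theorem t2fsF_t2wLev (f : ↥(tbLevF 𝔓 (N' * q) H)) :
    t2wLev 𝔓 H N' q h (t2fsF 𝔓 H φ hφ (N' * q) f)
      = t2fsF 𝔓 H φ hφ (N' * q) (t2wLev 𝔓 H N' q h f) := by
  apply tbPhiF_injective 𝔓 (N' * q) H
  rw [tbPhiF_t2wLev, tbPhiF_t2fsF, tbPhiF_t2fsF, tbPhiF_t2wLev, t2w_comm]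

end AL

end

end Fermat.Agent.T2
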