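/-
T2-F, F3 (helper4): **concrete inputs of the toric part (P4-K)**.
* `t2fg_gauss_descend`, `t2fg_rho_descend`: Gauss descent from `(ℚ̄, 𝔓)` to `(L_H, O_H)` at an
  arbitrary level;
* `t2fg_absorb`: constants are `m`-th powers in `ℚ̄`: from `T2fInf` to a `1`-unit;
* `t2fb_Ov`, `t2fb_res_fst/_snd`, `t2fb_res_one`, `t2fsF_t2gaX`: an element of the decomposition
  group stabilising `L_H` preserves the ring `𝒪` of the two-valuation base `t2iBase2Fix`, commutes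
  with `res` up to its action on the residue field, and fixes the symmetric chart.
-/
import Mathlib
import Fermat.Agent.Lib.T2.F.ToricDefs
import Fermat.Agent.Lib.T2.F.SigmaD

set_option autoImplicit false
set_option linter.unusedSectionVars false
set_option linter.unusedVariables false
set_option linter.style.haveILetI false

namespace Fermat.Agent.T2

open ModularCurve Module AlgebraicCurve IntermediateField Fermat.Agent.Curve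
  Fermat.Agent.T1 Fermat.Agent.TW Fermat.Agent.S24Lib HahnSeries

local notation "Qb" => AlgebraicClosure ℚ
local notation "GQ" => (AlgebraicClosure ℚ ≃ₐ[ℚ] AlgebraicClosure ℚ)

noncomputable section

/-! ### Gauss descent at an arbitrary level -/

section Descend

variable (𝔓 : FFPlace) (N : ℕ) [NeZero N] (H : Subgroup 𝔓.I)

/-- **Gauss descent**: a function of level `H` which is Gauss over `(ℚ̄, 𝔓)` is Gauss over
`(L_H, O_H)`, as soon as every non-zero function of level `H` can be scaled to a Gauss unit -/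
theorem t2fg_gauss_descend
    (hnorm : ∀ f : ↥(tbLevF 𝔓 N H), f ≠ 0 → ∃ c : ↥(tbFix 𝔓 H), c ≠ 0 ∧
      TbGauss (tbFixO 𝔓 H) (tbFixRes 𝔓 H) ((c • f : ↥(tbLevF 𝔓 N H)) :
        LaurentSeries ↥(tbFix 𝔓 H)) ∧
      tbRhoFun (tbFixO 𝔓 H) (tbFixRes 𝔓 H) ((c • f : ↥(tbLevF 𝔓 N H)) :
        LaurentSeries ↥(tbFix 𝔓 H)) ≠ 0)
    (f : ↥(tbLevF 𝔓 N H))
    (hg : TbGauss 𝔓.P (IsLocalRing.residue ↥𝔓.P)
      (tbPhi 𝔓 H (f : LaurentSeries ↥(tbFix 𝔓 H)))) :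
    TbGauss (tbFixO 𝔓 H) (tbFixRes 𝔓 H) (f : LaurentSeries ↥(tbFix 𝔓 H)) := by
  rcases eq_or_ne f 0 with rfl | hf0
  · exact (tbGaussSubring _ _).zero_mem
  obtain ⟨c, hc0, hcG, hcρ⟩ := hnorm f hf0
  rw [tbq_coe_smul] at hcG hcρ
  by_cases hci : c⁻¹ ∈ tbFixO 𝔓 H
  · have h1 : (f : LaurentSeries ↥(tbFix 𝔓 H))
        = HahnSeries.C (((⟨c⁻¹, hci⟩ : ↥(tbFixO 𝔓 H)) : ↥(tbFix 𝔓 H))) *
          (HahnSeries.C c * (f : LaurentSeries ↥(tbFix 𝔓 H))) := by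
      rw [← mul_assoc, ← map_mul, inv_mul_cancel₀ hc0, map_one, one_mul]
    rw [h1]
    exact (tbGaussSubring (tbFixO 𝔓 H) (tbFixRes 𝔓 H)).mul_mem
      (tbGauss_C (tbFixO 𝔓 H) (tbFixRes 𝔓 H) ⟨c⁻¹, hci⟩) hcG
  · exfalso
    have hcO : c ∈ tbFixO 𝔓 H := ((tbFixO 𝔓 H).mem_or_inv_mem c).resolve_right hci
    have hres : tbFixRes 𝔓 H ⟨c, hcO⟩ = 0 := tbFixRes_eq_zero_of_inv_notMem 𝔓 H hci hcO
    have h2 := tbPhi_rho 𝔓 H hcG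
    rw [map_mul, tbPhi_C] at h2
    have h3 : TbGauss 𝔓.P (IsLocalRing.residue ↥𝔓.P)
        (HahnSeries.C (((tbFixIncl 𝔓 H ⟨c, hcO⟩ : ↥𝔓.P)) : Qb)) :=
      tbGauss_C 𝔓.P (IsLocalRing.residue ↥𝔓.P) (tbFixIncl 𝔓 H ⟨c, hcO⟩)
    have h4 : (HahnSeries.C ((c : ↥(tbFix 𝔓 H)) : Qb) : LaurentSeries Qb)
        = HahnSeries.C (((tbFixIncl 𝔓 H ⟨c, hcO⟩ : ↥𝔓.P)) : Qb) := rfl
    rw [h4, tbRhoFun_mul 𝔓.P _ h3 hg, tbRhoFun_C, tbFixRes_eq, hres, map_zero, zero_mul] at h2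
    exact hcρ h2.symm

/-- the residue of a descended Gauss function -/
theorem t2fg_rho_descend {f : ↥(tbLevF 𝔓 N H)}
    (hf : TbGauss (tbFixO 𝔓 H) (tbFixRes 𝔓 H) (f : LaurentSeries ↥(tbFix 𝔓 H)))
    {a b : LaurentSeries ↥𝔓.P} (hb : coeffMap (IsLocalRing.residue ↥𝔓.P) b ≠ 0)
    (hab : coeffMap (IsLocalRing.residue ↥𝔓.P) a = coeffMap (IsLocalRing.residue ↥𝔓.P) b)
    (hrep : TkrRep 𝔓.P ((tbPhiF 𝔓 N H f : ↥(modularFunctionFieldBar N)) : LaurentSeries Qb) a b) :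
    tbRhoFun (tbFixO 𝔓 H) (tbFixRes 𝔓 H) (f : LaurentSeries ↥(tbFix 𝔓 H)) = 1 := by
  rw [← tbPhi_rho 𝔓 H hf]
  have h1 : tbRhoFun 𝔓.P (IsLocalRing.residue ↥𝔓.P)
      (tbPhi 𝔓 H (f : LaurentSeries ↥(tbFix 𝔓 H)))
      = tbRed (IsLocalRing.residue ↥𝔓.P) a / tbRed (IsLocalRing.residue ↥𝔓.P) b :=
    tbRhoFun_eq 𝔓.P (IsLocalRing.residue ↥𝔓.P) hb hrep
  rw [h1]
  show coeffMap (IsLocalRing.residue ↥𝔓.P) a / coeffMap (IsLocalRing.residue ↥𝔓.P) b = 1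
  rw [hab, div_self hb]

end Descend

/-! ### Absorbing the constants -/

section Absorb

variable (N : ℕ) [NeZero N] (A : ValuationSubring Qb)

/-- **absorbing the constant**: if `y s ^ m ∈ ℚ̄^× (1 + 𝔪_A)` then `y S ^ m ∈ 1 + 𝔪_A` for a
suitable `S` (constants are `m`-th powers in `ℚ̄`) -/
theorem t2fg_absorb {m : ℕ} (hm : m ≠ 0) (y s : (↥(modularFunctionFieldBar N))ˣ)
    (h : T2fInf N A (y * s ^ m)) :
    ∃ S : (↥(modularFunctionFieldBar N))ˣ, ∃ a b : LaurentSeries ↥A,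
      coeffMap (IsLocalRing.residue ↥A) a = coeffMap (IsLocalRing.residue ↥A) b ∧
      coeffMap (IsLocalRing.residue ↥A) b ≠ 0 ∧
      TkrRep A ((((y * S ^ m : (↥(modularFunctionFieldBar N))ˣ) :
        ↥(modularFunctionFieldBar N)) : LaurentSeries Qb)) a b := by
  obtain ⟨c, hc0, a, b, hab, hb, hrep⟩ := h
  obtain ⟨γ, hγ⟩ := IsAlgClosed.exists_pow_nat_eq c (Nat.pos_of_ne_zero hm)
  have hγ0 : γ ≠ 0 := by
    rintro rfl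
    rw [zero_pow hm] at hγ
    exact hc0 hγ.symm
  have hγF : algebraMap Qb ↥(modularFunctionFieldBar N) γ ≠ 0 := by
    rw [Ne, map_eq_zero]
    exact hγ0
  refine ⟨Units.mk0 _ hγF * s, a, b, hab, hb, ?_⟩
  have h1 : ((((y * (Units.mk0 _ hγF * s) ^ m : (↥(modularFunctionFieldBar N))ˣ) :
      ↥(modularFunctionFieldBar N)) : LaurentSeries Qb))
      = algebraMap Qb (LaurentSeries Qb) c *
        ((((y * s ^ m : (↥(modularFunctionFieldBar N))ˣ) :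
          ↥(modularFunctionFieldBar N)) : LaurentSeries Qb)) := by
    rw [mul_pow, ← hγ, map_pow]
    simp only [Units.val_mul, Units.val_pow_eq_pow_val, Units.val_mk0, MulMemClass.coe_mul,
      SubmonoidClass.coe_pow]
    have h2 : ((algebraMap Qb ↥(modularFunctionFieldBar N) γ : ↥(modularFunctionFieldBar N)) :
        LaurentSeries Qb) = algebraMap Qb (LaurentSeries Qb) γ := rfl
    rw [h2]
    ring
  rw [h1]
  exact hrep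

end Absorb

/-! ### The decomposition group and the two-valuation base -/

section Base

attribute [local instance] t2i_dvr t2i_isAlgClosed t2i_charP t2i_fact

variable (𝔓 : FFPlace) (N' : ℕ) [NeZero N'] (h : ¬ 𝔓.p ∣ N') (H : Subgroup 𝔓.I) [H.FiniteIndex]
  (ψ : GQ) (hψ : T2fsStab 𝔓 H ψ)

/-- `ψ` preserves the ring `𝒪` of the two-valuation base -/
theorem t2fb_Ov (f : ↥(tbLevF 𝔓 (N' * 𝔓.p) H)) (hf : f ∈ (t2iBase2Fix 𝔓 H N' h).Ov) :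
    t2fsF 𝔓 H ψ hψ (N' * 𝔓.p) f ∈ (t2iBase2Fix 𝔓 H N' h).Ov := by
  rw [mem_t2iBase2Fix_Ov] at hf ⊢
  refine ⟨t2fsF_gauss 𝔓 H ψ hψ hf.1, ?_⟩
  rw [t2fsF_t2wLev]
  exact t2fsF_gauss 𝔓 H ψ hψ hf.2

/-- `res ∘ ψ = ψ̄ ∘ res`, first component -/
theorem t2fb_res_fst (f : ↥(tbLevF 𝔓 (N' * 𝔓.p) H)) (hf : f ∈ (t2iBase2Fix 𝔓 H N' h).Ov) :
    ((((t2iBase2Fix 𝔓 H N' h).res ⟨t2fsF 𝔓 H ψ hψ (N' * 𝔓.p) f, t2fb_Ov 𝔓 N' h H ψ hψ f hf⟩).1 :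
      ↥(tbBarF 𝔓 N')) : LaurentSeries (IsLocalRing.ResidueField ↥𝔓.P))
      = coeffMap (t2fsBar 𝔓 H ψ hψ)
        ((((t2iBase2Fix 𝔓 H N' h).res ⟨f, hf⟩).1 : ↥(tbBarF 𝔓 N')) :
          LaurentSeries (IsLocalRing.ResidueField ↥𝔓.P)) := by
  rw [coe_t2iBase2Fix_res_fst, coe_t2iBase2Fix_res_fst, coe_t2fsF]
  exact t2fsF_rho 𝔓 H ψ hψ ((mem_t2iBase2Fix_Ov 𝔓 H N' h f).mp hf).1

/-- `res ∘ ψ = ψ̄ ∘ res`, second component -/
theorem t2fb_res_snd (f : ↥(tbLevF 𝔓 (N' * 𝔓.p) H)) (hf : f ∈ (t2iBase2Fix 𝔓 H N' h).Ov) :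
    ((((t2iBase2Fix 𝔓 H N' h).res ⟨t2fsF 𝔓 H ψ hψ (N' * 𝔓.p) f, t2fb_Ov 𝔓 N' h H ψ hψ f hf⟩).2 :
      ↥(tbBarF 𝔓 N')) : LaurentSeries (IsLocalRing.ResidueField ↥𝔓.P))
      = coeffMap (t2fsBar 𝔓 H ψ hψ)
        ((((t2iBase2Fix 𝔓 H N' h).res ⟨f, hf⟩).2 : ↥(tbBarF 𝔓 N')) :
          LaurentSeries (IsLocalRing.ResidueField ↥𝔓.P)) := by
  rw [coe_t2iBase2Fix_res_snd, coe_t2iBase2Fix_res_snd, t2fsF_t2wLev, coe_t2fsF]
  exact t2fsF_rho 𝔓 H ψ hψ ((mem_t2iBase2Fix_Ov 𝔓 H N' h f).mp hf).2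

/-- `ψ` fixes the symmetric chart -/
theorem t2fsF_t2gaX (Q : ℕ) :
    t2fsF 𝔓 H ψ hψ (N' * 𝔓.p) (t2gaX 𝔓 H N' h Q) = t2gaX 𝔓 H N' h Q := by
  unfold t2gaX
  rw [map_mul, ← t2fsF_t2wLev, map_sub, map_pow, t2fsF_tbLevJ]

/-- if `ψ̄` fixes `1`... : `res (ψ z) = 1` when `res z = 1` -/
theorem t2fb_res_one (z : ↥(tbLevF 𝔓 (N' * 𝔓.p) H)) (hz : z ∈ (t2iBase2Fix 𝔓 H N' h).Ov)
    (hz1 : (t2iBase2Fix 𝔓 H N' h).res ⟨z, hz⟩ = 1) :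
    (t2iBase2Fix 𝔓 H N' h).res ⟨t2fsF 𝔓 H ψ hψ (N' * 𝔓.p) z, t2fb_Ov 𝔓 N' h H ψ hψ z hz⟩ = 1 := by
  apply Prod.ext
  · apply Subtype.ext
    rw [t2fb_res_fst 𝔓 N' h H ψ hψ z hz, hz1]
    show coeffMap (t2fsBar 𝔓 H ψ hψ) (1 : LaurentSeries (IsLocalRing.ResidueField ↥𝔓.P)) = 1
    exact map_one _
  · apply Subtype.ext
    rw [t2fb_res_snd 𝔓 N' h H ψ hψ z hz, hz1]
    show coeffMap (t2fsBar 𝔓 H ψ hψ) (1 : LaurentSeries (IsLocalRing.ResidueField ↥𝔓.P)) = 1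
    exact map_one _

end Base

end

end Fermat.Agent.T2
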