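/-
T2-F F3 (helper5), part (a), abstract: **simultaneous unit normalisation for two Gauss rings**.

`A ⊆ L` a valuation ring of rank one with residue map `resA : A → k`, `F / L` a field, `(G₁, ρ₁)`,
`(G₂, ρ₂)` two "Gauss rings" of `F` (every `f ≠ 0` can be scaled by a constant into `G` with
non-zero residue), `e ∈ G₁ ∩ G₂` with `ρ₁ e = 1`, `ρ₂ e = 0`.
* `t2ft_small`: for `t ∈ ker ρ` and any `f`: `t ^ n * f ∈ ker ρ` for all large `n`;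
* `t2ft_approx`: weak approximation: for `r ≠ 0` there is `θ ∈ G₁`, `ρ₁ θ = 1`, with `θ / r ∈ G₂`,
  `ρ₂ (θ / r) = 1`;
* `t2ft_normalise`: if `y s₁ ^ m ∈ G₁` reduces to `1` and `y s₂ ^ m ∈ G₂` reduces to `1`, then there is
  `η ≠ 0` with `z := y η ^ m ∈ G₁ ∩ G₂`, `ρ₁ z = 1`, `ρ₂ z = 1`.
-/
import Mathlib

set_option autoImplicit false
set_option linter.unusedSectionVars false
set_option linter.style.haveILetI false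

namespace Fermat.Agent.T2

section One

variable {L F k Ω : Type*} [Field L] [Field F] [Algebra L F] [Field k] [Field Ω] [Algebra k Ω]
  (A : ValuationSubring L) (resA : ↥A →+* k)
  (harch : ∀ a : ↥A, a ∈ IsLocalRing.maximalIdeal ↥A → ∀ c : ↥A, c ≠ 0 → ∃ n : ℕ, c ∣ a ^ n)
  (hresA : ∀ a : ↥A, resA a = 0 ↔ a ∈ IsLocalRing.maximalIdeal ↥A)
  (G : Subring F) (ρ : ↥G →+* Ω)
  (hA : ∀ a : ↥A, algebraMap L F (a : L) ∈ G)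
  (hρA : ∀ a : ↥A, ρ ⟨algebraMap L F (a : L), hA a⟩ = algebraMap k Ω (resA a))
  (hnorm : ∀ f : F, f ≠ 0 → ∃ c : L, c ≠ 0 ∧ ∃ h : c • f ∈ G, ρ ⟨c • f, h⟩ ≠ 0)

include hresA hρA in
/-- a constant multiple `a • g`, `a ∈ 𝔪_A`, `g ∈ G`, lies in the kernel of `ρ` -/
theorem t2ft_smul_mem_ker {a : L} (ha : a ∈ A)
    (ham : (⟨a, ha⟩ : ↥A) ∈ IsLocalRing.maximalIdeal ↥A) {g : F} (hg : g ∈ G) :
    ∃ h : a • g ∈ G, ρ ⟨a • g, h⟩ = 0 := by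
  have h1 : a • g = algebraMap L F a * g := Algebra.smul_def a g
  have hmem : a • g ∈ G := by
    rw [h1]
    exact G.mul_mem (hA ⟨a, ha⟩) hg
  refine ⟨hmem, ?_⟩
  have h2 : (⟨a • g, hmem⟩ : ↥G) = ⟨algebraMap L F a, hA ⟨a, ha⟩⟩ * ⟨g, hg⟩ := Subtype.ext h1
  rw [h2, map_mul, hρA ⟨a, ha⟩, (hresA ⟨a, ha⟩).mpr ham, map_zero, zero_mul]

include harch hresA hρA hnorm in
/-- powers of an element of `ker ρ` are eventually smaller than any given function -/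
theorem t2ft_small {t : F} (ht : t ∈ G) (hρt : ρ ⟨t, ht⟩ = 0) (f : F) :
    ∃ n₀ : ℕ, ∀ n : ℕ, n₀ ≤ n → ∃ h : t ^ n * f ∈ G, ρ ⟨t ^ n * f, h⟩ = 0 := by
  rcases eq_or_ne f 0 with rfl | hf0
  · refine ⟨0, fun n _ => ⟨by rw [mul_zero]; exact G.zero_mem, ?_⟩⟩
    have : (⟨t ^ n * 0, by rw [mul_zero]; exact G.zero_mem⟩ : ↥G) = 0 := Subtype.ext (mul_zero _)
    rw [this, map_zero]
  rcases eq_or_ne t 0 with rfl | ht0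
  · refine ⟨1, fun n hn => ?_⟩
    have h0 : (0 : F) ^ n * f = 0 := by rw [zero_pow (by omega), zero_mul]
    refine ⟨by rw [h0]; exact G.zero_mem, ?_⟩
    have : (⟨(0 : F) ^ n * f, by rw [h0]; exact G.zero_mem⟩ : ↥G) = 0 := Subtype.ext h0
    rw [this, map_zero]
  -- `t = c⁻¹ (c t)` with `c⁻¹ ∈ 𝔪_A`, `f = c'⁻¹ (c' f)`
  obtain ⟨c, hc0, hcG, hρc⟩ := hnorm t ht0
  obtain ⟨c', hc'0, hc'G, hρc'⟩ := hnorm f hf0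
  have hcA : c ∉ A := by
    intro hcA
    apply hρc
    have h1 : (⟨c • t, hcG⟩ : ↥G) = ⟨algebraMap L F c, hA ⟨c, hcA⟩⟩ * ⟨t, ht⟩ :=
      Subtype.ext (Algebra.smul_def c t)
    rw [h1, map_mul, hρt, mul_zero]
  have hciA : c⁻¹ ∈ A := (A.mem_or_inv_mem c).resolve_left hcA
  have hcim : (⟨c⁻¹, hciA⟩ : ↥A) ∈ IsLocalRing.maximalIdeal ↥A := by
    rw [IsLocalRing.mem_maximalIdeal, mem_nonunits_iff]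
    intro hu
    apply hcA
    obtain ⟨b, hb⟩ := hu.exists_right_inv
    have h1 : c⁻¹ * (b : L) = 1 := by
      have := congrArg Subtype.val hb
      simpa using this
    have h2 : (b : L) = c := by
      have h3 := congrArg (fun x => c * x) h1
      simp only [mul_one] at h3
      rw [← mul_assoc, mul_inv_cancel₀ hc0, one_mul] at h3
      exact h3
    rw [← h2]
    exact b.2
  -- the exponent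
  obtain ⟨n₁, hn₁⟩ : ∃ n₁ : ℕ, c⁻¹ ^ n₁ * c'⁻¹ ∈ A := by
    rcases A.mem_or_inv_mem c' with hc'A | hc'iA
    · have hc'0' : (⟨c', hc'A⟩ : ↥A) ≠ 0 := fun h => hc'0 (congrArg Subtype.val h)
      obtain ⟨n, b, hb⟩ := harch ⟨c⁻¹, hciA⟩ hcim ⟨c', hc'A⟩ hc'0'
      refine ⟨n, ?_⟩
      have h1 : c⁻¹ ^ n = c' * (b : L) := by
        have := congrArg Subtype.val hb
        simpa using this
      rw [h1, mul_comm c', mul_assoc, mul_inv_cancel₀ hc'0, mul_one]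
      exact b.2
    · exact ⟨0, by rw [pow_zero, one_mul]; exact hc'iA⟩
  refine ⟨n₁ + 1, fun n hn => ?_⟩
  obtain ⟨j, rfl⟩ : ∃ j, n = n₁ + 1 + j := ⟨n - (n₁ + 1), by omega⟩
  -- `t ^ n f = (c⁻¹ ^ n c'⁻¹) • ((c t) ^ n (c' f))`
  have hgG : (c • t) ^ (n₁ + 1 + j) * (c' • f) ∈ G := G.mul_mem (G.pow_mem hcG _) hc'G
  have hamem : c⁻¹ ^ (n₁ + 1 + j) * c'⁻¹ ∈ A := by
    have h1 : c⁻¹ ^ (n₁ + 1 + j) * c'⁻¹ = c⁻¹ ^ (1 + j) * (c⁻¹ ^ n₁ * c'⁻¹) := by ring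
    rw [h1]
    exact mul_mem (pow_mem hciA _) hn₁
  have hamax : (⟨c⁻¹ ^ (n₁ + 1 + j) * c'⁻¹, hamem⟩ : ↥A) ∈ IsLocalRing.maximalIdeal ↥A := by
    have h1 : (⟨c⁻¹ ^ (n₁ + 1 + j) * c'⁻¹, hamem⟩ : ↥A) =
        ⟨c⁻¹, hciA⟩ * (⟨c⁻¹, hciA⟩ ^ j * ⟨c⁻¹ ^ n₁ * c'⁻¹, hn₁⟩) := by
      apply Subtype.ext
      show c⁻¹ ^ (n₁ + 1 + j) * c'⁻¹ = c⁻¹ * (c⁻¹ ^ j * (c⁻¹ ^ n₁ * c'⁻¹))
      ring
    rw [h1]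
    exact Ideal.mul_mem_right _ _ hcim
  obtain ⟨hmem, hρ0⟩ := t2ft_smul_mem_ker A resA hresA G ρ hA hρA hamem hamax hgG
  have heq : (c⁻¹ ^ (n₁ + 1 + j) * c'⁻¹) • ((c • t) ^ (n₁ + 1 + j) * (c' • f)) =
      t ^ (n₁ + 1 + j) * f := by
    have hcF : algebraMap L F c ≠ 0 := (map_ne_zero _).mpr hc0
    have hc'F : algebraMap L F c' ≠ 0 := (map_ne_zero _).mpr hc'0
    rw [Algebra.smul_def, Algebra.smul_def, Algebra.smul_def, map_mul, map_pow, map_inv₀,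
      map_inv₀, mul_pow]
    field_simp
    rw [one_div, inv_pow, inv_mul_cancel₀ (pow_ne_zero _ hcF)]
  rw [heq] at hmem
  refine ⟨hmem, ?_⟩
  have h2 : (⟨t ^ (n₁ + 1 + j) * f, hmem⟩ : ↥G) =
      ⟨(c⁻¹ ^ (n₁ + 1 + j) * c'⁻¹) • ((c • t) ^ (n₁ + 1 + j) * (c' • f)), by rw [heq]; exact hmem⟩ :=
    Subtype.ext heq.symm
  rw [h2]
  exact hρ0

end One

section Two

variable {L F k Ω₁ Ω₂ : Type*} [Field L] [Field F] [Algebra L F] [Field k] [Field Ω₁]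
  [Algebra k Ω₁] [Field Ω₂] [Algebra k Ω₂]
  (A : ValuationSubring L) (resA : ↥A →+* k)
  (harch : ∀ a : ↥A, a ∈ IsLocalRing.maximalIdeal ↥A → ∀ c : ↥A, c ≠ 0 → ∃ n : ℕ, c ∣ a ^ n)
  (hresA : ∀ a : ↥A, resA a = 0 ↔ a ∈ IsLocalRing.maximalIdeal ↥A)
  (G₁ : Subring F) (ρ₁ : ↥G₁ →+* Ω₁) (G₂ : Subring F) (ρ₂ : ↥G₂ →+* Ω₂)
  (hA₁ : ∀ a : ↥A, algebraMap L F (a : L) ∈ G₁)
  (hρA₁ : ∀ a : ↥A, ρ₁ ⟨algebraMap L F (a : L), hA₁ a⟩ = algebraMap k Ω₁ (resA a))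
  (hnorm₁ : ∀ f : F, f ≠ 0 → ∃ c : L, c ≠ 0 ∧ ∃ h : c • f ∈ G₁, ρ₁ ⟨c • f, h⟩ ≠ 0)
  (hA₂ : ∀ a : ↥A, algebraMap L F (a : L) ∈ G₂)
  (hρA₂ : ∀ a : ↥A, ρ₂ ⟨algebraMap L F (a : L), hA₂ a⟩ = algebraMap k Ω₂ (resA a))
  (hnorm₂ : ∀ f : F, f ≠ 0 → ∃ c : L, c ≠ 0 ∧ ∃ h : c • f ∈ G₂, ρ₂ ⟨c • f, h⟩ ≠ 0)
  (e : F) (he₁ : e ∈ G₁) (he₂ : e ∈ G₂) (hρe₁ : ρ₁ ⟨e, he₁⟩ = 1) (hρe₂ : ρ₂ ⟨e, he₂⟩ = 0)

/-- `1 + t ∈ G` reduces to `1` when `t ∈ ker ρ` -/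
theorem t2ft_one_add_mem {Ω : Type*} [Field Ω] (G : Subring F) (ρ : ↥G →+* Ω) {t x : F}
    (ht : t ∈ G) (hρt : ρ ⟨t, ht⟩ = 0) (hx : x = 1 + t) :
    ∃ h : x ∈ G, ρ ⟨x, h⟩ = 1 := by
  subst hx
  refine ⟨G.add_mem G.one_mem ht, ?_⟩
  have h1 : (⟨1 + t, G.add_mem G.one_mem ht⟩ : ↥G) = 1 + ⟨t, ht⟩ := Subtype.ext rfl
  rw [h1, map_add, map_one, hρt, add_zero]

/-- a product of an element of `ker ρ` and an element of `G` lies in `ker ρ` -/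
theorem t2ft_mul_mem_ker {Ω : Type*} [Field Ω] (G : Subring F) (ρ : ↥G →+* Ω) {t g : F}
    (ht : t ∈ G) (hρt : ρ ⟨t, ht⟩ = 0) (hg : g ∈ G) :
    ∃ h : t * g ∈ G, ρ ⟨t * g, h⟩ = 0 := by
  refine ⟨G.mul_mem ht hg, ?_⟩
  have h1 : (⟨t * g, G.mul_mem ht hg⟩ : ↥G) = ⟨t, ht⟩ * ⟨g, hg⟩ := Subtype.ext rfl
  rw [h1, map_mul, hρt, zero_mul]

include harch hresA hρA₁ hnorm₁ hρA₂ hnorm₂ hρe₁ hρe₂ in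
/-- **weak approximation** for the two Gauss rings: `θ ≡ 1` in `G₁` and `θ ≡ r` in `G₂` -/
theorem t2ft_approx (r : F) (hr : r ≠ 0) :
    ∃ (θ : F) (h₁ : θ ∈ G₁) (h₂ : θ / r ∈ G₂), ρ₁ ⟨θ, h₁⟩ = 1 ∧ ρ₂ ⟨θ / r, h₂⟩ = 1 := by
  -- `1 - e ∈ ker ρ₁`
  have h1e : 1 - e ∈ G₁ := G₁.sub_mem G₁.one_mem he₁
  have hρ1e : ρ₁ ⟨1 - e, h1e⟩ = 0 := by
    have h1 : (⟨1 - e, h1e⟩ : ↥G₁) = 1 - ⟨e, he₁⟩ := Subtype.ext rfl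
    rw [h1, map_sub, map_one, hρe₁, sub_self]
  obtain ⟨n₁, hn₁⟩ := t2ft_small A resA harch hresA G₁ ρ₁ hA₁ hρA₁ hnorm₁ h1e hρ1e (r - 1)
  obtain ⟨n₂, hn₂⟩ := t2ft_small A resA harch hresA G₂ ρ₂ hA₂ hρA₂ hnorm₂ he₂ hρe₂ ((1 - r) / r)
  obtain ⟨n, hn⟩ : ∃ n : ℕ, n = max n₁ n₂ := ⟨_, rfl⟩
  obtain ⟨hm₁, hk₁⟩ := hn₁ n (hn ▸ le_max_left _ _)
  obtain ⟨hm₂, hk₂⟩ := hn₂ n (hn ▸ le_max_right _ _)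
  -- the approximate idempotent `ε = 1 - (1 - e ^ n) ^ n`
  obtain ⟨g₁, hg₁⟩ : ∃ g₁ : F, g₁ = ∑ i ∈ Finset.range n, e ^ i := ⟨_, rfl⟩
  obtain ⟨g₂, hg₂⟩ : ∃ g₂ : F, g₂ = ∑ i ∈ Finset.range n, (1 - e ^ n) ^ i := ⟨_, rfl⟩
  have hg₁G : g₁ ∈ G₁ := by
    rw [hg₁]
    exact G₁.sum_mem fun i _ => G₁.pow_mem he₁ i
  have hg₂G : g₂ ∈ G₂ := by
    rw [hg₂]
    exact G₂.sum_mem fun i _ => G₂.pow_mem (G₂.sub_mem G₂.one_mem (G₂.pow_mem he₂ n)) i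
  have hgeo₁ : 1 - e ^ n = (1 - e) * g₁ := by
    rw [hg₁]
    exact (mul_neg_geom_sum e n).symm
  have hgeo₂ : 1 - (1 - e ^ n) ^ n = e ^ n * g₂ := by
    have h := mul_neg_geom_sum (1 - e ^ n) n
    rw [sub_sub_cancel] at h
    rw [hg₂]
    exact h.symm
  obtain ⟨ε, hε⟩ : ∃ ε : F, ε = 1 - (1 - e ^ n) ^ n := ⟨_, rfl⟩
  obtain ⟨θ, hθ⟩ : ∃ θ : F, θ = ε + r * (1 - ε) := ⟨_, rfl⟩
  -- `θ = 1 + ((1 - e) ^ n (r - 1)) g₁ ^ n`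
  have hθ1 : θ = 1 + (1 - e) ^ n * (r - 1) * g₁ ^ n := by
    have h1 : 1 - ε = ((1 - e) * g₁) ^ n := by rw [hε, sub_sub_cancel, hgeo₁]
    have h2 : θ = 1 + (r - 1) * (1 - ε) := by rw [hθ]; ring
    rw [h2, h1, mul_pow]
    ring
  -- `θ / r = 1 + (e ^ n ((1 - r) / r)) g₂`
  have hθ2 : θ / r = 1 + e ^ n * ((1 - r) / r) * g₂ := by
    have h2 : θ = r + (1 - r) * ε := by rw [hθ]; ring
    rw [h2, hε, hgeo₂]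
    field_simp
  obtain ⟨hk₁', hk₁''⟩ := t2ft_mul_mem_ker G₁ ρ₁ hm₁ hk₁ (G₁.pow_mem hg₁G n)
  obtain ⟨hk₂', hk₂''⟩ := t2ft_mul_mem_ker G₂ ρ₂ hm₂ hk₂ hg₂G
  obtain ⟨hθG₁, hρθ₁⟩ := t2ft_one_add_mem G₁ ρ₁ hk₁' hk₁'' hθ1
  obtain ⟨hθG₂, hρθ₂⟩ := t2ft_one_add_mem G₂ ρ₂ hk₂' hk₂'' hθ2
  exact ⟨θ, hθG₁, hθG₂, hρθ₁, hρθ₂⟩

include harch hresA hρA₁ hnorm₁ hρA₂ hnorm₂ hρe₁ hρe₂ in
/-- **simultaneous unit normalisation**: if `y s₁ ^ m` is a `1`-unit of `G₁` and `y s₂ ^ m` is a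
`1`-unit of `G₂`, then `y η ^ m` is a `1`-unit of both for a suitable `η` -/
theorem t2ft_normalise (m : ℕ) (y s₁ s₂ : F) (hs₁ : s₁ ≠ 0) (hs₂ : s₂ ≠ 0)
    (h₁ : y * s₁ ^ m ∈ G₁) (hρ₁ : ρ₁ ⟨y * s₁ ^ m, h₁⟩ = 1)
    (h₂ : y * s₂ ^ m ∈ G₂) (hρ₂ : ρ₂ ⟨y * s₂ ^ m, h₂⟩ = 1) :
    ∃ η : F, η ≠ 0 ∧ ∃ (hz₁ : y * η ^ m ∈ G₁) (hz₂ : y * η ^ m ∈ G₂),
      ρ₁ ⟨y * η ^ m, hz₁⟩ = 1 ∧ ρ₂ ⟨y * η ^ m, hz₂⟩ = 1 := by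
  obtain ⟨θ, hθ₁, hθ₂, hρθ₁, hρθ₂⟩ := t2ft_approx A resA harch hresA G₁ ρ₁ G₂ ρ₂ hA₁ hρA₁ hnorm₁
    hA₂ hρA₂ hnorm₂ e he₁ he₂ hρe₁ hρe₂ (s₂ / s₁) (div_ne_zero hs₂ hs₁)
  have hθ0 : θ ≠ 0 := by
    rintro rfl
    have h0 : (⟨(0 : F), hθ₁⟩ : ↥G₁) = 0 := rfl
    rw [h0, map_zero] at hρθ₁
    exact zero_ne_one hρθ₁
  have e₁ : y * (s₁ * θ) ^ m = y * s₁ ^ m * θ ^ m := by ring
  have e₂ : y * (s₁ * θ) ^ m = y * s₂ ^ m * (θ / (s₂ / s₁)) ^ m := by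
    have h3 : θ / (s₂ / s₁) = s₁ * θ / s₂ := by field_simp
    rw [h3, div_pow, mul_assoc, mul_div_cancel₀ _ (pow_ne_zero m hs₂)]
  have hz₁ : y * (s₁ * θ) ^ m ∈ G₁ := by
    rw [e₁]
    exact G₁.mul_mem h₁ (G₁.pow_mem hθ₁ m)
  have hz₂ : y * (s₁ * θ) ^ m ∈ G₂ := by
    rw [e₂]
    exact G₂.mul_mem h₂ (G₂.pow_mem hθ₂ m)
  refine ⟨s₁ * θ, mul_ne_zero hs₁ hθ0, hz₁, hz₂, ?_, ?_⟩
  · have h3 : (⟨y * (s₁ * θ) ^ m, hz₁⟩ : ↥G₁) = ⟨y * s₁ ^ m, h₁⟩ * ⟨θ, hθ₁⟩ ^ m :=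
      Subtype.ext e₁
    rw [h3, map_mul, map_pow, hρ₁, hρθ₁, one_pow, one_mul]
  · have h3 : (⟨y * (s₁ * θ) ^ m, hz₂⟩ : ↥G₂) =
        ⟨y * s₂ ^ m, h₂⟩ * ⟨θ / (s₂ / s₁), hθ₂⟩ ^ m := Subtype.ext e₂
    rw [h3, map_mul, map_pow, hρ₂, hρθ₂, one_pow, one_mul]

end Two

end Fermat.Agent.T2
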