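/-
T2-F, F3 (helper4): **(P4-K) at the good levels from the export of T2-C**.
* `t2ft_group_identity`, `t2ft_arith_mul`, `t2ft_bar_sq`;
* `t2ft_hev`: the evaluation hypothesis of `t2ft_level` (helper5) for `τ = φ²` from the Frobenius
  compatibility (FR) of the node evaluation;
* `t2ft_main`: for a Kummer function `y` coming from a level `H` stable under a Frobenius element
  `φ`, such that `y f₁ ^ m` and `w(y) f₂ ^ m` are Gauss `1`-units: `φ² y = y ^ (q²) t ^ m`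
  (normalisation `t2ft_normalise` + core `t2ft_level`);
* **`t2f_P4KGood_of_export : T2fExport → T2fP4KGood`**.
-/
import Mathlib
import Fermat.Agent.Lib.T2.F.ToricGauss
import Fermat.Agent.Lib.T2.F.ToricCore
import Fermat.Agent.Lib.T2.F.ToricNorm

set_option autoImplicit false
set_option linter.unusedSectionVars false
set_option linter.unusedVariables false
set_option linter.style.haveILetI false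

namespace Fermat.Agent.T2

open ModularCurve Module AlgebraicCurve IntermediateField Fermat.Agent.Curve
  Fermat.Agent.T1 Fermat.Agent.TW Fermat.Agent.S24Lib HahnSeries

local notation "Qb" => AlgebraicClosure ℚ
local notation "GQ" => (AlgebraicClosure ℚ ≃ₐ[ℚ] AlgebraicClosure ℚ)

attribute [local instance] t2i_dvr t2i_isAlgClosed t2i_charP t2i_fact
attribute [local instance] t2iAlgebra t2i_isScalarTower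

/-- the group-theoretic identity behind `φ² y = y ^ Q · t ^ m` -/
theorem t2ft_group_identity {U : Type*} [CommGroup U] (S : U →* U) (y η g Z : U) (m Q : ℕ)
    (hZ : Z = y * η ^ m) (hg : g ^ m = S Z * (Z ^ Q)⁻¹) :
    S y = y ^ Q * (g * η ^ Q * (S η)⁻¹) ^ m := by
  subst hZ
  rw [mul_pow, mul_pow, hg]
  simp only [map_mul, map_pow, mul_pow, inv_pow, mul_inv_rev]
  have key : ∀ a b c d : U, a = c * (a * b * (d⁻¹ * c⁻¹) * d * b⁻¹) := by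
    intro a b c d
    have h1 : c * (a * b * (d⁻¹ * c⁻¹) * d * b⁻¹)
        = a * (b * b⁻¹) * (c * c⁻¹) * (d * d⁻¹) := by
      simp only [mul_assoc, mul_comm, mul_left_comm]
    rw [h1, mul_inv_cancel, mul_inv_cancel, mul_inv_cancel, mul_one, mul_one, mul_one]
  have h2 : (η ^ Q) ^ m = (η ^ m) ^ Q := by rw [← pow_mul, ← pow_mul, mul_comm]
  rw [h2]
  exact key _ _ _ _

noncomputable section

/-- the coefficientwise action of a product -/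
theorem t2ft_arith_mul (N : ℕ) [NeZero N] (σ τ : GQ) (f : ↥(modularFunctionFieldBar N)) :
    arithmeticRingAut (modularFunctionFieldFull N) (σ * τ) f
      = arithmeticRingAut (modularFunctionFieldFull N) σ
        (arithmeticRingAut (modularFunctionFieldFull N) τ f) := by
  apply Subtype.ext
  rw [coe_arithmeticRingAut_apply, coe_arithmeticRingAut_apply, coe_arithmeticRingAut_apply,
    coeffMap_coeffMap]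
  exact coeffMap_congr (RingHom.ext fun a => rfl) _

section Main

variable (𝔓 : FFPlace) (N' : ℕ) [NeZero N'] (h : ¬ 𝔓.p ∣ N') (H : Subgroup 𝔓.I) [H.FiniteIndex]
  (φ : GQ) (hφ : T2fsStab 𝔓 H φ)

/-- the residue action of the square of a Frobenius element -/
theorem t2ft_bar_sq (hF : 𝔓.P.IsFrobeniusAt φ 𝔓.p) (x : LaurentSeries (IsLocalRing.ResidueField ↥𝔓.P)) :
    coeffMap (t2fsBar 𝔓 H (φ * φ) (hφ.mul hφ)) x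
      = coeffMap (frobenius (IsLocalRing.ResidueField ↥𝔓.P) 𝔓.p)
        (coeffMap (frobenius (IsLocalRing.ResidueField ↥𝔓.P) 𝔓.p) x) := by
  rw [t2fsBar_mul 𝔓 H hφ hφ, t2fsBar_of_frobenius 𝔓 H φ hφ hF, coeffMap_coeffMap]

/-- **the evaluation hypothesis of `t2ft_level`** from the Frobenius compatibility (FR) of `ev` -/
theorem t2ft_hev (hF : 𝔓.P.IsFrobeniusAt φ 𝔓.p) {n : ℕ}
    (su : T2Setup (t2iBase2Fix 𝔓 H N' h) (Fin n))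
    (hFR : ∀ r r' : ↥(t2R (k := IsLocalRing.ResidueField ↥𝔓.P) su.xb),
      (((r' : ↥(tbBarF 𝔓 N') × ↥(tbBarF 𝔓 N')).1 : ↥(tbBarF 𝔓 N')) :
          LaurentSeries (IsLocalRing.ResidueField ↥𝔓.P)) =
        coeffMap (frobenius (IsLocalRing.ResidueField ↥𝔓.P) 𝔓.p)
          (coeffMap (frobenius (IsLocalRing.ResidueField ↥𝔓.P) 𝔓.p)
            (((r : ↥(tbBarF 𝔓 N') × ↥(tbBarF 𝔓 N')).1 : ↥(tbBarF 𝔓 N')) :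
              LaurentSeries (IsLocalRing.ResidueField ↥𝔓.P))) →
      (((r' : ↥(tbBarF 𝔓 N') × ↥(tbBarF 𝔓 N')).2 : ↥(tbBarF 𝔓 N')) :
          LaurentSeries (IsLocalRing.ResidueField ↥𝔓.P)) =
        coeffMap (frobenius (IsLocalRing.ResidueField ↥𝔓.P) 𝔓.p)
          (coeffMap (frobenius (IsLocalRing.ResidueField ↥𝔓.P) 𝔓.p)
            (((r : ↥(tbBarF 𝔓 N') × ↥(tbBarF 𝔓 N')).2 : ↥(tbBarF 𝔓 N')) :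
              LaurentSeries (IsLocalRing.ResidueField ↥𝔓.P))) →
      su.ev r' = su.ev r ^ (𝔓.p ^ 2))
    (f : ↥(tbLevF 𝔓 (N' * 𝔓.p) H)) (hf : f ∈ (t2iBase2Fix 𝔓 H N' h).Ov)
    (h1 : (t2iBase2Fix 𝔓 H N' h).res ⟨f, hf⟩ ∈ t2R (k := IsLocalRing.ResidueField ↥𝔓.P) su.xb)
    (h2 : (t2iBase2Fix 𝔓 H N' h).res
      ⟨(t2fsF 𝔓 H (φ * φ) (hφ.mul hφ) (N' * 𝔓.p)).symm f,
        t2fb_Ov 𝔓 N' h H (φ * φ)⁻¹ (hφ.mul hφ).inv f hf⟩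
        ∈ t2R (k := IsLocalRing.ResidueField ↥𝔓.P) su.xb) :
    su.ev ⟨(t2iBase2Fix 𝔓 H N' h).res ⟨f, hf⟩, h1⟩
      = su.ev ⟨(t2iBase2Fix 𝔓 H N' h).res
        ⟨(t2fsF 𝔓 H (φ * φ) (hφ.mul hφ) (N' * 𝔓.p)).symm f,
          t2fb_Ov 𝔓 N' h H (φ * φ)⁻¹ (hφ.mul hφ).inv f hf⟩, h2⟩ ^ (𝔓.p ^ 2) := by
  set g : ↥(tbLevF 𝔓 (N' * 𝔓.p) H) := (t2fsF 𝔓 H (φ * φ) (hφ.mul hφ) (N' * 𝔓.p)).symm f with hg
  have hgO : g ∈ (t2iBase2Fix 𝔓 H N' h).Ov := t2fb_Ov 𝔓 N' h H (φ * φ)⁻¹ (hφ.mul hφ).inv f hf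
  have hfg : t2fsF 𝔓 H (φ * φ) (hφ.mul hφ) (N' * 𝔓.p) g = f := RingEquiv.apply_symm_apply _ _
  have hres : ∀ (f' : ↥(tbLevF 𝔓 (N' * 𝔓.p) H)) (hf' : f' ∈ (t2iBase2Fix 𝔓 H N' h).Ov),
      f' = f → (t2iBase2Fix 𝔓 H N' h).res ⟨f', hf'⟩ = (t2iBase2Fix 𝔓 H N' h).res ⟨f, hf⟩ := by
    intro f' hf' e
    subst e
    rfl
  have e := hres _ (t2fb_Ov 𝔓 N' h H (φ * φ) (hφ.mul hφ) g hgO) hfg
  refine hFR ⟨_, h2⟩ ⟨_, h1⟩ ?_ ?_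
  · show ((((t2iBase2Fix 𝔓 H N' h).res ⟨f, hf⟩).1 : ↥(tbBarF 𝔓 N')) :
      LaurentSeries (IsLocalRing.ResidueField ↥𝔓.P)) = _
    rw [← e, t2fb_res_fst 𝔓 N' h H (φ * φ) (hφ.mul hφ) g hgO, t2ft_bar_sq 𝔓 H φ hφ hF]
  · show ((((t2iBase2Fix 𝔓 H N' h).res ⟨f, hf⟩).2 : ↥(tbBarF 𝔓 N')) :
      LaurentSeries (IsLocalRing.ResidueField ↥𝔓.P)) = _
    rw [← e, t2fb_res_snd 𝔓 N' h H (φ * φ) (hφ.mul hφ) g hgO, t2ft_bar_sq 𝔓 H φ hφ hF]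

include hφ in
set_option maxHeartbeats 16000000 in
/-- **(P4-K) for a Kummer function coming from the level `H`** -/
theorem t2ft_main [H.Normal] (hF : 𝔓.P.IsFrobeniusAt φ 𝔓.p) {n : ℕ}
    (su : T2Setup (t2iBase2Fix 𝔓 H N' h) (Fin n)) {Q₀ : ℕ} (hQ₀ : 2 ≤ Q₀)
    (hx : su.x = t2gaX 𝔓 H N' h Q₀)
    (hn : (su.n : ℤ) = finrank ↥Qb⟮tbPhiF 𝔓 (N' * 𝔓.p) H su.x⟯
      ↥(modularFunctionFieldBar (N' * 𝔓.p)))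
    (hc : su.c = 1 - CurveP.genusR Qb ↥(modularFunctionFieldBar (N' * 𝔓.p)))
    (hFR : ∀ r r' : ↥(t2R (k := IsLocalRing.ResidueField ↥𝔓.P) su.xb),
      (((r' : ↥(tbBarF 𝔓 N') × ↥(tbBarF 𝔓 N')).1 : ↥(tbBarF 𝔓 N')) :
          LaurentSeries (IsLocalRing.ResidueField ↥𝔓.P)) =
        coeffMap (frobenius (IsLocalRing.ResidueField ↥𝔓.P) 𝔓.p)
          (coeffMap (frobenius (IsLocalRing.ResidueField ↥𝔓.P) 𝔓.p)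
            (((r : ↥(tbBarF 𝔓 N') × ↥(tbBarF 𝔓 N')).1 : ↥(tbBarF 𝔓 N')) :
              LaurentSeries (IsLocalRing.ResidueField ↥𝔓.P))) →
      (((r' : ↥(tbBarF 𝔓 N') × ↥(tbBarF 𝔓 N')).2 : ↥(tbBarF 𝔓 N')) :
          LaurentSeries (IsLocalRing.ResidueField ↥𝔓.P)) =
        coeffMap (frobenius (IsLocalRing.ResidueField ↥𝔓.P) 𝔓.p)
          (coeffMap (frobenius (IsLocalRing.ResidueField ↥𝔓.P) 𝔓.p)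
            (((r : ↥(tbBarF 𝔓 N') × ↥(tbBarF 𝔓 N')).2 : ↥(tbBarF 𝔓 N')) :
              LaurentSeries (IsLocalRing.ResidueField ↥𝔓.P))) →
      su.ev r' = su.ev r ^ (𝔓.p ^ 2))
    {y : (↥(modularFunctionFieldBar (N' * 𝔓.p)))ˣ} (hy : y ∈ tWsub Qb (N' * 𝔓.p) su.m)
    (fy f₁ f₂ : ↥(tbLevF 𝔓 (N' * 𝔓.p) H))
    (hfy : tbPhiF 𝔓 (N' * 𝔓.p) H fy = (y : ↥(modularFunctionFieldBar (N' * 𝔓.p))))
    (hf₁ : f₁ ≠ 0) (hf₂ : f₂ ≠ 0)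
    (hG₁ : TbGauss (tbFixO 𝔓 H) (tbFixRes 𝔓 H)
      ((fy * f₁ ^ su.m : ↥(tbLevF 𝔓 (N' * 𝔓.p) H)) : LaurentSeries ↥(tbFix 𝔓 H)))
    (hρ₁ : tbRhoFun (tbFixO 𝔓 H) (tbFixRes 𝔓 H)
      ((fy * f₁ ^ su.m : ↥(tbLevF 𝔓 (N' * 𝔓.p) H)) : LaurentSeries ↥(tbFix 𝔓 H)) = 1)
    (hG₂ : TbGauss (tbFixO 𝔓 H) (tbFixRes 𝔓 H)
      ((t2wLev 𝔓 H N' 𝔓.p h fy * f₂ ^ su.m : ↥(tbLevF 𝔓 (N' * 𝔓.p) H)) :
        LaurentSeries ↥(tbFix 𝔓 H)))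
    (hρ₂ : tbRhoFun (tbFixO 𝔓 H) (tbFixRes 𝔓 H)
      ((t2wLev 𝔓 H N' 𝔓.p h fy * f₂ ^ su.m : ↥(tbLevF 𝔓 (N' * 𝔓.p) H)) :
        LaurentSeries ↥(tbFix 𝔓 H)) = 1) :
    ∃ t : (↥(modularFunctionFieldBar (N' * 𝔓.p)))ˣ,
      tkrSig (N' * 𝔓.p) φ (tkrSig (N' * 𝔓.p) φ y) = y ^ (𝔓.p ^ 2) * t ^ su.m := by
  classical
  -- the Kronecker input and its two Gauss rings
  have hunit : ∀ (g : ↥(tbLevF 𝔓 (N' * 𝔓.p) H))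
      (hg : g ∈ (t2gpInput 𝔓 N' h H (t2gmFrob 𝔓 N')).G),
      (t2gpInput 𝔓 N' h H (t2gmFrob 𝔓 N')).ρ ⟨g, hg⟩ ≠ 0 →
        g⁻¹ ∈ (t2gpInput 𝔓 N' h H (t2gmFrob 𝔓 N')).G :=
    t2gp_unit (tbFixO 𝔓 H) (tbFixRes 𝔓 H) (tbFixRes_surjective 𝔓 H)
      (t2gp_natCast_ne_zero 𝔓 N' h) (t2gpW 𝔓 N' h H) (t2gmFrob 𝔓 N')
  have hnorm : ∀ f : ↥(tbLevF 𝔓 (N' * 𝔓.p) H), f ≠ 0 → ∃ c : ↥(tbFix 𝔓 H), c ≠ 0 ∧
      ∃ hc : c • f ∈ (t2gpInput 𝔓 N' h H (t2gmFrob 𝔓 N')).G,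
        (t2gpInput 𝔓 N' h H (t2gmFrob 𝔓 N')).ρ ⟨c • f, hc⟩ ≠ 0 :=
    t2gp_norm (tbFixO 𝔓 H) (tbFixRes 𝔓 H) (tbFixRes_surjective 𝔓 H)
      (t2gp_natCast_ne_zero 𝔓 N' h) (t2gpW 𝔓 N' h H) (t2gmFrob 𝔓 N')
  obtain ⟨e, he₁, he₂, hρe₁, hρe₂⟩ : ∃ (e : ↥(tbLevF 𝔓 (N' * 𝔓.p) H))
      (he₁ : e ∈ (t2gpInput 𝔓 N' h H (t2gmFrob 𝔓 N')).G)
      (he₂ : e ∈ (t2gpInput 𝔓 N' h H (t2gmFrob 𝔓 N')).G₂),
      (t2gpInput 𝔓 N' h H (t2gmFrob 𝔓 N')).ρ ⟨e, he₁⟩ = 1 ∧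
        (t2gpInput 𝔓 N' h H (t2gmFrob 𝔓 N')).ρG₂ ⟨e, he₂⟩ = 0 :=
    t2gp_exists_e (tbFixO 𝔓 H) (tbFixRes 𝔓 H)
      (tbFixRes_surjective 𝔓 H) (t2gp_natCast_ne_zero 𝔓 N' h) (t2gpW 𝔓 N' h H) (t2gmFrob 𝔓 N')
  have hfy0 : fy ≠ 0 := by
    rintro rfl
    rw [map_zero] at hfy
    exact y.ne_zero hfy.symm
  -- the hypotheses in terms of the two Gauss rings
  have h₁ : fy * f₁ ^ su.m ∈ (t2gpInput 𝔓 N' h H (t2gmFrob 𝔓 N')).G := hG₁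
  have hρ₁' : (t2gpInput 𝔓 N' h H (t2gmFrob 𝔓 N')).ρ ⟨fy * f₁ ^ su.m, h₁⟩ = 1 := by
    show taRhoFun (tbFixO 𝔓 H) (tbFixRes 𝔓 H)
      ((fy * f₁ ^ su.m : ↥(tbLevF 𝔓 (N' * 𝔓.p) H)) : LaurentSeries ↥(tbFix 𝔓 H)) = 1
    rw [← tbf_rhoFun_eq]
    exact hρ₁
  have hw2 : (t2gpInput 𝔓 N' h H (t2gmFrob 𝔓 N')).w (fy * t2wLev 𝔓 H N' 𝔓.p h f₂ ^ su.m)
      = t2wLev 𝔓 H N' 𝔓.p h fy * f₂ ^ su.m := by
    show t2wLev 𝔓 H N' 𝔓.p h (fy * t2wLev 𝔓 H N' 𝔓.p h f₂ ^ su.m) = _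
    rw [map_mul, map_pow, t2wLev_t2wLev]
  have h₂ : fy * t2wLev 𝔓 H N' 𝔓.p h f₂ ^ su.m ∈ (t2gpInput 𝔓 N' h H (t2gmFrob 𝔓 N')).G₂ := by
    rw [T2kInput.mem_G₂, hw2]
    exact hG₂
  have hρ₂' : (t2gpInput 𝔓 N' h H (t2gmFrob 𝔓 N')).ρG₂
      ⟨fy * t2wLev 𝔓 H N' 𝔓.p h f₂ ^ su.m, h₂⟩ = 1 := by
    rw [T2kInput.ρG₂_apply]
    show taRhoFun (tbFixO 𝔓 H) (tbFixRes 𝔓 H)
      (((t2gpInput 𝔓 N' h H (t2gmFrob 𝔓 N')).w (fy * t2wLev 𝔓 H N' 𝔓.p h f₂ ^ su.m) :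
        ↥(tbLevF 𝔓 (N' * 𝔓.p) H)) : LaurentSeries ↥(tbFix 𝔓 H)) = 1
    rw [hw2, ← tbf_rhoFun_eq]
    exact hρ₂
  have hwf₂ : t2wLev 𝔓 H N' 𝔓.p h f₂ ≠ 0 := (map_ne_zero _).mpr hf₂
  -- simultaneous normalisation
  obtain ⟨η, hη0, hz₁, hz₂, hρz₁, hρz₂⟩ :=
    t2ft_normalise (t2iBase2Fix 𝔓 H N' h).A (t2iBase2Fix 𝔓 H N' h).resA
      (t2iBase2Fix 𝔓 H N' h).arch (t2iBase2Fix 𝔓 H N' h).resA_eq_zero_iff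
      (t2gpInput 𝔓 N' h H (t2gmFrob 𝔓 N')).G (t2gpInput 𝔓 N' h H (t2gmFrob 𝔓 N')).ρ
      (t2gpInput 𝔓 N' h H (t2gmFrob 𝔓 N')).G₂ (t2gpInput 𝔓 N' h H (t2gmFrob 𝔓 N')).ρG₂
      (fun a => ((t2gpInput 𝔓 N' h H (t2gmFrob 𝔓 N')).algebraMap_mem_Ov a).1)
      (fun a => (t2gpInput 𝔓 N' h H (t2gmFrob 𝔓 N')).ρ_algebraMap a _)
      hnorm
      (fun a => (t2gpInput 𝔓 N' h H (t2gmFrob 𝔓 N')).algebraMap_mem_G₂ a)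
      (fun a => (t2gpInput 𝔓 N' h H (t2gmFrob 𝔓 N')).ρG₂_algebraMap a)
      ((t2gpInput 𝔓 N' h H (t2gmFrob 𝔓 N')).normalize_G₂ hnorm)
      e he₁ he₂ hρe₁ hρe₂ su.m fy f₁ (t2wLev 𝔓 H N' 𝔓.p h f₂) hf₁ hwf₂ h₁ hρ₁' h₂ hρ₂'
  generalize hz : fy * η ^ su.m = z at hz₁ hz₂ hρz₁ hρz₂
  have hz0 : z ≠ 0 := by
    rw [← hz]
    exact mul_ne_zero hfy0 (pow_ne_zero _ hη0)
  have hzOv : z ∈ (t2iBase2Fix 𝔓 H N' h).Ov := ⟨hz₁, hz₂⟩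
  have hz1 : (t2iBase2Fix 𝔓 H N' h).res ⟨z, hzOv⟩ = 1 :=
    (t2gpInput 𝔓 N' h H (t2gmFrob 𝔓 N')).res_eq_one hz₁ hz₂ hρz₁ hρz₂
  have hzi₁ : z⁻¹ ∈ (t2gpInput 𝔓 N' h H (t2gmFrob 𝔓 N')).G :=
    hunit z hz₁ (by rw [hρz₁]; exact one_ne_zero)
  have hzi₂ : z⁻¹ ∈ (t2gpInput 𝔓 N' h H (t2gmFrob 𝔓 N')).G₂ :=
    (t2gpInput 𝔓 N' h H (t2gmFrob 𝔓 N')).inv_mem_G₂ hunit z hz₂
      (by rw [hρz₂]; exact one_ne_zero)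
  have hziOv : z⁻¹ ∈ (t2iBase2Fix 𝔓 H N' h).Ov := ⟨hzi₁, hzi₂⟩
  -- the square of the Frobenius at the level `H`
  have hφ2 : T2fsStab 𝔓 H (φ * φ) := hφ.mul hφ
  obtain ⟨τ, hτ⟩ : ∃ τ, τ = t2fsF 𝔓 H (φ * φ) hφ2 (N' * 𝔓.p) := ⟨_, rfl⟩
  have hτzOv : τ z ∈ (t2iBase2Fix 𝔓 H N' h).Ov := by
    rw [hτ]; exact t2fb_Ov 𝔓 N' h H (φ * φ) hφ2 z hzOv
  have hτz1 : (t2iBase2Fix 𝔓 H N' h).res ⟨τ z, hτzOv⟩ = 1 := by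
    subst hτ
    exact t2fb_res_one 𝔓 N' h H (φ * φ) hφ2 z hzOv hz1
  have hτx : t2fsF 𝔓 H (φ * φ)⁻¹ hφ2.inv (N' * 𝔓.p) su.x = su.x := by
    rw [hx]
    exact t2fsF_t2gaX 𝔓 N' h H (φ * φ)⁻¹ hφ2.inv Q₀
  have hX : IsFunctionFieldGen Qb ↥(modularFunctionFieldBar (N' * 𝔓.p))
      (tbPhiF 𝔓 (N' * 𝔓.p) H su.x) := by
    rw [hx]
    unfold t2gaX
    rw [t2dg_tbPhiF_chart N' 𝔓.p h hQ₀]
    exact t2dg_isFunctionFieldGen_chart_al N' 𝔓.p h hQ₀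
  -- the Kummer functions over `ℚ̄`
  have hη0' : tbPhiF 𝔓 (N' * 𝔓.p) H η ≠ 0 :=
    fun h0 => hη0 (tbPhiF_injective 𝔓 (N' * 𝔓.p) H (by rw [h0, map_zero]))
  obtain ⟨ηu, hηu⟩ : ∃ ηu : (↥(modularFunctionFieldBar (N' * 𝔓.p)))ˣ,
      (ηu : ↥(modularFunctionFieldBar (N' * 𝔓.p))) = tbPhiF 𝔓 (N' * 𝔓.p) H η :=
    ⟨Units.mk0 _ hη0', rfl⟩
  obtain ⟨Z, hZ⟩ : ∃ Z : (↥(modularFunctionFieldBar (N' * 𝔓.p)))ˣ, Z = y * ηu ^ su.m := ⟨_, rfl⟩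
  have hΦz : tbPhiF 𝔓 (N' * 𝔓.p) H z
      = ((Z : (↥(modularFunctionFieldBar (N' * 𝔓.p)))ˣ) :
          ↥(modularFunctionFieldBar (N' * 𝔓.p))) := by
    rw [← hz, map_mul, map_pow, hfy, hZ, Units.val_mul, Units.val_pow_eq_pow_val, hηu]
  have hZW : Z ∈ tWsub Qb (N' * 𝔓.p) su.m := by
    rw [hZ]
    exact (tWsub Qb (N' * 𝔓.p) su.m).mul_mem hy (tkr_pow_mem_tWsub (N' * 𝔓.p) su.m ηu)
  have hΦτz : tbPhiF 𝔓 (N' * 𝔓.p) H (τ z)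
      = ((tkrSig (N' * 𝔓.p) φ (tkrSig (N' * 𝔓.p) φ Z) :
          (↥(modularFunctionFieldBar (N' * 𝔓.p)))ˣ) :
          ↥(modularFunctionFieldBar (N' * 𝔓.p))) := by
    rw [hτ, tbPhiF_t2fsF, hΦz, t2ft_arith_mul]
    rfl
  have hdiv : ∀ v : Place Qb ↥(modularFunctionFieldBar (N' * 𝔓.p)),
      (su.m : ℤ) ∣ v.ord (tbPhiF 𝔓 (N' * 𝔓.p) H z) := by
    intro v
    rw [hΦz]
    exact hZW v
  have hdivτ : ∀ v : Place Qb ↥(modularFunctionFieldBar (N' * 𝔓.p)),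
      (su.m : ℤ) ∣ v.ord (tbPhiF 𝔓 (N' * 𝔓.p) H (τ z)) := by
    intro v
    rw [hΦτz]
    exact tkrSig_mem_tWsub (N' * 𝔓.p) su.m _ (tkrSig_mem_tWsub (N' * 𝔓.p) su.m _ hZW) v
  -- the core
  have h1ne : (1 : ↥(tbBarF 𝔓 N') × ↥(tbBarF 𝔓 N')) ≠ 0 := by
    intro h0
    have := congrArg Prod.fst h0
    exact one_ne_zero this
  subst hτ
  obtain ⟨g, hg⟩ := t2ft_level 𝔓 (N' * 𝔓.p) H su hX hn hc h1ne (𝔓.p ^ 2)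
    (t2fsF 𝔓 H (φ * φ) hφ2 (N' * 𝔓.p))
    (fun f hf => t2fb_Ov 𝔓 N' h H (φ * φ)⁻¹ hφ2.inv f hf)
    (fun f hf => t2fsF_isIntegral 𝔓 H (φ * φ)⁻¹ hφ2.inv (N' * 𝔓.p) hτx hf)
    (fun f hf h1 h2 => t2ft_hev 𝔓 N' h H φ hφ hF su hFR f hf h1 h2)
    hz0 hzOv hziOv hz1 hτzOv hτz1 hdiv hdivτ
  have hg0 : g ≠ 0 := by
    rintro rfl
    rw [zero_pow su.m_pos.ne'] at hg
    have h2 : t2fsF 𝔓 H (φ * φ) hφ2 (N' * 𝔓.p) z / z ^ (𝔓.p ^ 2) = 0 :=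
      tbPhiF_injective 𝔓 (N' * 𝔓.p) H (by rw [← hg, map_zero])
    exact div_ne_zero ((map_ne_zero _).mpr hz0) (pow_ne_zero _ hz0) h2
  obtain ⟨gu, hgu⟩ : ∃ gu : (↥(modularFunctionFieldBar (N' * 𝔓.p)))ˣ,
      (gu : ↥(modularFunctionFieldBar (N' * 𝔓.p))) = g := ⟨Units.mk0 g hg0, rfl⟩
  have hgZ : gu ^ su.m = ((tkrSig (N' * 𝔓.p) φ).comp (tkrSig (N' * 𝔓.p) φ)) Z
      * (Z ^ (𝔓.p ^ 2))⁻¹ := by
    apply Units.ext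
    rw [Units.val_pow_eq_pow_val, hgu, hg, map_div₀, hΦτz, map_pow, hΦz, Units.val_mul,
      Units.val_inv_eq_inv_val, Units.val_pow_eq_pow_val, div_eq_mul_inv]
    rfl
  exact ⟨gu * ηu ^ (𝔓.p ^ 2) * (((tkrSig (N' * 𝔓.p) φ).comp (tkrSig (N' * 𝔓.p) φ)) ηu)⁻¹,
    t2ft_group_identity ((tkrSig (N' * 𝔓.p) φ).comp (tkrSig (N' * 𝔓.p) φ)) y ηu gu Z su.m
      (𝔓.p ^ 2) hZ hgZ⟩

include h in
/-- the normal form at the level `H`, in terms of `TbGauss` -/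
theorem t2ft_hnorm (f : ↥(tbLevF 𝔓 (N' * 𝔓.p) H)) (hf0 : f ≠ 0) :
    ∃ c : ↥(tbFix 𝔓 H), c ≠ 0 ∧
      TbGauss (tbFixO 𝔓 H) (tbFixRes 𝔓 H) ((c • f : ↥(tbLevF 𝔓 (N' * 𝔓.p) H)) :
        LaurentSeries ↥(tbFix 𝔓 H)) ∧
      tbRhoFun (tbFixO 𝔓 H) (tbFixRes 𝔓 H) ((c • f : ↥(tbLevF 𝔓 (N' * 𝔓.p) H)) :
        LaurentSeries ↥(tbFix 𝔓 H)) ≠ 0 := by
  obtain ⟨c, hc0, hcG, hcρ⟩ := t2gp_norm (tbFixO 𝔓 H) (tbFixRes 𝔓 H) (tbFixRes_surjective 𝔓 H)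
    (t2gp_natCast_ne_zero 𝔓 N' h) (t2gpW 𝔓 N' h H) (t2gmFrob 𝔓 N') f hf0
  refine ⟨c, hc0, hcG, ?_⟩
  rw [tbf_rhoFun_eq]
  exact hcρ

end Main

set_option maxHeartbeats 16000000 in
/-- **(P4-K) at the good levels from the export of T2-C** -/
theorem t2f_P4KGood_of_export (hE : T2fExport) : T2fP4KGood := by
  classical
  intro N' q _ hq h h49 A hA φ hF m hm hm0 y hy hs₁ hs₂
  obtain ⟨s₁, hs₁⟩ := hs₁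
  obtain ⟨s₂, hs₂⟩ := hs₂
  set 𝔓 : FFPlace := ⟨A, q, hq.out, hA⟩ with h𝔓
  -- constants are `m`-th powers
  obtain ⟨S₁, a₁, b₁, hab₁, hb₁, hrep₁⟩ := t2fg_absorb (N' * q) A hm0 y s₁ hs₁
  obtain ⟨S₂, a₂, b₂, hab₂, hb₂, hrep₂⟩ := t2fg_absorb (N' * q) A hm0 _ s₂ hs₂
  -- the level
  obtain ⟨H, hHfin, hHnorm, hstab, hT⟩ := t2fs_exists_level 𝔓 (N' * q)
    {(y : ↥(modularFunctionFieldBar (N' * q))), (S₁ : ↥(modularFunctionFieldBar (N' * q))),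
      (S₂ : ↥(modularFunctionFieldBar (N' * q)))}
  haveI := hHfin
  haveI := hHnorm
  obtain ⟨fy, hfy⟩ := hT (y : ↥(modularFunctionFieldBar (N' * q))) (by simp)
  obtain ⟨f₁, hf₁⟩ := hT (S₁ : ↥(modularFunctionFieldBar (N' * q))) (by simp)
  obtain ⟨f₂, hf₂⟩ := hT (S₂ : ↥(modularFunctionFieldBar (N' * q))) (by simp)
  have hf₁0 : f₁ ≠ 0 := by
    rintro rfl
    rw [map_zero] at hf₁
    exact S₁.ne_zero hf₁.symm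
  have hf₂0 : f₂ ≠ 0 := by
    rintro rfl
    rw [map_zero] at hf₂
    exact S₂.ne_zero hf₂.symm
  -- the setup
  obtain ⟨Q₀, hQ₀, hall⟩ := hE 𝔓 N' h h49 m hm
  obtain ⟨n, su, hsm, hx, hn, hc, hFR⟩ := hall H
  subst hsm
  have hφ : T2fsStab 𝔓 H φ := hstab φ hF.mem_decompositionSubgroup
  -- Gauss descent
  have hΦ₁ : tbPhiF 𝔓 (N' * q) H (fy * f₁ ^ su.m)
      = ((y * S₁ ^ su.m : (↥(modularFunctionFieldBar (N' * q)))ˣ) :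
          ↥(modularFunctionFieldBar (N' * q))) := by
    rw [map_mul, map_pow, hfy, hf₁, Units.val_mul, Units.val_pow_eq_pow_val]
  have hΦ₂ : tbPhiF 𝔓 (N' * q) H (t2wLev 𝔓 H N' q h fy * f₂ ^ su.m)
      = ((Units.map ((t2w Qb N' q h :
            ↥(modularFunctionFieldBar (N' * q)) ≃ₐ[Qb] ↥(modularFunctionFieldBar (N' * q))) :
            ↥(modularFunctionFieldBar (N' * q)) →* ↥(modularFunctionFieldBar (N' * q))) y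
              * S₂ ^ su.m : (↥(modularFunctionFieldBar (N' * q)))ˣ) :
          ↥(modularFunctionFieldBar (N' * q))) := by
    rw [map_mul, map_pow, tbPhiF_t2wLev, hfy, hf₂, Units.val_mul, Units.val_pow_eq_pow_val]
    rfl
  have hrep₁' : TkrRep 𝔓.P ((tbPhiF 𝔓 (N' * q) H (fy * f₁ ^ su.m) :
      ↥(modularFunctionFieldBar (N' * q))) : LaurentSeries Qb) a₁ b₁ := by
    rw [hΦ₁]; exact hrep₁
  have hrep₂' : TkrRep 𝔓.P ((tbPhiF 𝔓 (N' * q) H (t2wLev 𝔓 H N' q h fy * f₂ ^ su.m) :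
      ↥(modularFunctionFieldBar (N' * q))) : LaurentSeries Qb) a₂ b₂ := by
    rw [hΦ₂]; exact hrep₂
  have hG₁ : TbGauss (tbFixO 𝔓 H) (tbFixRes 𝔓 H)
      ((fy * f₁ ^ su.m : ↥(tbLevF 𝔓 (N' * q) H)) : LaurentSeries ↥(tbFix 𝔓 H)) :=
    t2fg_gauss_descend 𝔓 (N' * q) H (t2ft_hnorm 𝔓 N' h H) _ ⟨a₁, b₁, hb₁, hrep₁'⟩
  have hG₂ : TbGauss (tbFixO 𝔓 H) (tbFixRes 𝔓 H)
      ((t2wLev 𝔓 H N' q h fy * f₂ ^ su.m : ↥(tbLevF 𝔓 (N' * q) H)) :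
        LaurentSeries ↥(tbFix 𝔓 H)) :=
    t2fg_gauss_descend 𝔓 (N' * q) H (t2ft_hnorm 𝔓 N' h H) _ ⟨a₂, b₂, hb₂, hrep₂'⟩
  have hρ₁ := t2fg_rho_descend 𝔓 (N' * q) H hG₁ hb₁ hab₁ hrep₁'
  have hρ₂ := t2fg_rho_descend 𝔓 (N' * q) H hG₂ hb₂ hab₂ hrep₂'
  exact t2ft_main 𝔓 N' h H φ hφ hF su hQ₀ hx hn hc hFR hy fy f₁ f₂ hfy hf₁0 hf₂0 hG₁ hρ₁ hG₂ hρ₂

end

end Fermat.Agent.T2
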