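/-
T2-F (helper3), (F1-a): **base change of submodules along a flat algebra commutes with `⊓`**, and
the behaviour of `Submodule.baseChange` under linear maps.
-/
import Mathlib

set_option autoImplicit false
set_option linter.unusedSectionVars false

open scoped TensorProduct

namespace Fermat.Agent.T2

variable {R M M' : Type*} [CommRing R] [AddCommGroup M] [Module R M] [AddCommGroup M'] [Module R M']
  (A : Type*) [CommRing A] [Algebra R A]

/-- the base change of a linear map sends `P.baseChange A` into `(P.map f).baseChange A` -/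
theorem t2f_baseChange_map (f : M →ₗ[R] M') (P : Submodule R M) {u : A ⊗[R] M}
    (hu : u ∈ P.baseChange A) : f.baseChange A u ∈ (P.map f).baseChange A := by
  rw [Submodule.baseChange_eq_span] at hu
  induction hu using Submodule.span_induction with
  | mem x hx =>
    obtain ⟨m, hm, rfl⟩ := hx
    rw [TensorProduct.mk_apply, LinearMap.baseChange_tmul]
    exact Submodule.tmul_mem_baseChange_of_mem _ ⟨m, hm, rfl⟩
  | zero => rw [map_zero]; exact Submodule.zero_mem _
  | add x y _ _ hx hy => rw [map_add]; exact Submodule.add_mem _ hx hy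
  | smul a x _ hx => rw [map_smul]; exact Submodule.smul_mem _ a hx

/-- the image of the base change of `f` lies in the base change of the range -/
theorem t2f_baseChange_mem_range (f : M →ₗ[R] M') (u : A ⊗[R] M) :
    f.baseChange A u ∈ (LinearMap.range f).baseChange A := by
  have h := t2f_baseChange_map A f ⊤ (u := u) (by rw [Submodule.baseChange_top]; trivial)
  rwa [Submodule.map_top] at h

/-- a linear map which vanishes on `P` has base change vanishing on `P.baseChange A` -/
theorem t2f_baseChange_eq_zero (f : M →ₗ[R] M') (P : Submodule R M) (hf : ∀ x ∈ P, f x = 0)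
    {u : A ⊗[R] M} (hu : u ∈ P.baseChange A) : f.baseChange A u = 0 := by
  have h := t2f_baseChange_map A f P hu
  have h2 : P.map f = ⊥ := by
    rw [eq_bot_iff]
    rintro _ ⟨x, hx, rfl⟩
    exact hf x hx
  rwa [h2, Submodule.baseChange_bot, Submodule.mem_bot] at h

/-- **flat base change commutes with intersections** -/
theorem t2f_baseChange_inf [Module.Flat R A] (P Q : Submodule R M) {u : A ⊗[R] M}
    (hP : u ∈ P.baseChange A) (hQ : u ∈ Q.baseChange A) : u ∈ (P ⊓ Q).baseChange A := by
  obtain ⟨u', rfl⟩ := hP
  set g : ↥P →ₗ[R] M ⧸ Q := Q.mkQ ∘ₗ P.subtype with hg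
  have h1 : g.baseChange A u' = 0 := by
    rw [hg, LinearMap.baseChange_comp, LinearMap.comp_apply]
    exact t2f_baseChange_eq_zero A Q.mkQ Q (fun x hx => (Submodule.Quotient.mk_eq_zero Q).mpr hx) hQ
  have h2 : u' ∈ LinearMap.ker (TensorProduct.AlgebraTensorModule.lTensor A A g) := h1
  rw [Module.Flat.ker_lTensor_eq] at h2
  obtain ⟨u'', rfl⟩ := h2
  have h3 : ∀ w : A ⊗[R] ↥(LinearMap.ker g),
      P.subtype.baseChange A (TensorProduct.AlgebraTensorModule.lTensor A A
        (LinearMap.ker g).subtype w) ∈ (P ⊓ Q).baseChange A := by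
    intro w
    induction w using TensorProduct.induction_on with
    | zero => rw [map_zero, map_zero]; exact Submodule.zero_mem _
    | tmul a x =>
      rw [TensorProduct.AlgebraTensorModule.lTensor_tmul, LinearMap.baseChange_tmul]
      refine Submodule.tmul_mem_baseChange_of_mem _ ⟨x.1.2, ?_⟩
      have hx : Q.mkQ (P.subtype x.1) = 0 := x.2
      rw [Submodule.mkQ_apply, Submodule.Quotient.mk_eq_zero] at hx
      exact hx
    | add x y hx hy => rw [map_add, map_add]; exact Submodule.add_mem _ hx hy
  exact h3 u''

end Fermat.Agent.T2
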