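/-
T2-F (helper3), (F5a): **the Atkin–Lehner involution on the Tate module**.

* `t2fSysW N' q h`: the one-element coset system `{W_q}` of `Γ₀(N' q)` (`W_q` normalises `Γ₀(N' q)`);
* `t2fW p N' q h : Module.End ℤ_[p] TT`, `TT = parabolicHoms ℤ_[p] (Gamma0 (N' q)) ℤ_[p]`;
* `t2fW_mul_self : w * w = 1`;
* `t2fW_ι`: compatibility with the tower; `t2f_fn_t2w`: compatibility with `t2w` on functions;
* `T2fP3`: the interface statement of (P3') (owner F5).
-/
import Mathlib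
import Fermat.Agent.Lib.T2.F.Defs

set_option autoImplicit false
set_option linter.unusedSectionVars false
set_option linter.unusedVariables false
set_option linter.style.haveILetI false

open scoped TensorProduct
open Matrix MatrixGroups CongruenceSubgroup Fermat.Agent.T1 ModularCurve Fermat.Agent.S24Lib
  ModularCurve.Period

namespace Fermat.Agent.T2

local notation "Kbar" => AlgebraicClosure ℚ
local notation "GQ" => (AlgebraicClosure ℚ ≃ₐ[ℚ] AlgebraicClosure ℚ)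

/-! ### `W_q` normalises `Γ₀(N' q)` -/

/-- `W δ = ε W` with `ε ∈ Γ₀(N' q)` explicit -/
theorem t2f_W_mul (N' q : ℕ) (a c : ℤ) (h : (q : ℤ) * a - N' * c = 1)
    (D : Matrix (Fin 2) (Fin 2) ℤ) (hD : D.det = 1) (hN : ((N' * q : ℕ) : ℤ) ∣ D 1 0) :
    ∃ E : SL(2, ℤ), t2wMat N' q a c * D = (E : Matrix (Fin 2) (Fin 2) ℤ) * t2wMat N' q a c ∧
      ((N' * q : ℕ) : ℤ) ∣ E 1 0 := by
  obtain ⟨z, hz⟩ := hN
  rw [Matrix.det_fin_two] at hD
  push_cast at hz
  set x := D 0 0 with hx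
  set y := D 0 1 with hy
  set t := D 1 1 with ht
  have hD' : x * t - y * ((N' : ℤ) * q * z) = 1 := by rw [← hz]; exact hD
  refine ⟨⟨!![(q : ℤ) * a * x + N' * q * z - a * (N' * q) * c * y - N' * c * t,
      -(a * x) - N' * z + q * a ^ 2 * y + a * t;
      (N' : ℤ) * q * (c * x + q * z - N' * c ^ 2 * y - c * t),
      -(N' * c * x) - N' * q * z + a * (N' * q) * c * y + q * a * t], ?_⟩, ?_, ?_⟩
  · rw [Matrix.det_fin_two_of]
    linear_combination (1 : ℤ) * hD' + (x * t - y * (N' * q * z)) * ((q : ℤ) * a - N' * c + 1) * h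
  · have hDm : D = !![x, y; (N' : ℤ) * q * z, t] := by
      ext i j
      fin_cases i <;> fin_cases j <;> simp [hx, hy, ht, hz]
    rw [hDm, t2wMat]
    ext i j
    fin_cases i <;> fin_cases j <;> simp [Matrix.mul_apply, Fin.sum_univ_two]
    · linear_combination (-((q : ℤ) * a * x + N' * q * z)) * h
    · linear_combination (-((q : ℤ) * a * y + t)) * h
    · linear_combination (-((N' : ℤ) * q * c * x + q * (N' * q * z))) * h
    · linear_combination (-((N' : ℤ) * q * c * y + q * t)) * h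
  · push_cast
    exact ⟨_, rfl⟩

section Sys

variable (N' q : ℕ) [NeZero N'] [hq : Fact q.Prime] (h : ¬ q ∣ N')

/-- the coset system `{W_q}` of `Γ₀(N' q)` -/
noncomputable def t2fSysW : tdmCosetSys (Gamma0 (N' * q)) Unit :=
  tdmCosetSys.ofInequiv (fun _ => t2wMat N' q (t2wA N' q) (t2wC N' q))
    (fun _ => t2wMat_det_pos N' q hq.out.pos _ _ (t2w_bezout N' q hq.out h))
    (fun _ _ _ _ => rfl)
    (fun δ _ => by
      obtain ⟨hD, hN⟩ := tdm_Gamma0_data δ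
      obtain ⟨E, hE, hE10⟩ := t2f_W_mul N' q (t2wA N' q) (t2wC N' q) (t2w_bezout N' q hq.out h)
        _ hD hN
      exact ⟨(), ⟨E, (tdm_mem_Gamma0_iff E).mpr hE10⟩, hE⟩)

@[simp] theorem t2fSysW_rep (u : Unit) :
    (t2fSysW N' q h).rep u = t2wMat N' q (t2wA N' q) (t2wC N' q) := rfl

/-- `W² = q · G` with `G ∈ Γ₀(N' q)` -/
theorem t2f_W_sq (N' q : ℕ) (a c : ℤ) (h : (q : ℤ) * a - N' * c = 1) :
    ∃ G : SL(2, ℤ), t2wMat N' q a c * t2wMat N' q a c = (q : ℤ) • (G : Matrix (Fin 2) (Fin 2) ℤ) ∧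
      ((N' * q : ℕ) : ℤ) ∣ G 1 0 := by
  refine ⟨⟨!![(q : ℤ) * a ^ 2 + N' * c, a + 1; (N' : ℤ) * q * (c * (a + 1)), N' * c + q], ?_⟩,
    ?_, ?_⟩
  · rw [Matrix.det_fin_two_of]
    linear_combination ((q : ℤ) * a - N' * c + 1) * h
  · rw [t2wMat]
    ext i j
    fin_cases i <;> fin_cases j <;> simp [Matrix.mul_apply, Fin.sum_univ_two] <;> ring
  · push_cast
    exact ⟨_, rfl⟩

/-- the operator of `{W_q}` on `Hom(Γ₀(N' q), A)` is an involution -/
theorem t2fSysW_hom_hom {A : Type*} [AddCommGroup A] (φ : Additive (Gamma0 (N' * q)) →+ A) :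
    (t2fSysW N' q h).hom A ((t2fSysW N' q h).hom A φ) = φ := by
  set S := t2fSysW N' q h with hS
  obtain ⟨G, hG, hG10⟩ := t2f_W_sq N' q (t2wA N' q) (t2wC N' q) (t2w_bezout N' q hq.out h)
  set Gs : Gamma0 (N' * q) := ⟨G, (tdm_mem_Gamma0_iff G).mpr hG10⟩ with hGs
  refine AddMonoidHom.ext fun δ' => ?_
  obtain ⟨δ, rfl⟩ := Additive.ofMul.surjective δ'
  rw [tdmCosetSys.hom_apply, Finset.univ_unique, Finset.sum_singleton, tdmCosetSys.hom_apply,
    Finset.univ_unique, Finset.sum_singleton]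
  set ε₁ := S.eps δ default with hε₁
  set ε₂ := S.eps ε₁ default with hε₂
  set W := t2wMat N' q (t2wA N' q) (t2wC N' q) with hW
  have h1 : W * ((δ : SL(2, ℤ)) : Matrix (Fin 2) (Fin 2) ℤ)
      = ((ε₁ : SL(2, ℤ)) : Matrix (Fin 2) (Fin 2) ℤ) * W := S.rep_mul δ default
  have h2 : W * ((ε₁ : SL(2, ℤ)) : Matrix (Fin 2) (Fin 2) ℤ)
      = ((ε₂ : SL(2, ℤ)) : Matrix (Fin 2) (Fin 2) ℤ) * W := S.rep_mul ε₁ default
  have h3 : (q : ℤ) • (((ε₂ : SL(2, ℤ)) : Matrix (Fin 2) (Fin 2) ℤ) * (G : Matrix (Fin 2) (Fin 2) ℤ))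
      = (q : ℤ) • ((G : Matrix (Fin 2) (Fin 2) ℤ) * ((δ : SL(2, ℤ)) : Matrix (Fin 2) (Fin 2) ℤ)) := by
    rw [← Matrix.mul_smul, ← hG, ← Matrix.smul_mul, ← hG, ← Matrix.mul_assoc, ← h2,
      Matrix.mul_assoc, Matrix.mul_assoc, h1]
  have hq0 : (q : ℤ) ≠ 0 := by exact_mod_cast hq.out.ne_zero
  have h4 := smul_right_injective (Matrix (Fin 2) (Fin 2) ℤ) hq0 h3
  have h5 : ε₂ * Gs = Gs * δ := by
    apply Subtype.ext
    apply Subtype.ext
    rw [Subgroup.coe_mul, Subgroup.coe_mul, Matrix.SpecialLinearGroup.coe_mul,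
      Matrix.SpecialLinearGroup.coe_mul]
    exact h4
  have h6 : ε₂ = Gs * δ * Gs⁻¹ := eq_mul_inv_of_mul_eq h5
  rw [h6, ofMul_mul, ofMul_mul, ofMul_inv, map_add, map_add, map_neg]
  abel

end Sys

section End

variable (p : ℕ) [hp : Fact p.Prime] (N' q : ℕ) [NeZero N'] [hq : Fact q.Prime] (h : ¬ q ∣ N')

/-- **the Atkin–Lehner involution on the Tate module** -/
noncomputable def t2fW :
    Module.End ℤ_[p] ↥(parabolicHoms ℤ_[p] (Gamma0 (N' * q)) ℤ_[p]) :=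
  (t2fSysW N' q h).homPar ℤ_[p] ℤ_[p]

theorem t2fW_coe (x : ↥(parabolicHoms ℤ_[p] (Gamma0 (N' * q)) ℤ_[p])) :
    ((t2fW p N' q h x : ↥(parabolicHoms ℤ_[p] (Gamma0 (N' * q)) ℤ_[p])) :
      Additive (Gamma0 (N' * q)) →+ ℤ_[p])
      = (t2fSysW N' q h).hom ℤ_[p] (x : Additive (Gamma0 (N' * q)) →+ ℤ_[p]) := rfl

theorem t2fW_mul_self : t2fW p N' q h * t2fW p N' q h = 1 := by
  refine LinearMap.ext fun x => ?_
  apply Subtype.ext
  rw [Module.End.mul_apply, t2fW_coe, t2fW_coe, t2fSysW_hom_hom]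
  rfl

theorem t2fW_t2fW (x : ↥(parabolicHoms ℤ_[p] (Gamma0 (N' * q)) ℤ_[p])) :
    t2fW p N' q h (t2fW p N' q h x) = x := by
  have := congrArg (fun f => f x) (t2fW_mul_self p N' q h)
  exact this

/-- compatibility with the tower -/
theorem t2fW_ι (k : ℕ) (x : ↥(parabolicHoms ℤ_[p] (Gamma0 (N' * q)) ℤ_[p])) :
    (tdmTowerN p (N' * q)).ι k (t2fW p N' q h x)
      = MonoidHom.toAdditive ((t2fSysW N' q h).homX (p ^ k)) ((tdmTowerN p (N' * q)).ι k x) :=
  tdm_ι_hom p (t2fSysW N' q h) k x _ (t2fW_coe p N' q h x)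

end End

section Fn

variable (N' q : ℕ) [NeZero N'] [hq : Fact q.Prime] (h : ¬ q ∣ N')

/-- `w_q` on the units of the function field -/
noncomputable def t2fWU : (↥(modularFunctionFieldBar (N' * q)))ˣ →*
    (↥(modularFunctionFieldBar (N' * q)))ˣ :=
  Units.map ((t2w Kbar N' q h :
    ↥(modularFunctionFieldBar (N' * q)) ≃ₐ[Kbar] ↥(modularFunctionFieldBar (N' * q))) :
    ↥(modularFunctionFieldBar (N' * q)) →* ↥(modularFunctionFieldBar (N' * q)))

@[simp] theorem t2fWU_coe (y : (↥(modularFunctionFieldBar (N' * q)))ˣ) :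
    ((t2fWU N' q h y : (↥(modularFunctionFieldBar (N' * q)))ˣ) :
      ↥(modularFunctionFieldBar (N' * q))) = t2w Kbar N' q h (y : ↥(modularFunctionFieldBar (N' * q))) :=
  rfl

/-- `w_q` commutes with the Galois action -/
theorem t2fWU_sig (σ : GQ) (y : (↥(modularFunctionFieldBar (N' * q)))ˣ) :
    t2fWU N' q h (tkrSig (N' * q) σ y) = tkrSig (N' * q) σ (t2fWU N' q h y) :=
  Units.ext (t2w_comm Kbar N' q h σ (y : ↥(modularFunctionFieldBar (N' * q))))

/-- the function of `w_q y` is the function of `y` composed with `W_q` -/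
theorem t2f_fn_t2w (DK : TdmDict Kbar (N' * q)) (hDK : DK.toMer = KMod.toMer Kbar (N' * q))
    (y : (↥(modularFunctionFieldBar (N' * q)))ˣ) :
    DK.fn ((t2fWU N' q h y : (↥(modularFunctionFieldBar (N' * q)))ˣ) :
        ↥(modularFunctionFieldBar (N' * q)))
      = (t2fSysW N' q h).prodFn (DK.fn (y : ↥(modularFunctionFieldBar (N' * q)))) := by
  rw [tdmCosetSys.prodFn_apply, Finset.univ_unique, Finset.prod_singleton, t2fWU_coe,
    TdmDict.fn_apply, TdmDict.fn_apply, hDK]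
  exact t2wEmb_t2w Kbar N' q h (y : ↥(modularFunctionFieldBar (N' * q)))

end Fn

/-! ### Interface statements of the group-theoretic package (F5) -/

/-- **(WT)** `w_q` commutes with `T_l` on the Tate module, `l ∤ N' q` -/
def T2fWT : Prop :=
  ∀ (p : ℕ) [Fact p.Prime] (N' q : ℕ) [NeZero N'] [Fact q.Prime] (h : ¬ q ∣ N')
    (l : ℕ) (hl : l.Prime) (hlN : ¬ l ∣ N' * q),
    t2fW p N' q h * tdmHeckeP p (N' * q) (CuspForm.heckeAlgebra.T hl hlN (Set.notMem_empty l))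
      = tdmHeckeP p (N' * q) (CuspForm.heckeAlgebra.T hl hlN (Set.notMem_empty l)) * t2fW p N' q h

/-- **(P3')** if the eigencharacter `lam` of level `N' q` does not occur at level `N'`, then
`1 + U_q w_q` (`= res ∘ cor` for `Γ₀(N' q) ⊆ Γ₀(N')`) vanishes on every simultaneous eigenvector of the
`T_l`, `l ∤ N' q`, with eigenvalues `lam (T_l)` -/
def T2fP3 : Prop :=
  ∀ (p : ℕ) [Fact p.Prime] (N' q : ℕ) [NeZero N'] [hq : Fact q.Prime] (h : ¬ q ∣ N')
    (𝒪 : Type) [CommRing 𝒪] [IsDomain 𝒪] [CharZero 𝒪] [Algebra ℤ_[p] 𝒪]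
    (lam : CuspForm.heckeAlgebra (N' * q) 2 (∅ : Set ℕ) →+* 𝒪),
    T2fNewAt (N' * q) N' lam →
    ∀ v : 𝒪 ⊗[ℤ_[p]] ↥(parabolicHoms ℤ_[p] (Gamma0 (N' * q)) ℤ_[p]),
      (∀ (l : ℕ) (hl : l.Prime) (hlN : ¬ l ∣ N' * q),
        (tdmHeckeP p (N' * q)
            (CuspForm.heckeAlgebra.T hl hlN (Set.notMem_empty l))).baseChange 𝒪 v
          = lam (CuspForm.heckeAlgebra.T hl hlN (Set.notMem_empty l)) • v) →
      v + ((tdmHeckeP p (N' * q) (CuspForm.heckeAlgebra.U hq.out (Dvd.intro_left N' rfl)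
              (Set.notMem_empty q)) * t2fW p N' q h).baseChange 𝒪) v = 0

end Fermat.Agent.T2
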