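/-
T2-F (helper3), (F1-b): **the submodule `Tinf(A)` of the Tate module** of the classes which are
`ℚ̄^× · (1 + 𝔪_A)` at the `q`-expansion Gauss valuation of `A`, and the Tate-module forms of (P1) and (P4).

* `T2fInf.one/mul/inv`; `t2fXinf DK A hm : Subgroup (tdmX N m)`; `t2fTinf p DK A : Submodule ℤ_[p] TT`;


-/
import Mathlib
import Fermat.Agent.Lib.T2.F.AL

set_option autoImplicit false
set_option linter.unusedSectionVars false
set_option linter.unusedVariables false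
set_option linter.style.haveILetI false

open scoped TensorProduct
open Matrix MatrixGroups CongruenceSubgroup Fermat.Agent.T1 ModularCurve Fermat.Agent.S24Lib
  ModularCurve.Period

namespace Fermat.Agent.T2

local notation "Kbar" => AlgebraicClosure ℚ
local notation "GQ" => (AlgebraicClosure ℚ ≃ₐ[ℚ] AlgebraicClosure ℚ)

section Inf

variable {N : ℕ} {A : ValuationSubring Kbar}

theorem T2fInf.one : T2fInf N A 1 := by
  refine ⟨1, one_ne_zero, 1, 1, rfl, ?_, ?_⟩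
  · rw [map_one]; exact one_ne_zero
  · unfold TkrRep
    rw [map_one, map_one, Units.val_one]
    simp

theorem T2fInf.mul {Y₁ Y₂ : (↥(modularFunctionFieldBar N))ˣ} (h₁ : T2fInf N A Y₁)
    (h₂ : T2fInf N A Y₂) : T2fInf N A (Y₁ * Y₂) := by
  obtain ⟨c₁, hc₁, a₁, b₁, hab₁, hb₁, hr₁⟩ := h₁
  obtain ⟨c₂, hc₂, a₂, b₂, hab₂, hb₂, hr₂⟩ := h₂
  refine ⟨c₁ * c₂, mul_ne_zero hc₁ hc₂, a₁ * a₂, b₁ * b₂, ?_, ?_, ?_⟩
  · rw [map_mul, map_mul, hab₁, hab₂]
  · rw [map_mul]; exact mul_ne_zero hb₁ hb₂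
  · have := hr₁.mul hr₂
    have e : algebraMap Kbar (LaurentSeries Kbar) (c₁ * c₂)
        * (((Y₁ * Y₂ : (↥(modularFunctionFieldBar N))ˣ) : ↥(modularFunctionFieldBar N)) :
          LaurentSeries Kbar)
        = algebraMap Kbar (LaurentSeries Kbar) c₁
          * ((Y₁ : ↥(modularFunctionFieldBar N)) : LaurentSeries Kbar)
          * (algebraMap Kbar (LaurentSeries Kbar) c₂
          * ((Y₂ : ↥(modularFunctionFieldBar N)) : LaurentSeries Kbar)) := by
      rw [map_mul, Units.val_mul, MulMemClass.coe_mul]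
      ring
    rw [e]
    exact this

theorem T2fInf.inv {Y : (↥(modularFunctionFieldBar N))ˣ} (h : T2fInf N A Y) :
    T2fInf N A Y⁻¹ := by
  obtain ⟨c, hc, a, b, hab, hb, hr⟩ := h
  have hY0 : ((Y : ↥(modularFunctionFieldBar N)) : LaurentSeries Kbar) ≠ 0 := by simp
  have h0 : algebraMap Kbar (LaurentSeries Kbar) c
      * ((Y : ↥(modularFunctionFieldBar N)) : LaurentSeries Kbar) ≠ 0 :=
    mul_ne_zero ((map_ne_zero _).mpr hc) hY0
  refine ⟨c⁻¹, inv_ne_zero hc, b, a, hab.symm, by rw [hab]; exact hb, ?_⟩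
  have := hr.inv h0
  have e : algebraMap Kbar (LaurentSeries Kbar) c⁻¹
      * (((Y⁻¹ : (↥(modularFunctionFieldBar N))ˣ) : ↥(modularFunctionFieldBar N)) :
        LaurentSeries Kbar)
      = (algebraMap Kbar (LaurentSeries Kbar) c
        * ((Y : ↥(modularFunctionFieldBar N)) : LaurentSeries Kbar))⁻¹ := by
    rw [map_inv₀, Units.val_inv_eq_inv_val, mul_inv]
    rfl
  rw [e]
  exact this

end Inf

section Xinf

variable {N : ℕ} [NeZero N] (DK : TdmDict Kbar N) (A : ValuationSubring Kbar)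

/-- the classes in `X_m` of the Kummer functions in `ℚ̄^× · (1 + 𝔪_A)` (modulo `m`-th powers) -/
def t2fXinf {m : ℕ} (hm : m ≠ 0) : Subgroup ↥(tdmX N m) where
  carrier := {χ | ∃ y : ↥(tWsub Kbar N m), DK.psi hm y = χ ∧
    T2fInf N A (y : (↥(modularFunctionFieldBar N))ˣ)}
  one_mem' := ⟨1, map_one _, T2fInf.one⟩
  mul_mem' := by
    rintro _ _ ⟨y₁, rfl, h₁⟩ ⟨y₂, rfl, h₂⟩
    exact ⟨y₁ * y₂, map_mul _ _ _, h₁.mul h₂⟩
  inv_mem' := by
    rintro _ ⟨y, rfl, h⟩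
    exact ⟨y⁻¹, map_inv _ _, h.inv⟩

theorem mem_t2fXinf {m : ℕ} (hm : m ≠ 0) {χ : ↥(tdmX N m)} :
    χ ∈ t2fXinf DK A hm ↔ ∃ y : ↥(tWsub Kbar N m), DK.psi hm y = χ ∧
      T2fInf N A (y : (↥(modularFunctionFieldBar N))ˣ) := Iff.rfl

variable (p : ℕ) [hp : Fact p.Prime]

/-- **`Tinf(A)`**: the elements of the Tate module all of whose finite levels are in `X^∞` -/
def t2fTinf : Submodule ℤ_[p] ↥(parabolicHoms ℤ_[p] (Gamma0 N) ℤ_[p]) where
  carrier := {x | ∀ k : ℕ, Additive.toMul ((tdmTowerN p N).ι k x)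
    ∈ t2fXinf DK A (tdm_prime_pow_ne_zero p k)}
  zero_mem' := fun k => by
    rw [map_zero]
    exact (t2fXinf DK A _).one_mem
  add_mem' := fun {x y} hx hy k => by
    rw [map_add]
    exact (t2fXinf DK A _).mul_mem (hx k) (hy k)
  smul_mem' := fun c x hx k => by
    rw [(tdmTowerN p N).ι_smul]
    exact (t2fXinf DK A _).pow_mem (hx k) _

theorem mem_t2fTinf {x : ↥(parabolicHoms ℤ_[p] (Gamma0 N) ℤ_[p])} :
    x ∈ t2fTinf DK A p ↔ ∀ k : ℕ, Additive.toMul ((tdmTowerN p N).ι k x)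
      ∈ t2fXinf DK A (tdm_prime_pow_ne_zero p k) := Iff.rfl

end Xinf

end Fermat.Agent.T2
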