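/-
T2-F (helper3), (F1-c): the Tate-module forms of (P1) and (P4), and `w_q` commutes with Galois.

* `t2fGal p E`: the Galois action on the Tate module (as in `tdm_package`);
* `t2f_P1_TT`: `(U_q - φ) x ∈ Tinf(A)` for every `x` (from `T2fP1K`);
* `t2fW_comm_gal`;
* `t2f_P4_TT`: `x ∈ Tinf`, `w x ∈ Tinf` ⟹ `φ (φ x) = q² • x` (from `T2fP4K`).
-/
import Mathlib
import Fermat.Agent.Lib.T2.F.Tinf

set_option autoImplicit false
set_option linter.unusedSectionVars false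
set_option linter.unusedVariables false
set_option linter.style.haveILetI false

open scoped TensorProduct
open Matrix MatrixGroups CongruenceSubgroup Fermat.Agent.T1 ModularCurve Fermat.Agent.S24Lib
  ModularCurve.Period

namespace Fermat.Agent.T2

local notation "Kbar" => AlgebraicClosure ℚ
local notation "GQ" => (AlgebraicClosure ℚ ≃ₐ[ℚ] AlgebraicClosure ℚ)

section Gal

variable (p : ℕ) [hp : Fact p.Prime] {N : ℕ} [NeZero N] {DK : TdmDict Kbar N} {DC : TdmDictC N}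
  (E : TdmDescent N DK DC)

/-- the Galois action on the Tate module (as in `tdm_package`) -/
noncomputable def t2fGal : GQ →* Module.End ℤ_[p] ↥(parabolicHoms ℤ_[p] (Gamma0 N) ℤ_[p]) :=
  (tdmTowerN p N).action (E.galW p) (E.galW_compat p)

theorem t2fGal_ι (σ : GQ) (x : ↥(parabolicHoms ℤ_[p] (Gamma0 N) ℤ_[p])) (k : ℕ) :
    (tdmTowerN p N).ι k (t2fGal p E σ x) = E.galW p k σ ((tdmTowerN p N).ι k x) :=
  (tdmTowerN p N).ι_action (E.galW p) (E.galW_compat p) σ x k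

theorem t2fGal_ι_toMul (σ : GQ) (x : ↥(parabolicHoms ℤ_[p] (Gamma0 N) ℤ_[p])) (k : ℕ) :
    Additive.toMul ((tdmTowerN p N).ι k (t2fGal p E σ x))
      = E.galX (tdm_prime_pow_ne_zero p k) σ (Additive.toMul ((tdmTowerN p N).ι k x)) := by
  rw [t2fGal_ι]
  rfl

/-- **(P1) on the Tate module** -/
theorem t2f_P1_TT (h1 : T2fP1K) (hDK : DK.toMer = KMod.toMer Kbar N) (q : ℕ) (hq : q.Prime)
    (hqN : q ∣ N) (A : ValuationSubring Kbar) (hA : A.LiesOverPrime q) (φ : GQ)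
    (hφ : A.IsFrobeniusAt φ q) (x : ↥(parabolicHoms ℤ_[p] (Gamma0 N) ℤ_[p])) :
    tdmHeckeP p N (CuspForm.heckeAlgebra.U hq hqN (Set.notMem_empty q)) x - t2fGal p E φ x
      ∈ t2fTinf DK A p := by
  rw [mem_t2fTinf]
  intro k
  have hm := tdm_prime_pow_ne_zero p k
  obtain ⟨y, hy⟩ := E.psi_surjective hm (Additive.toMul ((tdmTowerN p N).ι k x))
  obtain ⟨hUy, hU⟩ := DK.psi_op (tdmSysU N q hqN hq.ne_zero) hm (tkrHeckeUUnits N q)
    (DK.fn_heckeU hDK q hq hqN) y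
  have hg := E.galX_psi hm φ y
  have hI : T2fInf N A (tkrHeckeUUnits N q y.1 * (tkrSig N φ y.1)⁻¹) :=
    h1 N q hq hqN A hA φ hφ y.1
  have e1 : Additive.toMul ((tdmTowerN p N).ι k
      (tdmHeckeP p N (CuspForm.heckeAlgebra.U hq hqN (Set.notMem_empty q)) x))
      = (tdmSysU N q hqN hq.ne_zero).homX (p ^ k) (Additive.toMul ((tdmTowerN p N).ι k x)) := by
    rw [tdm_ι_hom p (tdmSysU N q hqN hq.ne_zero) k x _ (tdmHeckeP_U p N q hq hqN x)]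
    rfl
  have e2 := t2fGal_ι_toMul p E φ x k
  rw [mem_t2fXinf]
  refine ⟨⟨tkrHeckeUUnits N q y.1, hUy⟩ * (tdmSigW N (p ^ k) φ y)⁻¹, ?_, ?_⟩
  · rw [map_sub, toMul_sub, e1, e2, ← hy, ← hU, hg, map_mul, map_inv, div_eq_mul_inv]
  · rw [Subgroup.coe_mul, Subgroup.coe_inv, tdmSigW_coe]
    exact hI

end Gal

section Toric

variable (p : ℕ) [hp : Fact p.Prime] (N' q : ℕ) [NeZero N'] [hq : Fact q.Prime] (h : ¬ q ∣ N')
  {DK : TdmDict Kbar (N' * q)} {DC : TdmDictC (N' * q)} (E : TdmDescent (N' * q) DK DC)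

/-- `w_q` commutes with the Galois action on the Tate module -/
theorem t2fW_comm_gal (hDK : DK.toMer = KMod.toMer Kbar (N' * q)) (σ : GQ) :
    t2fGal p E σ * t2fW p N' q h = t2fW p N' q h * t2fGal p E σ := by
  apply (tdmTowerN p (N' * q)).end_ext
  intro k x
  rw [Module.End.mul_apply, Module.End.mul_apply, t2fGal_ι, t2fW_ι, t2fW_ι, t2fGal_ι]
  exact congrArg Additive.ofMul (E.galX_op (t2fSysW N' q h) (tdm_prime_pow_ne_zero p k)
    (t2fWU N' q h) (t2f_fn_t2w N' q h DK hDK) (t2fWU_sig N' q h) σ _)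

/-- **(P4) on the Tate module**: on `Tinf ∩ w Tinf` every Frobenius lift `φ` at `q` satisfies
`φ² = q²` -/
theorem t2f_P4_TT (h4 : T2fP4K) (hqp : q ≠ p) (hDK : DK.toMer = KMod.toMer Kbar (N' * q))
    (A : ValuationSubring Kbar) (hA : A.LiesOverPrime q) (φ : GQ) (hφ : A.IsFrobeniusAt φ q)
    (x : ↥(parabolicHoms ℤ_[p] (Gamma0 (N' * q)) ℤ_[p])) (hx : x ∈ t2fTinf DK A p)
    (hwx : t2fW p N' q h x ∈ t2fTinf DK A p) :
    t2fGal p E φ (t2fGal p E φ x) = ((q : ℤ_[p]) ^ 2) • x := by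
  apply (tdmTowerN p (N' * q)).ext_elem
  intro k
  have hm := tdm_prime_pow_ne_zero p k
  have hcop : Nat.Coprime (p ^ k) q :=
    Nat.Coprime.pow_left k ((Nat.coprime_primes hp.out hq.out).mpr hqp.symm)
  obtain ⟨y₁, hy₁, hI₁⟩ := hx k
  obtain ⟨y₂, hy₂, hI₂⟩ := hwx k
  rw [t2fW_ι] at hy₂
  obtain ⟨hw1, hW⟩ := DK.psi_op (t2fSysW N' q h) hm (t2fWU N' q h)
    (t2f_fn_t2w N' q h DK hDK) y₁
  have e : DK.psi hm (⟨t2fWU N' q h y₁.1, hw1⟩ * y₂⁻¹) = 1 := by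
    rw [map_mul, map_inv, hW, hy₁, hy₂]
    exact mul_inv_cancel _
  obtain ⟨t, ht⟩ := mem_tdmPowSub.mp (E.psi_ker hm _ e)
  have ht2 : t2fWU N' q h y₁.1 * (t⁻¹) ^ (p ^ k) = y₂.1 := by
    rw [inv_pow, ht]
    show t2fWU N' q h y₁.1 * (t2fWU N' q h y₁.1 * (y₂.1)⁻¹)⁻¹ = y₂.1
    rw [mul_inv, inv_inv, ← mul_assoc, mul_inv_cancel, one_mul]
  obtain ⟨t', ht'⟩ := h4 N' q h A hA φ hφ (p ^ k) hcop hm y₁.1 y₁.2
    ⟨1, by rw [one_pow, mul_one]; exact hI₁⟩ ⟨t⁻¹, by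
      show T2fInf (N' * q) A (t2fWU N' q h y₁.1 * (t⁻¹) ^ (p ^ k))
      rw [ht2]; exact hI₂⟩
  have h5 : tdmSigW (N' * q) (p ^ k) φ (tdmSigW (N' * q) (p ^ k) φ y₁)
      = y₁ ^ (q ^ 2) * ⟨t' ^ (p ^ k), tkr_pow_mem_tWsub (N' * q) (p ^ k) t'⟩ := Subtype.ext ht'
  have h6 : E.galX hm φ (E.galX hm φ (DK.psi hm y₁)) = DK.psi hm y₁ ^ (q ^ 2) := by
    rw [E.galX_psi, E.galX_psi, h5, map_mul, map_pow,
      DK.psi_pow hm ⟨t' ^ (p ^ k), tkr_pow_mem_tWsub (N' * q) (p ^ k) t'⟩ t' rfl, mul_one]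
  apply Additive.toMul.injective
  rw [t2fGal_ι_toMul, t2fGal_ι_toMul, ← hy₁, h6, ← Nat.cast_pow, Nat.cast_smul_eq_nsmul, map_nsmul,
    toMul_nsmul, hy₁]

end Toric

end Fermat.Agent.T2
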