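/-
T2-F (helper3), (F1-d): **the Frobenius relation (H8)** `(φ² - q²)(φ - U_q) = 0` on the eigen-lattice of
an eigencharacter which is new at `q`, from (P1), (P3'), (P4) and (WT).
-/
import Mathlib
import Fermat.Agent.Lib.T2.F.TinfOps
import Fermat.Agent.Lib.T2.F.Flat

set_option autoImplicit false
set_option linter.unusedSectionVars false
set_option linter.unusedVariables false
set_option linter.style.haveILetI false

open scoped TensorProduct
open Matrix MatrixGroups CongruenceSubgroup Fermat.Agent.T1 ModularCurve Fermat.Agent.S24Lib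
  ModularCurve.Period

namespace Fermat.Agent.T2

local notation "Kbar" => AlgebraicClosure ℚ
local notation "GQ" => (AlgebraicClosure ℚ ≃ₐ[ℚ] AlgebraicClosure ℚ)

/-- `ℤ_p → 𝒪` is injective for a domain `𝒪` of characteristic zero -/
theorem t2f_algebraMap_injective (p : ℕ) [hp : Fact p.Prime] (𝒪 : Type*) [CommRing 𝒪] [IsDomain 𝒪]
    [CharZero 𝒪] [Algebra ℤ_[p] 𝒪] : Function.Injective (algebraMap ℤ_[p] 𝒪) := by
  rw [injective_iff_map_eq_zero]
  intro x hx
  by_contra h0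
  have h1 := PadicInt.unitCoeff_spec h0
  rw [h1, map_mul, map_pow, map_natCast] at hx
  rcases mul_eq_zero.mp hx with h2 | h2
  · exact ((PadicInt.unitCoeff h0).isUnit.map (algebraMap ℤ_[p] 𝒪)).ne_zero h2
  · exact pow_ne_zero _ (Nat.cast_ne_zero.mpr hp.out.ne_zero) h2

/-- a domain of characteristic zero is flat over `ℤ_p` -/
theorem t2f_flat_zp (p : ℕ) [hp : Fact p.Prime] (𝒪 : Type*) [CommRing 𝒪] [IsDomain 𝒪]
    [CharZero 𝒪] [Algebra ℤ_[p] 𝒪] : Module.Flat ℤ_[p] 𝒪 := by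
  haveI : Module.IsTorsionFree ℤ_[p] 𝒪 :=
    Module.isTorsionFree_iff_algebraMap_injective.mpr (t2f_algebraMap_injective p 𝒪)
  infer_instance

section H8

variable (p : ℕ) [hp : Fact p.Prime] (N' q : ℕ) [NeZero N'] [hq : Fact q.Prime] (h : ¬ q ∣ N')
  {DK : TdmDict Kbar (N' * q)} {DC : TdmDictC (N' * q)} (E : TdmDescent (N' * q) DK DC)
  {𝒪 : Type} [CommRing 𝒪] [IsDomain 𝒪] [CharZero 𝒪] [Algebra ℤ_[p] 𝒪]
  (lam : CuspForm.heckeAlgebra (N' * q) 2 (∅ : Set ℕ) →+* 𝒪)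

/-- `U_q` on the Tate module of level `N' q` -/
noncomputable def t2fUq : Module.End ℤ_[p] ↥(parabolicHoms ℤ_[p] (Gamma0 (N' * q)) ℤ_[p]) :=
  tdmHeckeP p (N' * q)
    (CuspForm.heckeAlgebra.U hq.out (Dvd.intro_left N' rfl) (Set.notMem_empty q))

/-- `lam (U_q)` -/
noncomputable def t2fA : 𝒪 :=
  lam (CuspForm.heckeAlgebra.U hq.out (Dvd.intro_left N' rfl) (Set.notMem_empty q))

/-- **`w v = - a v`** on the eigen-lattice of an eigencharacter which is new at `q` -/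
theorem t2f_w_eigen (hwt : T2fWT) (h3 : T2fP3) (hnew : T2fNewAt (N' * q) N' lam)
    {v : 𝒪 ⊗[ℤ_[p]] ↥(parabolicHoms ℤ_[p] (Gamma0 (N' * q)) ℤ_[p])}
    (hv : v ∈ teEigen (tdmHeckeP p (N' * q)) lam) :
    (t2fW p N' q h).baseChange 𝒪 v = -(t2fA N' q lam • v) := by
  rw [mem_teEigen] at hv
  set w := t2fW p N' q h with hw
  have hv' : ∀ (l : ℕ) (hl : l.Prime) (hlN : ¬ l ∣ N' * q),
      (tdmHeckeP p (N' * q)
          (CuspForm.heckeAlgebra.T hl hlN (Set.notMem_empty l))).baseChange 𝒪 (w.baseChange 𝒪 v)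
        = lam (CuspForm.heckeAlgebra.T hl hlN (Set.notMem_empty l)) • w.baseChange 𝒪 v := by
    intro l hl hlN
    have h1 := congrArg (fun f => (f.baseChange 𝒪) v) (hwt p N' q h l hl hlN)
    simp only [LinearMap.baseChange_mul, Module.End.mul_apply] at h1
    rw [← h1, hv, map_smul]
  have h4 := h3 p N' q h 𝒪 lam hnew (w.baseChange 𝒪 v) hv'
  have h5 : w.baseChange 𝒪 (w.baseChange 𝒪 v) = v := by
    have := congrArg (fun f => (f.baseChange 𝒪) v) (t2fW_mul_self p N' q h)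
    simp only [LinearMap.baseChange_mul, Module.End.mul_apply, LinearMap.baseChange_one,
      Module.End.one_apply] at this
    exact this
  rw [LinearMap.baseChange_mul, Module.End.mul_apply, h5, hv] at h4
  exact eq_neg_of_add_eq_zero_left h4

include h in
/-- **`lam (U_q)² = 1`** -/
theorem t2f_a_sq (hwt : T2fWT) (h3 : T2fP3) (hnew : T2fNewAt (N' * q) N' lam)
    {v : 𝒪 ⊗[ℤ_[p]] ↥(parabolicHoms ℤ_[p] (Gamma0 (N' * q)) ℤ_[p])}
    (hv : v ∈ teEigen (tdmHeckeP p (N' * q)) lam) (hv0 : v ≠ 0) :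
    t2fA N' q lam ^ 2 = 1 := by
  have h1 := t2f_w_eigen p N' q h lam hwt h3 hnew hv
  have h5 : (t2fW p N' q h).baseChange 𝒪 ((t2fW p N' q h).baseChange 𝒪 v) = v := by
    have := congrArg (fun f => (f.baseChange 𝒪) v) (t2fW_mul_self p N' q h)
    simp only [LinearMap.baseChange_mul, Module.End.mul_apply, LinearMap.baseChange_one,
      Module.End.one_apply] at this
    exact this
  rw [h1, map_neg, map_smul, h1, smul_neg, neg_neg, smul_smul] at h5
  haveI : Module.Free 𝒪 (𝒪 ⊗[ℤ_[p]] ↥(parabolicHoms ℤ_[p] (Gamma0 (N' * q)) ℤ_[p])) :=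
    inferInstance
  have h6 : (t2fA N' q lam * t2fA N' q lam) • v = (1 : 𝒪) • v := by
    rw [one_smul]
    exact h5
  rw [pow_two]
  exact smul_left_injective 𝒪 hv0 h6

include h in
/-- **the Frobenius relation** `(φ² - q²)(φ - U_q) = 0` on the eigen-lattice of an eigencharacter
which is new at `q` -/
theorem t2f_frob_rel (h1 : T2fP1K) (h4 : T2fP4K) (hwt : T2fWT) (h3 : T2fP3) (hqp : q ≠ p)
    (hDK : DK.toMer = KMod.toMer Kbar (N' * q)) (hnew : T2fNewAt (N' * q) N' lam)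
    (ha : t2fA N' q lam ^ 2 = 1)
    (A : ValuationSubring Kbar) (hA : A.LiesOverPrime q) (φ : GQ) (hφ : A.IsFrobeniusAt φ q)
    {v : 𝒪 ⊗[ℤ_[p]] ↥(parabolicHoms ℤ_[p] (Gamma0 (N' * q)) ℤ_[p])}
    (hv : v ∈ teEigen (tdmHeckeP p (N' * q)) lam) :
    (((t2fGal p E φ * t2fGal p E φ - ((q : ℤ_[p]) ^ 2) •
        (1 : Module.End ℤ_[p] ↥(parabolicHoms ℤ_[p] (Gamma0 (N' * q)) ℤ_[p]))) *
      (t2fGal p E φ - t2fUq p N' q)).baseChange 𝒪) v = 0 := by
  haveI : Module.Flat ℤ_[p] 𝒪 := t2f_flat_zp p 𝒪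
  set g := t2fGal p E φ with hg
  set w := t2fW p N' q h with hw
  set a := t2fA N' q lam with ha'
  set P := t2fTinf DK A p with hP
  have hwv : w.baseChange 𝒪 v = -(a • v) := t2f_w_eigen p N' q h lam hwt h3 hnew hv
  have hUv : (t2fUq p N' q).baseChange 𝒪 v = a • v := (mem_teEigen _ _).mp hv _
  -- `u = (U_q - φ) v`
  set d : Module.End ℤ_[p] ↥(parabolicHoms ℤ_[p] (Gamma0 (N' * q)) ℤ_[p]) := t2fUq p N' q - g
    with hd
  set u := d.baseChange 𝒪 v with hu
  have hrange : LinearMap.range d ≤ P := by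
    rintro _ ⟨x, rfl⟩
    exact t2f_P1_TT p E h1 hDK q hq.out (Dvd.intro_left N' rfl) A hA φ hφ x
  have hu1 : u ∈ P.baseChange 𝒪 :=
    Submodule.baseChange_mono 𝒪 hrange (t2f_baseChange_mem_range 𝒪 d v)
  have hu_eq : u = a • v - g.baseChange 𝒪 v := by
    rw [hu, hd, LinearMap.baseChange_sub, LinearMap.sub_apply, hUv]
  -- `w u = - a u`
  have hcomm : w.baseChange 𝒪 (g.baseChange 𝒪 v) = g.baseChange 𝒪 (w.baseChange 𝒪 v) := by
    have := congrArg (fun f => (f.baseChange 𝒪) v) (t2fW_comm_gal p N' q h E hDK φ)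
    simp only [LinearMap.baseChange_mul, Module.End.mul_apply] at this
    exact this.symm
  have hwu : w.baseChange 𝒪 u = -(a • u) := by
    rw [hu_eq, map_sub, map_smul, hcomm, hwv, map_neg, map_smul, smul_neg, smul_sub]
    abel
  -- `u ∈ (w Tinf)_𝒪`
  have hu2 : u ∈ (P.map w).baseChange 𝒪 := by
    have h5 := t2f_baseChange_map 𝒪 w P (Submodule.smul_mem _ (-a) hu1)
    rw [map_smul, hwu, smul_neg, neg_smul, neg_neg, smul_smul, ← pow_two, ha, one_smul] at h5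
    exact h5
  have hu3 := t2f_baseChange_inf 𝒪 P (P.map w) hu1 hu2
  -- `φ² = q²` on `Tinf ∩ w Tinf`
  have hkill : ∀ x ∈ P ⊓ P.map w, (g * g - ((q : ℤ_[p]) ^ 2) •
      (1 : Module.End ℤ_[p] ↥(parabolicHoms ℤ_[p] (Gamma0 (N' * q)) ℤ_[p]))) x = 0 := by
    rintro x ⟨hx1, x', hx', rfl⟩
    have hx2 : w (w x') ∈ P := by
      rw [hw, t2fW_t2fW]
      exact hx'
    rw [LinearMap.sub_apply, Module.End.mul_apply, LinearMap.smul_apply, Module.End.one_apply,
      t2f_P4_TT p N' q h E h4 hqp hDK A hA φ hφ (w x') hx1 hx2, sub_self]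
  have h0 := t2f_baseChange_eq_zero 𝒪 _ (P ⊓ P.map w) hkill hu3
  have h6 : g - t2fUq p N' q = -d := (neg_sub (t2fUq p N' q) g).symm
  rw [LinearMap.baseChange_mul, Module.End.mul_apply, h6, LinearMap.baseChange_neg,
    LinearMap.neg_apply, map_neg, ← hu, h0, neg_zero]

end H8

end Fermat.Agent.T2
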