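/-
T2-F (= S35), package F4 (lead): **the congruence `U_q ≡ Frobenius` at the component `∞`**.

* `t2fuTilde l hζ a` : the operator `Ũ_l` on all Laurent series, `(Ũ a)(q^l) = ∏_{b<l} a(ζ^b q)`;
  `t2fu_congruence` : modulo a prime over `l` it is the coefficientwise Frobenius;
  `t2fuTilde_eq_tkrHeckeU` : on the function field of `X₀(N)`, `l ∣ N`, it is `tkrHeckeU N l`.
* `t2fu_normal 𝔓 N : TkrNormal N 𝔓.P` : the Gauss normal form over `(ℚ̄, A)` at EVERY level `N`
  (no condition on the residue characteristic), from T1-A's `tbf_nf` at the finite levels.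
* **`t2f_P1K : T2fP1K`** : for `q ∣ N`, `A | q`, `φ` a Frobenius lift at `A` and every `y ≠ 0`:
  `U_q y / φ y ∈ ℚ̄^× · (1 + 𝔪_A)`.
-/
import Mathlib
import Fermat.Agent.Lib.T2.F.Defs
import Fermat.Agent.Lib.T1.Inst.FromTa
import Fermat.Agent.Lib.T1.Inst.LevelUp

set_option autoImplicit false
set_option linter.unusedSectionVars false
set_option linter.unusedVariables false
set_option linter.style.haveILetI false
set_option synthInstance.maxHeartbeats 400000

namespace Fermat.Agent.T2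

open ModularCurve HahnSeries Fermat.Agent.T1 Fermat.Agent.TW

local notation "Kbar" => AlgebraicClosure ℚ
local notation "GQ" => (AlgebraicClosure ℚ ≃ₐ[ℚ] AlgebraicClosure ℚ)

section TildeU

variable {R : Type*} [CommRing R] [IsDomain R]

/-- the product `∏_{b<l} a(ζ^b q)` is invariant under `q ↦ ζ q` -/
theorem t2fu_tw_prod (l : ℕ) [NeZero l] {ζ : Rˣ} (hζ : IsPrimitiveRoot (ζ : R) l)
    (a : LaurentSeries R) :
    tkrTw ζ (∏ b ∈ Finset.range l, tkrTw (ζ ^ b) a) = ∏ b ∈ Finset.range l, tkrTw (ζ ^ b) a := by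
  have hζl : ζ ^ l = 1 := by
    apply Units.ext
    rw [Units.val_pow_eq_pow_val, Units.val_one]
    exact hζ.pow_eq_one
  rw [map_prod]
  have hstep : ∀ b : ℕ, tkrTw ζ (tkrTw (ζ ^ b) a) = tkrTw (ζ ^ (b + 1)) a := by
    intro b
    rw [← tkrTw_mul_apply, pow_succ']
  rw [Finset.prod_congr rfl (fun b _ => hstep b)]
  have h1 := Finset.prod_range_succ' (fun b => tkrTw (ζ ^ b) a) l
  have h2 := Finset.prod_range_succ (fun b => tkrTw (ζ ^ b) a) l
  rw [h1] at h2
  simp only [hζl, pow_zero] at h2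
  by_cases ha : a = 0
  · have hl : 0 < l := Nat.pos_of_ne_zero (NeZero.ne l)
    rw [Finset.prod_eq_zero (Finset.mem_range.mpr hl) (by rw [ha, map_zero]),
      Finset.prod_eq_zero (Finset.mem_range.mpr hl) (by rw [ha, map_zero])]
  · have ha1 : tkrTw (1 : Rˣ) a ≠ 0 := by rwa [tkrTw_one_apply]
    exact mul_right_cancel₀ ha1 h2

theorem t2fu_exists_tilde (l : ℕ) [NeZero l] {ζ : Rˣ} (hζ : IsPrimitiveRoot (ζ : R) l)
    (a : LaurentSeries R) :
    ∃ z, qExpand R l z = ∏ b ∈ Finset.range l, tkrTw (ζ ^ b) a :=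
  tkr_exists_qExpand_of_tw_fixed l hζ _ (t2fu_tw_prod l hζ a)

/-- **the operator `Ũ_l`** on all Laurent series: `(Ũ a)(q^l) = ∏_{b<l} a(ζ^b q)` -/
noncomputable def t2fuTilde (l : ℕ) [NeZero l] {ζ : Rˣ} (hζ : IsPrimitiveRoot (ζ : R) l)
    (a : LaurentSeries R) : LaurentSeries R :=
  (t2fu_exists_tilde l hζ a).choose

theorem t2fuTilde_spec (l : ℕ) [NeZero l] {ζ : Rˣ} (hζ : IsPrimitiveRoot (ζ : R) l)
    (a : LaurentSeries R) :
    qExpand R l (t2fuTilde l hζ a) = ∏ b ∈ Finset.range l, tkrTw (ζ ^ b) a :=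
  (t2fu_exists_tilde l hζ a).choose_spec

theorem t2fuTilde_eq_of_spec (l : ℕ) [NeZero l] {ζ : Rˣ} (hζ : IsPrimitiveRoot (ζ : R) l)
    {a z : LaurentSeries R}
    (hz : qExpand R l z = ∏ b ∈ Finset.range l, tkrTw (ζ ^ b) a) :
    t2fuTilde l hζ a = z :=
  qExpand_injective (R := R) l ((t2fuTilde_spec l hζ a).trans hz.symm)

theorem t2fuTilde_mul (l : ℕ) [NeZero l] {ζ : Rˣ} (hζ : IsPrimitiveRoot (ζ : R) l)
    (a b : LaurentSeries R) :
    t2fuTilde l hζ (a * b) = t2fuTilde l hζ a * t2fuTilde l hζ b := by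
  apply t2fuTilde_eq_of_spec
  rw [map_mul, t2fuTilde_spec, t2fuTilde_spec]
  simp only [map_mul, Finset.prod_mul_distrib]

theorem t2fuTilde_C (l : ℕ) [NeZero l] {ζ : Rˣ} (hζ : IsPrimitiveRoot (ζ : R) l) (c : R) :
    t2fuTilde l hζ (HahnSeries.C c : LaurentSeries R) = HahnSeries.C (c ^ l) := by
  apply t2fuTilde_eq_of_spec
  simp only [qExpand_C, tkrTw_C, Finset.prod_const, Finset.card_range]
  rw [← map_pow]

/-- `Ũ` commutes with injective base change -/
theorem coeffMap_t2fuTilde {R' : Type*} [CommRing R'] [IsDomain R'] (f : R →+* R')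
    (hf : Function.Injective f) (l : ℕ) [NeZero l] {ζ : Rˣ} (hζ : IsPrimitiveRoot (ζ : R) l)
    (a : LaurentSeries R) :
    coeffMap f (t2fuTilde l hζ a)
      = t2fuTilde l (ζ := Units.map (f : R →* R') ζ) (hζ.map_of_injective hf) (coeffMap f a) := by
  symm
  apply t2fuTilde_eq_of_spec
  rw [← coeffMap_qExpand, t2fuTilde_spec, map_prod]
  refine Finset.prod_congr rfl (fun b _ => ?_)
  rw [coeffMap_tkrTw, map_pow]

/-- **the congruence for `Ũ`**: modulo a prime over `l`, `Ũ_l` is the coefficientwise Frobenius -/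
theorem t2fu_congruence {S : Type*} [CommRing S] (π : R →+* S) (l : ℕ) [NeZero l]
    [Fact l.Prime] [CharP S l] {ζ : Rˣ} (hζ : IsPrimitiveRoot (ζ : R) l) (hπ : π ζ = 1)
    (a : LaurentSeries R) :
    coeffMap π (t2fuTilde l hζ a) = coeffMap (frobenius S l) (coeffMap π a) := by
  apply qExpand_injective (R := S) l
  have hζ' : ∀ b : ℕ, Units.map (π : R →* S) (ζ ^ b) = 1 := by
    intro b
    ext
    rw [map_pow, Units.val_pow_eq_pow_val, Units.coe_map, Units.val_one]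
    show (π ζ) ^ b = 1
    rw [hπ, one_pow]
  have h1 := congrArg (coeffMap π) (t2fuTilde_spec l hζ a)
  rw [coeffMap_qExpand, map_prod] at h1
  rw [h1, ← tkr_pow_char l (coeffMap π a),
    Finset.prod_congr rfl (fun b _ => by rw [coeffMap_tkrTw, hζ' b, tkrTw_one_apply]),
    Finset.prod_const, Finset.card_range]

end TildeU

/-- on the function field of `X₀(N)`, `Ũ_l` is the functional operator `U_l` (`l ∣ N` prime) -/
theorem t2fuTilde_eq_tkrHeckeU {N l : ℕ} [NeZero N] [NeZero l] (hl : l.Prime) (hlN : l ∣ N)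
    {ζ : Kbarˣ} (hζ : IsPrimitiveRoot (ζ : Kbar) l) (y : modularFunctionFieldBar N) :
    t2fuTilde l hζ (y : LaurentSeries Kbar) = (tkrHeckeU N l y : LaurentSeries Kbar) := by
  apply t2fuTilde_eq_of_spec
  rw [tkrHeckeU_spec_range hl hlN hζ y]

/-- **the Gauss normal form over `(ℚ̄, A)` at EVERY level** (also when the residue characteristic
divides the level): every `y ≠ 0` is, up to a constant, a quotient of two primitive integral
Laurent series -/
theorem t2fu_normal (𝔓 : FFPlace) (N : ℕ) [NeZero N] : TkrNormal N 𝔓.P := by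
  intro y
  set f : ↥(modularFunctionFieldBar N) := (y : ↥(modularFunctionFieldBar N)) with hf
  have hf0 : f ≠ 0 := y.ne_zero
  obtain ⟨H, hH, -, hT⟩ := tbd_exists_level (modularFunctionFieldFull N) 𝔓
    ({()} : Finset Unit) (fun _ => (f : LaurentSeries Kbar)) (fun _ _ => f.2) ∅
  obtain ⟨fH, hfH, hfHf⟩ := hT () (Finset.mem_singleton_self _)
  have hfH0 : fH ≠ 0 := by
    rintro rfl
    rw [map_zero] at hfHf
    exact hf0 (Subtype.ext hfHf.symm)
  haveI := hH
  haveI : IsDiscreteValuationRing ↥(tbFixO 𝔓 H) := tbFixO_dvr 𝔓 H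
  have hπ := tbFixRes_surjective 𝔓 H
  obtain ⟨c, a, b, hc, haF, hbF, ha0, hb0, hrel⟩ :=
    tbf_nf (tbFixO 𝔓 H) (tbFixRes 𝔓 H) hπ N fH hfH hfH0
  refine ⟨((c : Kbar))⁻¹, inv_ne_zero (fun h0 => hc (Subtype.ext h0)),
    coeffMap (tbFixIncl 𝔓 H) a, coeffMap (tbFixIncl 𝔓 H) b, ?_, ?_, ?_⟩
  · show tbRed (IsLocalRing.residue ↥𝔓.P) _ ≠ 0
    rwa [tbPhi_red]
  · show tbRed (IsLocalRing.residue ↥𝔓.P) _ ≠ 0
    rwa [tbPhi_red]
  · have h1 : (f : LaurentSeries Kbar) * tbInc 𝔓.P (coeffMap (tbFixIncl 𝔓 H) b)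
        = algebraMap Kbar (LaurentSeries Kbar) (c : Kbar)
          * tbInc 𝔓.P (coeffMap (tbFixIncl 𝔓 H) a) := by
      rw [tbPhi_inc, tbPhi_inc, ← hfHf, ← map_mul, hrel, map_mul, tbPhi_C,
        algebraMap_laurentSeries_eq_single, HahnSeries.C_apply]
    have hc0 : (c : Kbar) ≠ 0 := fun h0 => hc (Subtype.ext h0)
    show algebraMap Kbar (LaurentSeries Kbar) ((c : Kbar))⁻¹
        * (f : LaurentSeries Kbar) * coeffMap 𝔓.P.subtype (coeffMap (tbFixIncl 𝔓 H) b)
      = coeffMap 𝔓.P.subtype (coeffMap (tbFixIncl 𝔓 H) a)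
    have h2 : (f : LaurentSeries Kbar) * coeffMap 𝔓.P.subtype (coeffMap (tbFixIncl 𝔓 H) b)
        = algebraMap Kbar (LaurentSeries Kbar) (c : Kbar)
          * coeffMap 𝔓.P.subtype (coeffMap (tbFixIncl 𝔓 H) a) := h1
    rw [mul_assoc, h2, ← mul_assoc, ← map_mul, inv_mul_cancel₀ hc0, map_one, one_mul]

section Rep

variable {A : ValuationSubring Kbar}

theorem t2fu_rep_tilde {f : LaurentSeries Kbar} {a b : LaurentSeries ↥A} (h : TkrRep A f a b)
    (l : ℕ) [NeZero l] {ζA : (↥A)ˣ} (hζA : IsPrimitiveRoot (ζA : ↥A) l)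
    (hζ : IsPrimitiveRoot ((Units.map (A.subtype : ↥A →* Kbar) ζA : Kbarˣ) : Kbar) l) :
    TkrRep A (t2fuTilde l hζ f) (t2fuTilde l hζA a) (t2fuTilde l hζA b) := by
  have e : ∀ x : LaurentSeries ↥A,
      coeffMap A.subtype (t2fuTilde l hζA x) = t2fuTilde l hζ (coeffMap A.subtype x) :=
    fun x => coeffMap_t2fuTilde A.subtype A.subtype_injective l hζA x
  unfold TkrRep at *
  rw [e, e, ← t2fuTilde_mul, h]

theorem t2fu_red_tilde (l : ℕ) [NeZero l] [Fact l.Prime] [CharP (IsLocalRing.ResidueField ↥A) l]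
    {ζA : (↥A)ˣ} (hζA : IsPrimitiveRoot (ζA : ↥A) l) (a : LaurentSeries ↥A) :
    coeffMap (IsLocalRing.residue ↥A) (t2fuTilde l hζA a)
      = coeffMap (frobenius (IsLocalRing.ResidueField ↥A) l)
          (coeffMap (IsLocalRing.residue ↥A) a) := by
  apply t2fu_congruence (IsLocalRing.residue ↥A) l hζA _ a
  apply tkr_residue_eq_one
  apply Units.ext
  rw [Units.val_pow_eq_pow_val, Units.val_one]
  exact hζA.pow_eq_one

end Rep

/-- **(P1-K)**: `U_q y / φ y ∈ ℚ̄^× · (1 + 𝔪_A)` for every Frobenius lift `φ` at `A | q`, `q ∣ N` -/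
theorem t2f_P1K : T2fP1K := by
  intro N _ l hl hlN A hA σ hσ y
  haveI : NeZero l := ⟨hl.ne_zero⟩
  haveI : Fact l.Prime := ⟨hl⟩
  haveI : CharP (IsLocalRing.ResidueField ↥A) l := tkr_charP_residue hl hA
  obtain ⟨hσD, hfrob⟩ := hσ
  set g : A.decompositionSubgroup ℚ := ⟨σ, hσD⟩ with hgdef
  have hgσ : (g : GQ) = σ := rfl
  have hgκ : MulSemiringAction.toRingHom (A.decompositionSubgroup ℚ)
      (IsLocalRing.ResidueField ↥A) g = frobenius (IsLocalRing.ResidueField ↥A) l := by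
    ext x
    exact hfrob x
  -- the root of unity
  obtain ⟨ζ, hζ, -⟩ := tkr_exists_zeta l
  have hζl : ζ ^ l = 1 := by
    apply Units.ext
    rw [Units.val_pow_eq_pow_val, Units.val_one]
    exact hζ.pow_eq_one
  obtain ⟨ζA, hζA'⟩ := tkr_exists_unit_of_pow_eq_one (A := A) hl.ne_zero hζl
  subst hζA'
  have hζA : IsPrimitiveRoot (ζA : ↥A) l :=
    IsPrimitiveRoot.of_map_of_injective (f := A.subtype) hζ A.subtype_injective
  -- the representations
  obtain ⟨c, hc, a, b, ha, hb, hrep⟩ := t2fu_normal ⟨A, l, hl, hA⟩ N y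
  have hσc : (σ : Kbar →+* Kbar) c ≠ 0 := (map_ne_zero _).mpr hc
  have hy0 : ((y : ↥(modularFunctionFieldBar N)) : LaurentSeries Kbar) ≠ 0 := by simp
  have rep1 := hrep.act g
  rw [hgσ, map_mul, coeffMap_algebraMap] at rep1
  have repU := t2fu_rep_tilde hrep l hζA hζ
  have hC : ∀ x : Kbar, algebraMap Kbar (LaurentSeries Kbar) x = HahnSeries.C x := fun x => by
    rw [algebraMap_laurentSeries_eq_single]; rfl
  rw [t2fuTilde_mul, hC, t2fuTilde_C, ← hC,
    t2fuTilde_eq_tkrHeckeU hl hlN hζ (y : ↥(modularFunctionFieldBar N))] at repU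
  have hσy0 : coeffMap (σ : Kbar →+* Kbar)
      ((y : ↥(modularFunctionFieldBar N)) : LaurentSeries Kbar) ≠ 0 := by
    rw [← tkrSig_coe]
    simp
  have hne : algebraMap Kbar (LaurentSeries Kbar) ((σ : Kbar →+* Kbar) c)
      * coeffMap (σ : Kbar →+* Kbar)
        ((y : ↥(modularFunctionFieldBar N)) : LaurentSeries Kbar) ≠ 0 :=
    mul_ne_zero ((map_ne_zero _).mpr hσc) hσy0
  have hrep' := repU.mul (rep1.inv hne)
  -- reductions
  set φ := coeffMap (frobenius (IsLocalRing.ResidueField ↥A) l) with hφ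
  set ab := coeffMap (IsLocalRing.residue ↥A) a with hab
  set bb := coeffMap (IsLocalRing.residue ↥A) b with hbb
  have hφinj : Function.Injective φ :=
    tkr_coeffMap_injective (frobenius (IsLocalRing.ResidueField ↥A) l).injective
  have hredA : coeffMap (IsLocalRing.residue ↥A) (t2fuTilde l hζA a * tkrActA g b)
      = φ ab * φ bb := by
    rw [map_mul, t2fu_red_tilde, tkr_red_actA, hgκ]
  have hredB : coeffMap (IsLocalRing.residue ↥A) (t2fuTilde l hζA b * tkrActA g a)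
      = φ bb * φ ab := by
    rw [map_mul, t2fu_red_tilde, tkr_red_actA, hgκ]
  have hd : c ^ l / (σ : Kbar →+* Kbar) c ≠ 0 := div_ne_zero (pow_ne_zero _ hc) hσc
  refine ⟨c ^ l / (σ : Kbar →+* Kbar) c, hd, t2fuTilde l hζA a * tkrActA g b,
    t2fuTilde l hζA b * tkrActA g a, ?_, ?_, ?_⟩
  · rw [hredA, hredB, mul_comm]
  · rw [hredB]
    have h1 : φ bb ≠ 0 := fun h => hb (hφinj (by rw [h, map_zero]))
    have h3 : φ ab ≠ 0 := fun h => ha (hφinj (by rw [h, map_zero]))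
    exact mul_ne_zero h1 h3
  · convert hrep' using 1
    rw [Units.val_mul, MulMemClass.coe_mul, tkrHeckeUUnits_coe, Units.val_inv_eq_inv_val,
      map_div₀, map_pow, mul_inv]
    have : ((((tkrSig N σ y : (↥(modularFunctionFieldBar N))ˣ) :
        ↥(modularFunctionFieldBar N))⁻¹ : ↥(modularFunctionFieldBar N)) : LaurentSeries Kbar)
        = (coeffMap (σ : Kbar →+* Kbar)
          ((y : ↥(modularFunctionFieldBar N)) : LaurentSeries Kbar))⁻¹ := rfl
    rw [this, div_eq_mul_inv]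
    ring

end Fermat.Agent.T2
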