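/-
T2-F (F5, helper1), part 1: **two-group coset systems and the transfer**.

For subgroups `Γ, Γ'` of `SL₂(ℤ)` a system of representatives `rep i` (integral matrices of positive
determinant) which is permuted by right multiplication with `Γ'`, modulo left multiplication with
`Γ`: `rep i * δ' = ε_i(δ') * rep (σ_δ' i)`, `ε_i(δ') ∈ Γ`.  The transfer
`φ ↦ (δ' ↦ ∑ i, φ (ε_i(δ')))` maps `Hom(Γ, A)` to `Hom(Γ', A)` and preserves parabolic homomorphisms
(cycle argument, as in `Lib/T1/Mono/Coset.lean` for `Γ = Γ'`).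
-/
import Mathlib
import Fermat.Agent.Lib.T1.Mono.Coset

set_option autoImplicit false
set_option linter.unusedSectionVars false
set_option linter.style.haveILetI false

namespace Fermat.Agent.T2

open Matrix MatrixGroups CongruenceSubgroup ModularCurve ModularCurve.Period Fermat.Agent.T1

/-- a system of representatives `rep i` which is permuted by right multiplication with `Γ'`,
modulo left multiplication with `Γ` -/
structure T2fSys₂ (Γ Γ' : Subgroup SL(2, ℤ)) (ι : Type) [Fintype ι] where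
  rep : ι → Matrix (Fin 2) (Fin 2) ℤ
  det_pos : ∀ i, 0 < (rep i).det
  perm : ∀ (δ : Γ') (i : ι), ∃! j : ι, ∃ ε : Γ,
    rep i * ((δ : SL(2, ℤ)) : Matrix (Fin 2) (Fin 2) ℤ)
      = ((ε : SL(2, ℤ)) : Matrix (Fin 2) (Fin 2) ℤ) * rep j

namespace T2fSys₂

variable {Γ Γ' : Subgroup SL(2, ℤ)} {ι : Type} [Fintype ι] (S : T2fSys₂ Γ Γ' ι)

theorem det_ne_zero (i : ι) : (S.rep i).det ≠ 0 := (S.det_pos i).ne'

/-- the index `j` with `rep i * δ ∈ Γ * rep j` -/
noncomputable def sigmaFun (δ : Γ') (i : ι) : ι := (S.perm δ i).exists.choose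

/-- the element `ε ∈ Γ` with `rep i * δ = ε * rep (σ_δ i)` -/
noncomputable def eps (δ : Γ') (i : ι) : Γ := (S.perm δ i).exists.choose_spec.choose

theorem rep_mul' (δ : Γ') (i : ι) :
    S.rep i * ((δ : SL(2, ℤ)) : Matrix (Fin 2) (Fin 2) ℤ)
      = ((S.eps δ i : SL(2, ℤ)) : Matrix (Fin 2) (Fin 2) ℤ) * S.rep (S.sigmaFun δ i) :=
  (S.perm δ i).exists.choose_spec.choose_spec

/-- uniqueness of `σ_δ i` and `ε_i(δ)` -/
theorem eq_of_rep_mul {δ : Γ'} {i j : ι} {ε : Γ}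
    (h : S.rep i * ((δ : SL(2, ℤ)) : Matrix (Fin 2) (Fin 2) ℤ)
      = ((ε : SL(2, ℤ)) : Matrix (Fin 2) (Fin 2) ℤ) * S.rep j) :
    j = S.sigmaFun δ i ∧ ε = S.eps δ i := by
  have hj : j = S.sigmaFun δ i :=
    (S.perm δ i).unique ⟨ε, h⟩ ⟨S.eps δ i, S.rep_mul' δ i⟩
  refine ⟨hj, ?_⟩
  subst hj
  have h2 := h.symm.trans (S.rep_mul' δ i)
  have h3 := tdm_mul_right_cancel (S.det_ne_zero _) h2
  exact Subtype.ext (Subtype.ext h3)

theorem sigmaFun_one (i : ι) : S.sigmaFun 1 i = i :=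
  ((S.eq_of_rep_mul (δ := 1) (i := i) (j := i) (ε := 1) (by simp)).1).symm

theorem eps_one (i : ι) : S.eps 1 i = 1 :=
  ((S.eq_of_rep_mul (δ := 1) (i := i) (j := i) (ε := 1) (by simp)).2).symm

theorem rep_mul_mul (δ₁ δ₂ : Γ') (i : ι) :
    S.rep i * (((δ₁ * δ₂ : Γ') : SL(2, ℤ)) : Matrix (Fin 2) (Fin 2) ℤ)
      = (((S.eps δ₁ i * S.eps δ₂ (S.sigmaFun δ₁ i) : Γ) : SL(2, ℤ)) : Matrix (Fin 2) (Fin 2) ℤ)
        * S.rep (S.sigmaFun δ₂ (S.sigmaFun δ₁ i)) := by
  rw [Subgroup.coe_mul, Subgroup.coe_mul, Matrix.SpecialLinearGroup.coe_mul,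
    Matrix.SpecialLinearGroup.coe_mul, ← Matrix.mul_assoc, S.rep_mul' δ₁ i, Matrix.mul_assoc,
    S.rep_mul' δ₂, Matrix.mul_assoc]

theorem sigmaFun_mul (δ₁ δ₂ : Γ') (i : ι) :
    S.sigmaFun (δ₁ * δ₂) i = S.sigmaFun δ₂ (S.sigmaFun δ₁ i) :=
  ((S.eq_of_rep_mul (S.rep_mul_mul δ₁ δ₂ i)).1).symm

theorem eps_mul (δ₁ δ₂ : Γ') (i : ι) :
    S.eps (δ₁ * δ₂) i = S.eps δ₁ i * S.eps δ₂ (S.sigmaFun δ₁ i) :=
  ((S.eq_of_rep_mul (S.rep_mul_mul δ₁ δ₂ i)).2).symm

/-- the permutation `σ_δ` of the index set; `σ_(δ₁ δ₂) = σ_δ₂ ∘ σ_δ₁` -/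
noncomputable def sigma (δ : Γ') : Equiv.Perm ι where
  toFun := S.sigmaFun δ
  invFun := S.sigmaFun δ⁻¹
  left_inv i := by rw [← S.sigmaFun_mul, mul_inv_cancel, S.sigmaFun_one]
  right_inv i := by rw [← S.sigmaFun_mul, inv_mul_cancel, S.sigmaFun_one]

@[simp] theorem sigma_apply (δ : Γ') (i : ι) : S.sigma δ i = S.sigmaFun δ i := rfl

theorem rep_mul (δ : Γ') (i : ι) :
    S.rep i * ((δ : SL(2, ℤ)) : Matrix (Fin 2) (Fin 2) ℤ)
      = ((S.eps δ i : SL(2, ℤ)) : Matrix (Fin 2) (Fin 2) ℤ) * S.rep (S.sigma δ i) :=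
  S.rep_mul' δ i

theorem sigma_one : S.sigma 1 = 1 := Equiv.ext fun i => S.sigmaFun_one i

theorem sigma_mul (δ₁ δ₂ : Γ') : S.sigma (δ₁ * δ₂) = S.sigma δ₂ * S.sigma δ₁ :=
  Equiv.ext fun i => S.sigmaFun_mul δ₁ δ₂ i

theorem eps_mul' (δ₁ δ₂ : Γ') (i : ι) :
    S.eps (δ₁ * δ₂) i = S.eps δ₁ i * S.eps δ₂ (S.sigma δ₁ i) := S.eps_mul δ₁ δ₂ i

theorem sigma_pow (δ : Γ') (n : ℕ) : S.sigma (δ ^ n) = S.sigma δ ^ n := by
  induction n with
  | zero => rw [pow_zero, pow_zero, sigma_one]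
  | succ n ih => rw [pow_succ, sigma_mul, ih, pow_succ']

/-- `ε_i(δ^n)` is the product of the `ε` along the `σ_δ`-orbit of `i` -/
theorem eps_pow (δ : Γ') (n : ℕ) (i : ι) :
    S.eps (δ ^ n) i = ((List.range n).map fun k => S.eps δ ((S.sigma δ ^ k) i)).prod := by
  induction n with
  | zero => rw [pow_zero, eps_one]; rfl
  | succ n ih =>
    rw [pow_succ, eps_mul', ih, List.range_succ, List.map_append, List.prod_append, sigma_pow]
    simp

/-! ### The transfer -/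

/-- `δ' ↦ ∑ i, φ (ε_i(δ'))` -/
noncomputable def corFun (A : Type*) [AddCommGroup A] (φ : Additive Γ →+ A) :
    Additive Γ' →+ A where
  toFun δ := ∑ i, φ (Additive.ofMul (S.eps (Additive.toMul δ) i))
  map_zero' := by simp [eps_one]
  map_add' δ₁ δ₂ := by
    simp only [toMul_add, eps_mul', ofMul_mul, map_add, Finset.sum_add_distrib]
    congr 1
    exact Equiv.sum_comp (S.sigma (Additive.toMul δ₁))
      (fun i => φ (Additive.ofMul (S.eps (Additive.toMul δ₂) i)))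

/-- the transfer `Hom(Γ, A) → Hom(Γ', A)` of a two-group coset system -/
noncomputable def cor (A : Type*) [AddCommGroup A] :
    (Additive Γ →+ A) →+ (Additive Γ' →+ A) where
  toFun := S.corFun A
  map_zero' := by ext; simp [corFun]
  map_add' φ ψ := by ext; simp [corFun, Finset.sum_add_distrib]

theorem cor_apply (A : Type*) [AddCommGroup A] (φ : Additive Γ →+ A) (δ : Γ') :
    S.cor A φ (Additive.ofMul δ) = ∑ i, φ (Additive.ofMul (S.eps δ i)) := rfl

/-- the `R`-linear version -/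
noncomputable def corLin (R : Type*) [Semiring R] (A : Type*) [AddCommGroup A] [Module R A] :
    (Additive Γ →+ A) →ₗ[R] (Additive Γ' →+ A) where
  toFun := S.cor A
  map_add' := map_add _
  map_smul' c φ := by
    ext δ
    show S.cor A (c • φ) (Additive.ofMul δ) = c • S.cor A φ (Additive.ofMul δ)
    rw [cor_apply, cor_apply, Finset.smul_sum]; rfl

@[simp] theorem corLin_apply (R : Type*) [Semiring R] (A : Type*) [AddCommGroup A] [Module R A]
    (φ : Additive Γ →+ A) : S.corLin R A φ = S.cor A φ := rfl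

/-! ### The cycle argument -/

theorem eps_pow_of_fixed {δ : Γ'} {i : ι} (h : S.sigma δ i = i) (n : ℕ) :
    S.eps (δ ^ n) i = S.eps δ i ^ n := by
  induction n with
  | zero => rw [pow_zero, pow_zero, eps_one]
  | succ n ih =>
    have hn : S.sigma (δ ^ n) i = i := by
      rw [sigma_pow]
      exact Equiv.Perm.pow_apply_eq_self_of_apply_eq_self h n
    rw [pow_succ, eps_mul', ih, hn, pow_succ]

theorem cor_apply_eq_zero_of_cycle {A : Type*} [AddCommGroup A] (φ : Additive Γ →+ A) (δ : Γ')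
    (P : Γ → Prop) (hφ : ∀ γ, P γ → φ (Additive.ofMul γ) = 0)
    (hP : ∀ (c : ℕ) (i : ι), 0 < c → S.sigma (δ ^ c) i = i → P (S.eps (δ ^ c) i)) :
    S.cor A φ (Additive.ofMul δ) = 0 := by
  rw [cor_apply]
  refine tdm_sum_eq_zero_of_cycles (S.sigma δ) _ fun i => ?_
  set c := Function.minimalPeriod (S.sigma δ) i with hc
  have hper : i ∈ Function.periodicPts (S.sigma δ) := by
    refine Function.mk_mem_periodicPts (orderOf_pos (S.sigma δ)) ?_
    show (⇑(S.sigma δ))^[orderOf (S.sigma δ)] i = i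
    rw [Equiv.Perm.iterate_eq_pow, pow_orderOf_eq_one]; rfl
  have hc0 : 0 < c := Function.minimalPeriod_pos_of_mem_periodicPts hper
  have hci : S.sigma (δ ^ c) i = i := by
    rw [sigma_pow]
    have := Function.iterate_minimalPeriod (f := S.sigma δ) (x := i)
    rwa [Equiv.Perm.iterate_eq_pow] at this
  have h1 : ∑ k ∈ Finset.range c, φ (Additive.ofMul (S.eps δ ((S.sigma δ ^ k) i)))
      = φ (Additive.ofMul (S.eps (δ ^ c) i)) := by
    rw [eps_pow, ofMul_list_prod, map_list_sum, List.map_map, List.map_map,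
      ← List.sum_toFinset _ (List.nodup_range), List.toFinset_range]
    rfl
  rw [h1]
  exact hφ _ (hP c i hc0 hci)

theorem trace_eps_of_fixed {δ : Γ'} {i : ι} (h : S.sigma δ i = i) :
    ((S.eps δ i : SL(2, ℤ)) : Matrix (Fin 2) (Fin 2) ℤ).trace
      = ((δ : SL(2, ℤ)) : Matrix (Fin 2) (Fin 2) ℤ).trace := by
  have := S.rep_mul δ i
  rw [h] at this
  exact tdm_trace_eq_of_conj (S.det_ne_zero i) this

/-- the transfer preserves parabolic homomorphisms -/
theorem cor_parabolic {A : Type*} [AddCommGroup A] {φ : Additive Γ →+ A}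
    (hφ : IsParabolicHom Γ φ) : IsParabolicHom Γ' (S.cor A φ) := by
  intro δ hδ
  refine S.cor_apply_eq_zero_of_cycle φ δ
    (fun γ => ((γ : SL(2, ℤ)) : Matrix (Fin 2) (Fin 2) ℤ).trace ^ 2 = 4) hφ ?_
  intro c i _ hci
  show ((S.eps (δ ^ c) i : SL(2, ℤ)) : Matrix (Fin 2) (Fin 2) ℤ).trace ^ 2 = 4
  rw [S.trace_eps_of_fixed hci, Subgroup.coe_pow, Matrix.SpecialLinearGroup.coe_pow]
  exact tdm_trace_pow_sq (δ : SL(2, ℤ)).2 hδ c

theorem corLin_mem_parabolicHoms (R : Type*) [Semiring R] {A : Type*} [AddCommGroup A]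
    [Module R A] {φ : Additive Γ →+ A} (hφ : φ ∈ parabolicHoms R Γ A) :
    S.corLin R A φ ∈ parabolicHoms R Γ' A :=
  S.cor_parabolic hφ

/-- the transfer on the parabolic homomorphisms -/
noncomputable def corPar (R : Type*) [Semiring R] (A : Type*) [AddCommGroup A] [Module R A] :
    ↥(parabolicHoms R Γ A) →ₗ[R] ↥(parabolicHoms R Γ' A) :=
  ((S.corLin R A).comp (parabolicHoms R Γ A).subtype).codRestrict (parabolicHoms R Γ' A)
    fun φ => S.corLin_mem_parabolicHoms R φ.2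

@[simp] theorem corPar_coe (R : Type*) [Semiring R] (A : Type*) [AddCommGroup A] [Module R A]
    (φ : ↥(parabolicHoms R Γ A)) :
    ((S.corPar R A φ : ↥(parabolicHoms R Γ' A)) : Additive Γ' →+ A) = S.cor A φ := rfl

/-- construction from pairwise inequivalent representatives -/
def ofInequiv (rep : ι → Matrix (Fin 2) (Fin 2) ℤ) (det_pos : ∀ i, 0 < (rep i).det)
    (inequiv : ∀ (i j : ι) (γ : Γ),
      ((γ : SL(2, ℤ)) : Matrix (Fin 2) (Fin 2) ℤ) * rep i = rep j → i = j)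
    (ex : ∀ (δ : Γ') (i : ι), ∃ j : ι, ∃ ε : Γ,
      rep i * ((δ : SL(2, ℤ)) : Matrix (Fin 2) (Fin 2) ℤ)
        = ((ε : SL(2, ℤ)) : Matrix (Fin 2) (Fin 2) ℤ) * rep j) : T2fSys₂ Γ Γ' ι where
  rep := rep
  det_pos := det_pos
  perm δ i := by
    obtain ⟨j, ε, h⟩ := ex δ i
    refine ⟨j, ⟨ε, h⟩, ?_⟩
    rintro j' ⟨ε', h'⟩
    have : (((ε⁻¹ * ε' : Γ) : SL(2, ℤ)) : Matrix (Fin 2) (Fin 2) ℤ) * rep j' = rep j := by
      rw [Subgroup.coe_mul, Matrix.SpecialLinearGroup.coe_mul, Matrix.mul_assoc, ← h', h,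
        ← Matrix.mul_assoc, ← Matrix.SpecialLinearGroup.coe_mul, ← Subgroup.coe_mul,
        inv_mul_cancel, Subgroup.coe_one, Matrix.SpecialLinearGroup.coe_one, Matrix.one_mul]
    exact inequiv j' j _ this

end T2fSys₂

/-! ### Restriction -/

section Res

variable {Γ Γ' : Subgroup SL(2, ℤ)} (hΓ : Γ ≤ Γ')

/-- restriction `Hom(Γ', A) → Hom(Γ, A)` -/
def t2fRes (A : Type*) [AddCommGroup A] : (Additive Γ' →+ A) →+ (Additive Γ →+ A) where
  toFun φ := φ.comp (MonoidHom.toAdditive (Subgroup.inclusion hΓ))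
  map_zero' := rfl
  map_add' _ _ := rfl

theorem t2fRes_apply (A : Type*) [AddCommGroup A] (φ : Additive Γ' →+ A) (δ : Γ) :
    t2fRes hΓ A φ (Additive.ofMul δ) = φ (Additive.ofMul (Subgroup.inclusion hΓ δ)) := rfl

theorem t2fRes_parabolic {A : Type*} [AddCommGroup A] {φ : Additive Γ' →+ A}
    (hφ : IsParabolicHom Γ' φ) : IsParabolicHom Γ (t2fRes hΓ A φ) :=
  fun δ hδ => hφ (Subgroup.inclusion hΓ δ) hδ

/-- restriction on the parabolic homomorphisms -/
def t2fResPar (R : Type*) [Semiring R] (A : Type*) [AddCommGroup A] [Module R A] :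
    ↥(parabolicHoms R Γ' A) →ₗ[R] ↥(parabolicHoms R Γ A) where
  toFun φ := ⟨t2fRes hΓ A φ, t2fRes_parabolic hΓ φ.2⟩
  map_add' _ _ := rfl
  map_smul' _ _ := rfl

@[simp] theorem t2fResPar_coe (R : Type*) [Semiring R] (A : Type*) [AddCommGroup A] [Module R A]
    (φ : ↥(parabolicHoms R Γ' A)) :
    ((t2fResPar hΓ R A φ : ↥(parabolicHoms R Γ A)) : Additive Γ →+ A) = t2fRes hΓ A φ := rfl

end Res

end Fermat.Agent.T2
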