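/-
T2-F (F5, helper1), part 3: **the transfer for `Γ₀(N' q) ⊂ Γ₀(N')`** (`q` prime, `q ∤ N'`).

* `t2fSysC N' q h`: the two-group coset system with representatives `1` and
  `γ_b = [[a, a b + 1], [N' c, N' c b + q]]` (`b < q`; `q a − N' c = 1`, `W_q · [[1,b],[0,q]] = q γ_b`);
* `t2f5_res_cor`: `res ∘ cor = 1 + U_q ∘ w_q` on `Hom(Γ₀(N' q), A)`;
* `t2f5_cor_res`: `cor ∘ res = q + 1` on `Hom(Γ₀(N'), A)`;
* `t2f5_res_T`: `res ∘ T_l = T_l ∘ res`.
-/
import Mathlib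
import Fermat.Agent.Lib.T2.F.AL
import Fermat.Agent.Lib.T2.F.Coset2

set_option autoImplicit false
set_option linter.unusedSectionVars false
set_option linter.unusedVariables false
set_option linter.style.haveILetI false

open Matrix MatrixGroups CongruenceSubgroup Fermat.Agent.T1 ModularCurve Fermat.Agent.S24Lib
  ModularCurve.Period

namespace Fermat.Agent.T2

section Reps

variable (N' q : ℕ) [NeZero N'] [hq : Fact q.Prime] (h : ¬ q ∣ N')

theorem t2f5_Gamma0_le : Gamma0 (N' * q) ≤ Gamma0 N' := by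
  intro γ hγ
  rw [tdm_mem_Gamma0_iff] at hγ ⊢
  exact Dvd.dvd.trans (by push_cast; exact Dvd.intro _ rfl) hγ

/-- the matrix `γ_b = [[a, a b + 1], [N' c, N' c b + q]]` -/
def t2fGamMat (a c : ℤ) (b : ℤ) : Matrix (Fin 2) (Fin 2) ℤ :=
  !![a, a * b + 1; (N' : ℤ) * c, N' * c * b + q]

theorem t2fGamMat_det (a c : ℤ) (hac : (q : ℤ) * a - N' * c = 1) (b : ℤ) :
    (t2fGamMat N' q a c b).det = 1 := by
  rw [t2fGamMat, Matrix.det_fin_two_of]
  linear_combination hac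

/-- `W_q · [[1, b], [0, q]] = q · γ_b` -/
theorem t2f5_W_mul_U (a c : ℤ) (b : ℤ) :
    t2wMat N' q a c * !![1, b; 0, (q : ℤ)] = (q : ℤ) • t2fGamMat N' q a c b := by
  rw [t2wMat, t2fGamMat]
  ext i j
  fin_cases i <;> fin_cases j <;> simp [Matrix.mul_apply, Fin.sum_univ_two] <;> ring

/-- the representatives of `Γ₀(N' q) \ Γ₀(N')`, as elements of `Γ₀(N')` -/
noncomputable def t2fRepC : Option (Fin q) → Gamma0 N'
  | none => 1
  | some b => ⟨⟨t2fGamMat N' q (t2wA N' q) (t2wC N' q) ((b : ℕ) : ℤ),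
      t2fGamMat_det N' q _ _ (t2w_bezout N' q hq.out h) _⟩,
      (tdm_mem_Gamma0_iff _).mpr (by
        show (N' : ℤ) ∣ t2fGamMat N' q (t2wA N' q) (t2wC N' q) ((b : ℕ) : ℤ) 1 0
        simp [t2fGamMat])⟩

theorem t2fRepC_none : t2fRepC N' q h none = 1 := rfl

theorem t2fRepC_some (b : Fin q) :
    (((t2fRepC N' q h (some b) : Gamma0 N') : SL(2, ℤ)) : Matrix (Fin 2) (Fin 2) ℤ)
      = t2fGamMat N' q (t2wA N' q) (t2wC N' q) ((b : ℕ) : ℤ) := rfl

/-- every element of `Γ₀(N')` lies in `Γ₀(N' q) · γ_j` for some `j` -/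
theorem t2f5_exists_repC (g : Gamma0 N') :
    ∃ j : Option (Fin q), ∃ ε : Gamma0 (N' * q),
      (g : SL(2, ℤ)) = (ε : SL(2, ℤ)) * (t2fRepC N' q h j : SL(2, ℤ)) := by
  have hqp : Prime (q : ℤ) := Nat.prime_iff_prime_int.mp hq.out
  have hN : (N' : ℤ) ∣ (g : SL(2, ℤ)) 1 0 := (tdm_mem_Gamma0_iff _).mp g.2
  by_cases hq10 : (q : ℤ) ∣ (g : SL(2, ℤ)) 1 0
  · refine ⟨none, ⟨(g : SL(2, ℤ)), (tdm_mem_Gamma0_iff _).mpr ?_⟩, ?_⟩
    · have hcop : IsCoprime (N' : ℤ) (q : ℤ) := by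
        rw [isCoprime_comm, hqp.irreducible.coprime_iff_not_dvd]
        exact fun h' => h (Int.natCast_dvd_natCast.mp h')
      push_cast
      exact hcop.mul_dvd hN hq10
    · rw [t2fRepC_none]; simp
  · have hcop : IsCoprime ((g : SL(2, ℤ)) 1 0) (q : ℤ) := by
      rw [isCoprime_comm, hqp.irreducible.coprime_iff_not_dvd]; exact hq10
    obtain ⟨b, hb⟩ := tdm_exists_aff_sol hq.out.ne_zero hcop ((g : SL(2, ℤ)) 1 1)
    set γ : SL(2, ℤ) := (t2fRepC N' q h (some b) : SL(2, ℤ)) with hγ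
    refine ⟨some b, ⟨(g : SL(2, ℤ)) * γ⁻¹, (tdm_mem_Gamma0_iff _).mpr ?_⟩, ?_⟩
    · have h10 : ((g : SL(2, ℤ)) * γ⁻¹) 1 0
          = (N' : ℤ) * t2wC N' q * (((b : ℕ) : ℤ) * (g : SL(2, ℤ)) 1 0 - (g : SL(2, ℤ)) 1 1)
            + q * (g : SL(2, ℤ)) 1 0 := by
        rw [Matrix.SpecialLinearGroup.coe_mul, Matrix.SpecialLinearGroup.coe_inv,
          Matrix.adjugate_fin_two]
        have e11 : γ.1 1 1 = (N' : ℤ) * t2wC N' q * ((b : ℕ) : ℤ) + q := by
          show t2fGamMat N' q _ _ _ 1 1 = _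
          simp [t2fGamMat]
        have e10 : γ.1 1 0 = (N' : ℤ) * t2wC N' q := by
          show t2fGamMat N' q _ _ _ 1 0 = _
          simp [t2fGamMat]
        simp only [Matrix.mul_apply, Fin.sum_univ_two]
        simp [e11, e10]
        ring
      rw [h10]
      obtain ⟨m, hm⟩ := hN
      obtain ⟨k, hk⟩ := hb
      push_cast
      refine ⟨-(t2wC N' q * k) + m, ?_⟩
      linear_combination (-(N' : ℤ) * t2wC N' q) * hk + (q : ℤ) * hm
    · show (g : SL(2, ℤ)) = (g : SL(2, ℤ)) * γ⁻¹ * γ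
      rw [inv_mul_cancel_right]

/-- the representatives are pairwise `Γ₀(N' q)`-inequivalent -/
theorem t2f5_repC_inequiv (i j : Option (Fin q)) (γ : Gamma0 (N' * q))
    (hγ : ((γ : SL(2, ℤ)) : Matrix (Fin 2) (Fin 2) ℤ)
      * (((t2fRepC N' q h i : Gamma0 N') : SL(2, ℤ)) : Matrix (Fin 2) (Fin 2) ℤ)
      = (((t2fRepC N' q h j : Gamma0 N') : SL(2, ℤ)) : Matrix (Fin 2) (Fin 2) ℤ)) : i = j := by
  have hbez := t2w_bezout N' q hq.out h
  obtain ⟨t, ht⟩ : (q : ℤ) ∣ ((γ : SL(2, ℤ)) : Matrix (Fin 2) (Fin 2) ℤ) 1 0 := by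
    have := (tdm_mem_Gamma0_iff _).mp γ.2
    exact Dvd.dvd.trans (by push_cast; exact Dvd.intro_left _ rfl) this
  set G := ((γ : SL(2, ℤ)) : Matrix (Fin 2) (Fin 2) ℤ) with hG
  rcases i with _ | b <;> rcases j with _ | b'
  · rfl
  · exfalso
    rw [t2fRepC_none, t2fRepC_some] at hγ
    have h10 := congrFun (congrFun hγ 1) 0
    simp [t2fGamMat, Matrix.mul_apply, Fin.sum_univ_two] at h10
    apply tdm_not_mul_eq_one hq.out.two_le (t2wA N' q - t)
    rw [ht] at h10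
    linear_combination hbez - h10
  · exfalso
    rw [t2fRepC_none, t2fRepC_some] at hγ
    have h10 := congrFun (congrFun hγ 1) 0
    have h11 := congrFun (congrFun hγ 1) 1
    simp [t2fGamMat, Matrix.mul_apply, Fin.sum_univ_two] at h10 h11
    apply tdm_not_mul_eq_one hq.out.two_le (t + G 1 1)
    rw [ht] at h10 h11
    linear_combination h11 - ((b : ℕ) : ℤ) * h10
  · rw [t2fRepC_some, t2fRepC_some] at hγ
    have h10 := congrFun (congrFun hγ 1) 0
    have h11 := congrFun (congrFun hγ 1) 1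
    simp [t2fGamMat, Matrix.mul_apply, Fin.sum_univ_two] at h10 h11
    rw [ht] at h10 h11
    refine congrArg some (tdm_fin_eq_of_emod b b'
      (t2wA N' q * (((b' : ℕ) : ℤ) - ((b : ℕ) : ℤ)) - t - G 1 1 + 1) ?_)
    linear_combination (((b : ℕ) : ℤ) - ((b' : ℕ) : ℤ)) * hbez + h11 - ((b : ℕ) : ℤ) * h10

/-- **the two-group coset system of `Γ₀(N' q) ⊂ Γ₀(N')`** -/
noncomputable def t2fSysC : T2fSys₂ (Gamma0 (N' * q)) (Gamma0 N') (Option (Fin q)) :=
  T2fSys₂.ofInequiv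
    (fun i => (((t2fRepC N' q h i : Gamma0 N') : SL(2, ℤ)) : Matrix (Fin 2) (Fin 2) ℤ))
    (fun i => by rw [(t2fRepC N' q h i : SL(2, ℤ)).2]; exact one_pos)
    (t2f5_repC_inequiv N' q h)
    (fun δ i => by
      obtain ⟨j, ε, hε⟩ := t2f5_exists_repC N' q h (t2fRepC N' q h i * δ)
      refine ⟨j, ε, ?_⟩
      have := congrArg (fun x : SL(2, ℤ) => (x : Matrix (Fin 2) (Fin 2) ℤ)) hε
      simpa only [Subgroup.coe_mul, Matrix.SpecialLinearGroup.coe_mul] using this)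

@[simp] theorem t2fSysC_rep (i : Option (Fin q)) :
    (t2fSysC N' q h).rep i
      = (((t2fRepC N' q h i : Gamma0 N') : SL(2, ℤ)) : Matrix (Fin 2) (Fin 2) ℤ) := rfl

end Reps

section Identities

variable (N' q : ℕ) [NeZero N'] [hq : Fact q.Prime] (h : ¬ q ∣ N')
  {A : Type*} [AddCommGroup A]

/-- **`cor ∘ res = q + 1`** -/
theorem t2f5_cor_res (φ : Additive (Gamma0 N') →+ A) :
    (t2fSysC N' q h).cor A (t2fRes (t2f5_Gamma0_le N' q) A φ) = (q + 1) • φ := by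
  set C := t2fSysC N' q h with hC
  refine AddMonoidHom.ext fun δ' => ?_
  obtain ⟨δ, rfl⟩ := Additive.ofMul.surjective δ'
  rw [T2fSys₂.cor_apply]
  have key : ∀ i, t2fRes (t2f5_Gamma0_le N' q) A φ (Additive.ofMul (C.eps δ i))
      = (φ (Additive.ofMul (t2fRepC N' q h i)) + φ (Additive.ofMul δ))
        - φ (Additive.ofMul (t2fRepC N' q h (C.sigma δ i))) := by
    intro i
    rw [t2fRes_apply]
    have h1 : t2fRepC N' q h i * δ
        = Subgroup.inclusion (t2f5_Gamma0_le N' q) (C.eps δ i) * t2fRepC N' q h (C.sigma δ i) := by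
      apply Subtype.ext
      apply Subtype.ext
      rw [Subgroup.coe_mul, Subgroup.coe_mul, Matrix.SpecialLinearGroup.coe_mul,
        Matrix.SpecialLinearGroup.coe_mul]
      exact C.rep_mul δ i
    have h2 := congrArg (fun g : Gamma0 N' => φ (Additive.ofMul g)) h1
    simp only [ofMul_mul, map_add] at h2
    rw [eq_sub_iff_add_eq]
    exact h2.symm
  rw [Finset.sum_congr rfl fun i _ => key i, Finset.sum_sub_distrib, Finset.sum_add_distrib,
    Equiv.sum_comp (C.sigma δ) (fun i => φ (Additive.ofMul (t2fRepC N' q h i))),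
    add_sub_cancel_left, Finset.sum_const, Finset.card_univ, Fintype.card_option,
    Fintype.card_fin]
  rfl

/-- **`res ∘ T_l = T_l ∘ res`** -/
theorem t2f5_res_T (l : ℕ) (hl : l.Prime) (hlN : ¬ l ∣ N' * q) (hlN' : ¬ l ∣ N')
    (φ : Additive (Gamma0 N') →+ A) :
    t2fRes (t2f5_Gamma0_le N' q) A ((tdmSysT N' l hl hlN').hom A φ)
      = (tdmSysT (N' * q) l hl hlN).hom A (t2fRes (t2f5_Gamma0_le N' q) A φ) := by
  set T := tdmSysT (N' * q) l hl hlN with hT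
  set T' := tdmSysT N' l hl hlN' with hT'
  refine AddMonoidHom.ext fun δ' => ?_
  obtain ⟨δ, rfl⟩ := Additive.ofMul.surjective δ'
  rw [t2fRes_apply, tdmCosetSys.hom_apply, tdmCosetSys.hom_apply]
  refine Finset.sum_congr rfl fun i _ => ?_
  rw [t2fRes_apply]
  have h1 : T'.rep i * (((Subgroup.inclusion (t2f5_Gamma0_le N' q) δ : Gamma0 N') : SL(2, ℤ)) :
        Matrix (Fin 2) (Fin 2) ℤ)
      = (((Subgroup.inclusion (t2f5_Gamma0_le N' q) (T.eps δ i) : Gamma0 N') : SL(2, ℤ)) :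
        Matrix (Fin 2) (Fin 2) ℤ) * T'.rep (T.sigma δ i) := T.rep_mul δ i
  rw [(T'.eq_of_rep_mul h1).2]

/-- **`res ∘ cor = 1 + U_q ∘ w_q`** -/
theorem t2f5_res_cor (φ : Additive (Gamma0 (N' * q)) →+ A) :
    t2fRes (t2f5_Gamma0_le N' q) A ((t2fSysC N' q h).cor A φ)
      = φ + (tdmSysU (N' * q) q (Dvd.intro_left N' rfl) hq.out.ne_zero).hom A
          ((t2fSysW N' q h).hom A φ) := by
  set C := t2fSysC N' q h with hC
  set U := tdmSysU (N' * q) q (Dvd.intro_left N' rfl) hq.out.ne_zero with hU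
  set V := t2fSysW N' q h with hV
  set W := t2wMat N' q (t2wA N' q) (t2wC N' q) with hW
  refine AddMonoidHom.ext fun δ' => ?_
  obtain ⟨δ, rfl⟩ := Additive.ofMul.surjective δ'
  have hq0 : (q : ℤ) ≠ 0 := by exact_mod_cast hq.out.ne_zero
  -- the cocycle at `none`
  have hnone : C.eps (Subgroup.inclusion (t2f5_Gamma0_le N' q) δ) none = δ := by
    have h1 : C.rep none * (((Subgroup.inclusion (t2f5_Gamma0_le N' q) δ : Gamma0 N') :
          SL(2, ℤ)) : Matrix (Fin 2) (Fin 2) ℤ)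
        = ((δ : SL(2, ℤ)) : Matrix (Fin 2) (Fin 2) ℤ) * C.rep none := by
      rw [t2fSysC_rep, t2fRepC_none]
      simp
    exact ((C.eq_of_rep_mul h1).2).symm
  -- the cocycle at `some b`
  have hsome : ∀ b : Fin q, C.eps (Subgroup.inclusion (t2f5_Gamma0_le N' q) δ) (some b)
      = V.eps (U.eps δ b) () := by
    intro b
    have hU1 : tdmRepU q b * ((δ : SL(2, ℤ)) : Matrix (Fin 2) (Fin 2) ℤ)
        = ((U.eps δ b : SL(2, ℤ)) : Matrix (Fin 2) (Fin 2) ℤ) * tdmRepU q (U.sigma δ b) :=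
      U.rep_mul δ b
    have hV1 : W * ((U.eps δ b : SL(2, ℤ)) : Matrix (Fin 2) (Fin 2) ℤ)
        = ((V.eps (U.eps δ b) () : SL(2, ℤ)) : Matrix (Fin 2) (Fin 2) ℤ) * W :=
      V.rep_mul (U.eps δ b) ()
    have hWU : ∀ b' : Fin q, W * tdmRepU q b'
        = (q : ℤ) • t2fGamMat N' q (t2wA N' q) (t2wC N' q) ((b' : ℕ) : ℤ) :=
      fun b' => t2f5_W_mul_U N' q _ _ _
    have h1 : (q : ℤ) • (C.rep (some b) * (((Subgroup.inclusion (t2f5_Gamma0_le N' q) δ :
          Gamma0 N') : SL(2, ℤ)) : Matrix (Fin 2) (Fin 2) ℤ))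
        = (q : ℤ) • (((V.eps (U.eps δ b) () : SL(2, ℤ)) : Matrix (Fin 2) (Fin 2) ℤ)
          * C.rep (some (U.sigma δ b))) := by
      rw [t2fSysC_rep, t2fSysC_rep, t2fRepC_some, t2fRepC_some, ← Matrix.smul_mul, ← hWU b,
        ← Matrix.mul_smul, ← hWU (U.sigma δ b), ← Matrix.mul_assoc, ← hV1, Matrix.mul_assoc,
        Matrix.mul_assoc]
      congr 1
    have h2 := smul_right_injective (Matrix (Fin 2) (Fin 2) ℤ) hq0 h1
    exact ((C.eq_of_rep_mul h2).2).symm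
  rw [t2fRes_apply, T2fSys₂.cor_apply, Fintype.sum_option, hnone, AddMonoidHom.add_apply,
    tdmCosetSys.hom_apply]
  congr 1
  refine Finset.sum_congr rfl fun b _ => ?_
  rw [hsome b, tdmCosetSys.hom_apply, Finset.univ_unique, Finset.sum_singleton]

end Identities

end Fermat.Agent.T2
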