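/-
T2-F (F5, helper1), part 2: **`w_q` commutes with `T_l`** (`l ∤ N' q`) on `Hom(Γ₀(N' q), A)` and on
the Tate module: `t2f_WT : T2fWT`.

Method: `W T_i = u_i T_{τ i} W` with `u_i ∈ Γ₀(N' q)` and a permutation `τ` of the index set of the
coset system of `T_l` (every integral matrix of determinant `l` with `N ∣ c` lies in a unique coset
`Γ₀(N) T_j`), then the usual reindexing argument.
-/
import Mathlib
import Fermat.Agent.Lib.T2.F.AL
import Fermat.Agent.Lib.T1.Mono.Final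

set_option autoImplicit false
set_option linter.unusedSectionVars false
set_option linter.unusedVariables false
set_option linter.style.haveILetI false

open scoped TensorProduct
open Matrix MatrixGroups CongruenceSubgroup Fermat.Agent.T1 ModularCurve Fermat.Agent.S24Lib
  ModularCurve.Period

namespace Fermat.Agent.T2

/-! ### Generalities on coset systems -/

section Gen

variable {Γ : Subgroup SL(2, ℤ)} {ι : Type} [Fintype ι] (S : tdmCosetSys Γ ι)

/-- representatives are inequivalent: `g₁ rep j₁ = g₂ rep j₂` forces `j₁ = j₂`, `g₁ = g₂` -/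
theorem t2f5_eq_of_mul_rep_eq {g₁ g₂ : Γ} {j₁ j₂ : ι}
    (h : ((g₁ : SL(2, ℤ)) : Matrix (Fin 2) (Fin 2) ℤ) * S.rep j₁
      = ((g₂ : SL(2, ℤ)) : Matrix (Fin 2) (Fin 2) ℤ) * S.rep j₂) : j₁ = j₂ ∧ g₁ = g₂ := by
  have h1 : S.rep j₁ * (((1 : Γ) : SL(2, ℤ)) : Matrix (Fin 2) (Fin 2) ℤ)
      = (((g₁⁻¹ * g₂ : Γ) : SL(2, ℤ)) : Matrix (Fin 2) (Fin 2) ℤ) * S.rep j₂ := by
    rw [Subgroup.coe_one, Matrix.SpecialLinearGroup.coe_one, Matrix.mul_one, Subgroup.coe_mul,
      Matrix.SpecialLinearGroup.coe_mul, Matrix.mul_assoc, ← h, ← Matrix.mul_assoc,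
      ← Matrix.SpecialLinearGroup.coe_mul, ← Subgroup.coe_mul, inv_mul_cancel, Subgroup.coe_one,
      Matrix.SpecialLinearGroup.coe_one, Matrix.one_mul]
  obtain ⟨hj, hε⟩ := S.eq_of_rep_mul h1
  rw [S.sigmaFun_one] at hj
  rw [S.eps_one] at hε
  exact ⟨hj.symm, (inv_mul_eq_one.mp hε)⟩

variable (V : tdmCosetSys Γ Unit)

/-- **commutation of a one-element coset system with a coset system**, given
`W rep_i = u_i rep_{τ i} W` -/
theorem t2f5_hom_comm (τ : ι ≃ ι) (u : ι → Γ)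
    (hu : ∀ i, V.rep () * S.rep i
      = ((u i : SL(2, ℤ)) : Matrix (Fin 2) (Fin 2) ℤ) * S.rep (τ i) * V.rep ())
    {A : Type*} [AddCommGroup A] (φ : Additive Γ →+ A) :
    S.hom A (V.hom A φ) = V.hom A (S.hom A φ) := by
  refine AddMonoidHom.ext fun δ' => ?_
  obtain ⟨δ, rfl⟩ := Additive.ofMul.surjective δ'
  set W := V.rep () with hW
  have hWdet : W.det ≠ 0 := V.det_ne_zero ()
  -- the key identity
  have key : ∀ i, V.eps (S.eps δ i) () * u (S.sigma δ i) = u i * S.eps (V.eps δ ()) (τ i) ∧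
      τ (S.sigma δ i) = S.sigma (V.eps δ ()) (τ i) := by
    intro i
    have hV1 : W * (((S.eps δ i : Γ) : SL(2, ℤ)) : Matrix (Fin 2) (Fin 2) ℤ)
        = (((V.eps (S.eps δ i) () : Γ) : SL(2, ℤ)) : Matrix (Fin 2) (Fin 2) ℤ) * W :=
      V.rep_mul (S.eps δ i) ()
    have hV2 : W * ((δ : SL(2, ℤ)) : Matrix (Fin 2) (Fin 2) ℤ)
        = (((V.eps δ () : Γ) : SL(2, ℤ)) : Matrix (Fin 2) (Fin 2) ℤ) * W := V.rep_mul δ ()
    have h1 : W * S.rep i * ((δ : SL(2, ℤ)) : Matrix (Fin 2) (Fin 2) ℤ)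
        = (((V.eps (S.eps δ i) () * u (S.sigma δ i) : Γ) : SL(2, ℤ)) : Matrix (Fin 2) (Fin 2) ℤ)
          * S.rep (τ (S.sigma δ i)) * W := by
      rw [Matrix.mul_assoc, S.rep_mul δ i, ← Matrix.mul_assoc, hV1, Matrix.mul_assoc, hu,
        Subgroup.coe_mul, Matrix.SpecialLinearGroup.coe_mul]
      simp only [Matrix.mul_assoc]
    have h2 : W * S.rep i * ((δ : SL(2, ℤ)) : Matrix (Fin 2) (Fin 2) ℤ)
        = (((u i * S.eps (V.eps δ ()) (τ i) : Γ) : SL(2, ℤ)) : Matrix (Fin 2) (Fin 2) ℤ)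
          * S.rep (S.sigma (V.eps δ ()) (τ i)) * W := by
      rw [hu, Matrix.mul_assoc, hV2, ← Matrix.mul_assoc, Matrix.mul_assoc _ (S.rep (τ i)),
        S.rep_mul (V.eps δ ()) (τ i), Subgroup.coe_mul, Matrix.SpecialLinearGroup.coe_mul]
      simp only [Matrix.mul_assoc]
    have h3 := tdm_mul_right_cancel hWdet (h1.symm.trans h2)
    obtain ⟨hj, hg⟩ := t2f5_eq_of_mul_rep_eq S h3
    exact ⟨hg, hj⟩
  have hV : ∀ (ψ : Additive Γ →+ A) (g : Γ),
      V.hom A ψ (Additive.ofMul g) = ψ (Additive.ofMul (V.eps g ())) := by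
    intro ψ g
    rw [tdmCosetSys.hom_apply, Finset.univ_unique, Finset.sum_singleton]
  have hL : S.hom A (V.hom A φ) (Additive.ofMul δ)
      = ∑ i, V.hom A φ (Additive.ofMul (S.eps δ i)) := tdmCosetSys.hom_apply S A _ δ
  have hR : V.hom A (S.hom A φ) (Additive.ofMul δ)
      = ∑ i, φ (Additive.ofMul (S.eps (V.eps δ ()) (τ i))) := by
    rw [hV, tdmCosetSys.hom_apply]
    exact (Equiv.sum_comp τ (fun i => φ (Additive.ofMul (S.eps (V.eps δ ()) i)))).symm
  have h1 : ∀ i, V.hom A φ (Additive.ofMul (S.eps δ i))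
      = (φ (Additive.ofMul (u i)) + φ (Additive.ofMul (S.eps (V.eps δ ()) (τ i))))
        - φ (Additive.ofMul (u (S.sigma δ i))) := by
    intro i
    rw [hV]
    have h2 := congrArg (fun g : Γ => φ (Additive.ofMul g)) (key i).1
    simp only [ofMul_mul, map_add] at h2
    rw [eq_sub_iff_add_eq]
    exact h2
  rw [hL, hR, Finset.sum_congr rfl fun i _ => h1 i, Finset.sum_sub_distrib,
    Finset.sum_add_distrib,
    Equiv.sum_comp (S.sigma δ) (fun i => φ (Additive.ofMul (u i))), add_sub_cancel_left]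

end Gen

/-! ### Matrix computations -/

/-- `W T = X W` for an upper triangular `T`, with `X` integral, `det X = det T`, `N' q ∣ X 1 0` -/
theorem t2f5_W_mul_tri (N' q : ℕ) (a c : ℤ) (h : (q : ℤ) * a - N' * c = 1) (x y z : ℤ) :
    ∃ X : Matrix (Fin 2) (Fin 2) ℤ, t2wMat N' q a c * !![x, y; 0, z] = X * t2wMat N' q a c ∧
      X.det = x * z ∧ ((N' * q : ℕ) : ℤ) ∣ X 1 0 := by
  refine ⟨!![(q : ℤ) * a * x - N' * c * (q * a * y + z), a * (-x + q * a * y + z);
      (N' : ℤ) * q * (c * (x - N' * c * y - z)), -(N' * c * x) + N' * q * a * c * y + q * a * z],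
    ?_, ?_, ?_⟩
  · rw [t2wMat]
    ext i j
    fin_cases i <;> fin_cases j <;> simp [Matrix.mul_apply, Fin.sum_univ_two]
    · linear_combination (-((q : ℤ) * a * x)) * h
    · linear_combination (-((q : ℤ) * a * y + z)) * h
    · linear_combination (-((N' : ℤ) * q * c * x)) * h
    · linear_combination (-((N' : ℤ) * q * c * y + q * z)) * h
  · rw [Matrix.det_fin_two_of]
    linear_combination (x * z * ((q : ℤ) * a - N' * c + 1)) * h
  · push_cast
    exact ⟨_, rfl⟩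

/-- every integral matrix of determinant `l` (prime, `l ∤ N`) with `N ∣ X 1 0` lies in
`Γ₀(N) T_j` for some `j` -/
theorem t2f5_exists_rep {N l : ℕ} (hl : l.Prime) (hlN : ¬ l ∣ N) (X : Matrix (Fin 2) (Fin 2) ℤ)
    (hdet : X.det = l) (hN : (N : ℤ) ∣ X 1 0) :
    ∃ j : Option (Fin l), ∃ ε : Gamma0 N,
      X = ((ε : SL(2, ℤ)) : Matrix (Fin 2) (Fin 2) ℤ) * tdmRepT l j := by
  have hlp : Prime (l : ℤ) := Nat.prime_iff_prime_int.mp hl
  have hl0 : (l : ℤ) ≠ 0 := by exact_mod_cast hl.ne_zero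
  rw [Matrix.det_fin_two] at hdet
  -- the second column is a multiple of the first modulo `l`, or the first column vanishes
  by_cases h00 : (l : ℤ) ∣ X 0 0
  · by_cases h10 : (l : ℤ) ∣ X 1 0
    · -- `X = ε diag(l, 1)`
      obtain ⟨s, hs⟩ := h00
      obtain ⟨t, ht⟩ := h10
      have hd : s * X 1 1 - X 0 1 * t = 1 := by
        apply mul_left_cancel₀ hl0
        rw [hs, ht] at hdet
        linear_combination hdet
      have hNt : (N : ℤ) ∣ t := by
        have hcop : IsCoprime (N : ℤ) (l : ℤ) := by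
          rw [isCoprime_comm, hlp.irreducible.coprime_iff_not_dvd]
          exact fun h => hlN (Int.natCast_dvd_natCast.mp h)
        rw [ht] at hN
        exact hcop.dvd_of_dvd_mul_left hN
      refine ⟨none, ⟨⟨!![s, X 0 1; t, X 1 1], by rw [Matrix.det_fin_two_of]; exact hd⟩,
        (tdm_mem_Gamma0_iff _).mpr (by simpa using hNt)⟩, ?_⟩
      ext i j
      fin_cases i <;> fin_cases j <;> simp [tdmRepT, Matrix.mul_apply, Fin.sum_univ_two]
      · rw [hs]; ring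
      · rw [ht]; ring
    · -- `b` with `X 1 1 ≡ b X 1 0`
      have hcop : IsCoprime (X 1 0) (l : ℤ) := by
        rw [isCoprime_comm, hlp.irreducible.coprime_iff_not_dvd]; exact h10
      obtain ⟨b, s, hs⟩ := tdm_exists_aff_sol hl.ne_zero hcop (X 1 1)
      have h01 : (l : ℤ) ∣ X 0 1 - ((b : ℕ) : ℤ) * X 0 0 := by
        have h1 : (l : ℤ) ∣ X 1 0 * (X 0 1 - ((b : ℕ) : ℤ) * X 0 0) := by
          refine ⟨X 0 0 * s - 1, ?_⟩
          linear_combination (-1 : ℤ) * hdet + X 0 0 * hs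
        exact (hlp.dvd_or_dvd h1).resolve_left h10
      obtain ⟨t, ht⟩ := h01
      have hd : X 0 0 * s - t * X 1 0 = 1 := by
        apply mul_left_cancel₀ hl0
        linear_combination hdet - X 0 0 * hs + X 1 0 * ht
      refine ⟨some b, ⟨⟨!![X 0 0, t; X 1 0, s], by rw [Matrix.det_fin_two_of]; exact hd⟩,
        (tdm_mem_Gamma0_iff _).mpr (by simpa using hN)⟩, ?_⟩
      ext i j
      fin_cases i <;> fin_cases j <;> simp [tdmRepT, Matrix.mul_apply, Fin.sum_univ_two]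
      · linear_combination ht
      · linear_combination hs
  · -- `b` with `X 0 1 ≡ b X 0 0`
    have hcop : IsCoprime (X 0 0) (l : ℤ) := by
      rw [isCoprime_comm, hlp.irreducible.coprime_iff_not_dvd]; exact h00
    obtain ⟨b, t, ht⟩ := tdm_exists_aff_sol hl.ne_zero hcop (X 0 1)
    have h11 : (l : ℤ) ∣ X 1 1 - ((b : ℕ) : ℤ) * X 1 0 := by
      have h1 : (l : ℤ) ∣ X 0 0 * (X 1 1 - ((b : ℕ) : ℤ) * X 1 0) := by
        refine ⟨1 + X 1 0 * t, ?_⟩
        linear_combination hdet + X 1 0 * ht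
      exact (hlp.dvd_or_dvd h1).resolve_left h00
    obtain ⟨s, hs⟩ := h11
    have hd : X 0 0 * s - t * X 1 0 = 1 := by
      apply mul_left_cancel₀ hl0
      linear_combination hdet - X 0 0 * hs + X 1 0 * ht
    refine ⟨some b, ⟨⟨!![X 0 0, t; X 1 0, s], by rw [Matrix.det_fin_two_of]; exact hd⟩,
      (tdm_mem_Gamma0_iff _).mpr (by simpa using hN)⟩, ?_⟩
    ext i j
    fin_cases i <;> fin_cases j <;> simp [tdmRepT, Matrix.mul_apply, Fin.sum_univ_two]
    · linear_combination ht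
    · linear_combination hs

/-! ### The Atkin–Lehner system and the Hecke system -/

section WT

variable (N' q : ℕ) [NeZero N'] [hq : Fact q.Prime] (h : ¬ q ∣ N')

include h in
/-- conjugation by `W_q` is surjective on `Γ₀(N' q)`: `g W = W g₀` -/
theorem t2f5_W_surj (g : Gamma0 (N' * q)) :
    ∃ g₀ : Gamma0 (N' * q),
      ((g : SL(2, ℤ)) : Matrix (Fin 2) (Fin 2) ℤ) * t2wMat N' q (t2wA N' q) (t2wC N' q)
        = t2wMat N' q (t2wA N' q) (t2wC N' q) * ((g₀ : SL(2, ℤ)) : Matrix (Fin 2) (Fin 2) ℤ) := by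
  set S := t2fSysW N' q h with hS
  set W := t2wMat N' q (t2wA N' q) (t2wC N' q) with hW
  obtain ⟨G, hG, hG10⟩ := t2f_W_sq N' q (t2wA N' q) (t2wC N' q) (t2w_bezout N' q hq.out h)
  set Gs : Gamma0 (N' * q) := ⟨G, (tdm_mem_Gamma0_iff G).mpr hG10⟩ with hGs
  have hWdet : W.det ≠ 0 := S.det_ne_zero ()
  have hWWdet : (W * W).det ≠ 0 := by
    rw [Matrix.det_mul]; exact mul_ne_zero hWdet hWdet
  set δ₀ : Gamma0 (N' * q) := Gs⁻¹ * g * Gs with hδ₀
  have hrep : ∀ δ : Gamma0 (N' * q), W * ((δ : SL(2, ℤ)) : Matrix (Fin 2) (Fin 2) ℤ)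
      = ((S.eps δ () : SL(2, ℤ)) : Matrix (Fin 2) (Fin 2) ℤ) * W := fun δ => S.rep_mul δ ()
  have h1 : W * W * ((δ₀ : SL(2, ℤ)) : Matrix (Fin 2) (Fin 2) ℤ)
      = ((S.eps (S.eps δ₀ ()) () : SL(2, ℤ)) : Matrix (Fin 2) (Fin 2) ℤ) * (W * W) := by
    rw [Matrix.mul_assoc, hrep δ₀, ← Matrix.mul_assoc, hrep (S.eps δ₀ ()), Matrix.mul_assoc]
  have h2 : W * W * ((δ₀ : SL(2, ℤ)) : Matrix (Fin 2) (Fin 2) ℤ)
      = ((g : SL(2, ℤ)) : Matrix (Fin 2) (Fin 2) ℤ) * (W * W) := by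
    have h3 : (G : Matrix (Fin 2) (Fin 2) ℤ) * ((δ₀ : SL(2, ℤ)) : Matrix (Fin 2) (Fin 2) ℤ)
        = ((g : SL(2, ℤ)) : Matrix (Fin 2) (Fin 2) ℤ) * (G : Matrix (Fin 2) (Fin 2) ℤ) := by
      have h4 : Gs * δ₀ = g * Gs := by
        rw [hδ₀]; group
      have h5 := congrArg (fun x : Gamma0 (N' * q) =>
        ((x : SL(2, ℤ)) : Matrix (Fin 2) (Fin 2) ℤ)) h4
      simpa only [Subgroup.coe_mul, Matrix.SpecialLinearGroup.coe_mul] using h5
    rw [hG, Matrix.smul_mul, h3, Matrix.mul_smul]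
  have h6 := tdm_mul_right_cancel hWWdet (h1.symm.trans h2)
  refine ⟨S.eps δ₀ (), ?_⟩
  rw [← h6]
  exact (hrep (S.eps δ₀ ())).symm

variable {N' q} in
/-- `W T_i = u_i T_{τ i} W` with a permutation `τ` -/
theorem t2f5_exists_tau (l : ℕ) (hl : l.Prime) (hlN : ¬ l ∣ N' * q) :
    ∃ (τ : Option (Fin l) ≃ Option (Fin l)) (u : Option (Fin l) → Gamma0 (N' * q)),
      ∀ i, (t2fSysW N' q h).rep () * (tdmSysT (N' * q) l hl hlN).rep i
        = ((u i : SL(2, ℤ)) : Matrix (Fin 2) (Fin 2) ℤ) * (tdmSysT (N' * q) l hl hlN).rep (τ i)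
          * (t2fSysW N' q h).rep () := by
  set W := t2wMat N' q (t2wA N' q) (t2wC N' q) with hW
  set T := tdmSysT (N' * q) l hl hlN with hT
  have hbez := t2w_bezout N' q hq.out h
  have hWdet : W.det ≠ 0 := (t2fSysW N' q h).det_ne_zero ()
  have hex : ∀ i : Option (Fin l), ∃ j : Option (Fin l), ∃ ε : Gamma0 (N' * q),
      W * tdmRepT l i = ((ε : SL(2, ℤ)) : Matrix (Fin 2) (Fin 2) ℤ) * tdmRepT l j * W := by
    intro i
    obtain ⟨x, y, z, hi, hxz⟩ : ∃ x y z : ℤ, tdmRepT l i = !![x, y; 0, z] ∧ x * z = l := by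
      rcases i with _ | b
      · exact ⟨l, 0, 1, rfl, mul_one _⟩
      · exact ⟨1, ((b : ℕ) : ℤ), l, rfl, one_mul _⟩
    obtain ⟨X, hX, hXdet, hX10⟩ := t2f5_W_mul_tri N' q (t2wA N' q) (t2wC N' q) hbez x y z
    obtain ⟨j, ε, hε⟩ := t2f5_exists_rep hl hlN X (hXdet.trans hxz) hX10
    exact ⟨j, ε, by rw [hi, hX, hε]⟩
  choose τ₀ u hu using hex
  have hinj : Function.Injective τ₀ := by
    intro i i' hii
    obtain ⟨g₀, hg₀⟩ := t2f5_W_surj N' q h (u i * (u i')⁻¹)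
    have h1 : W * tdmRepT l i
        = W * (((g₀ : SL(2, ℤ)) : Matrix (Fin 2) (Fin 2) ℤ) * tdmRepT l i') := by
      rw [← Matrix.mul_assoc, ← hg₀, Matrix.mul_assoc, hu i', hu i, hii, Subgroup.coe_mul,
        Matrix.SpecialLinearGroup.coe_mul]
      simp only [← Matrix.mul_assoc]
      congr 2
      rw [Matrix.mul_assoc, ← Matrix.SpecialLinearGroup.coe_mul, ← Subgroup.coe_mul,
        inv_mul_cancel, Subgroup.coe_one, Matrix.SpecialLinearGroup.coe_one, Matrix.mul_one]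
    have h2 := tdm_mul_left_cancel hWdet h1
    have h3 : (((1 : Gamma0 (N' * q)) : SL(2, ℤ)) : Matrix (Fin 2) (Fin 2) ℤ) * T.rep i
        = ((g₀ : SL(2, ℤ)) : Matrix (Fin 2) (Fin 2) ℤ) * T.rep i' := by
      rw [Subgroup.coe_one, Matrix.SpecialLinearGroup.coe_one, Matrix.one_mul]
      exact h2
    exact (t2f5_eq_of_mul_rep_eq T h3).1
  refine ⟨Equiv.ofBijective τ₀ (Finite.injective_iff_bijective.mp hinj), u, fun i => ?_⟩
  exact hu i

/-- `w_q` commutes with `T_l` on `Hom(Γ₀(N' q), A)` -/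
theorem t2f5_W_T_comm (l : ℕ) (hl : l.Prime) (hlN : ¬ l ∣ N' * q) {A : Type*} [AddCommGroup A]
    (φ : Additive (Gamma0 (N' * q)) →+ A) :
    (tdmSysT (N' * q) l hl hlN).hom A ((t2fSysW N' q h).hom A φ)
      = (t2fSysW N' q h).hom A ((tdmSysT (N' * q) l hl hlN).hom A φ) := by
  obtain ⟨τ, u, hu⟩ := t2f5_exists_tau h l hl hlN
  exact t2f5_hom_comm _ _ τ u hu φ

end WT

/-- **(WT)** `w_q` commutes with `T_l` on the Tate module -/
theorem t2f_WT : T2fWT := by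
  intro p _ N' q _ _ h l hl hlN
  refine LinearMap.ext fun x => ?_
  apply Subtype.ext
  rw [Module.End.mul_apply, Module.End.mul_apply, t2fW_coe, tdmHeckeP_T, tdmHeckeP_T, t2fW_coe]
  exact (t2f5_W_T_comm N' q h l hl hlN _).symm

end Fermat.Agent.T2
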