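/-
T2-F (F2 = (P5)), helper8: **abstract algebra for the newness argument**.

* `t2fn_exists_lift_algClosed` : a ring homomorphism `A →+* Ω` into an algebraically closed field
  extends along every injective integral ring homomorphism `A →+* B`.
* `t2fn_injective_of_isIntegral` : a ring homomorphism from a domain which is integral over `ℤ` into
  a ring of characteristic zero is injective.
* `t2fn_exists_eigenChar` : a nonzero vector of a torsion-free module which is an eigenvector of the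
  generators of `Algebra.adjoin ℤ G` is an eigenvector of the whole algebra, and the eigenvalue is a
  ring homomorphism.
* `t2fn_exists_complexChar` : if the eigenvalues of the generators lie in the image of an injective
  ring homomorphism `ι : R →+* 𝒪`, the eigencharacter factors through `ι`.
-/
import Mathlib

set_option autoImplicit false
set_option linter.style.haveILetI false
set_option linter.unusedSectionVars false

namespace Fermat.Agent.T2

/-- **extension of a character into an algebraically closed field along an integral extension** -/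
theorem t2fn_exists_lift_algClosed {A B : Type*} [CommRing A] [CommRing B] (f : A →+* B)
    (hf : Function.Injective f) (hint : f.IsIntegral)
    {Ω : Type*} [Field Ω] [IsAlgClosed Ω] (χ : A →+* Ω) :
    ∃ ψ : B →+* Ω, ∀ a : A, ψ (f a) = χ a := by
  classical
  letI : Algebra A B := f.toAlgebra
  haveI : Algebra.IsIntegral A B := ⟨hint⟩
  haveI h𝔭 : (RingHom.ker χ).IsPrime := RingHom.ker_isPrime χ
  obtain ⟨𝔮, -, h𝔮, hcomap⟩ := Ideal.exists_ideal_over_prime_of_isIntegral (RingHom.ker χ)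
    (⊥ : Ideal B) (by
      rw [← RingHom.ker_eq_comap_bot]
      have : RingHom.ker (algebraMap A B) = ⊥ := (RingHom.injective_iff_ker_eq_bot _).mp hf
      rw [this]
      exact bot_le)
  haveI := h𝔮
  haveI : 𝔮.LiesOver (RingHom.ker χ) := ⟨hcomap.symm⟩
  letI : Algebra (A ⧸ RingHom.ker χ) Ω := (RingHom.kerLift χ).toAlgebra
  haveI : Module.IsTorsionFree (A ⧸ RingHom.ker χ) Ω := by
    rw [Module.isTorsionFree_iff_algebraMap_injective]
    exact RingHom.kerLift_injective χ
  haveI : Module.IsTorsionFree (A ⧸ RingHom.ker χ) (B ⧸ 𝔮) := by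
    rw [Module.isTorsionFree_iff_faithfulSMul]
    infer_instance
  let ψ₀ : (B ⧸ 𝔮) →ₐ[A ⧸ RingHom.ker χ] Ω := IsAlgClosed.lift
  refine ⟨ψ₀.toRingHom.comp (Ideal.Quotient.mk 𝔮), fun a => ?_⟩
  have h1 : (ψ₀.toRingHom.comp (Ideal.Quotient.mk 𝔮)) (f a) =
      ψ₀ (algebraMap (A ⧸ RingHom.ker χ) (B ⧸ 𝔮) (Ideal.Quotient.mk (RingHom.ker χ) a)) := rfl
  rw [h1, ψ₀.commutes]
  rfl

/-- a ring homomorphism from a domain integral over `ℤ` into a ring of characteristic zero is
injective -/
theorem t2fn_injective_of_isIntegral {R 𝒪 : Type*} [CommRing R] [IsDomain R]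
    [Algebra.IsIntegral ℤ R] [CommRing 𝒪] [CharZero 𝒪] (ι : R →+* 𝒪) : Function.Injective ι := by
  rw [RingHom.injective_iff_ker_eq_bot]
  apply Ideal.eq_bot_of_comap_eq_bot (R := ℤ)
  rw [eq_bot_iff]
  intro n hn
  rw [Ideal.mem_comap, RingHom.mem_ker, eq_intCast, map_intCast] at hn
  rw [Ideal.mem_bot]
  exact_mod_cast hn

section EigenChar

variable {A : Type*} [Ring A] (G : Set A)
  {𝒪 : Type*} [CommRing 𝒪] [IsDomain 𝒪] {X : Type*} [AddCommGroup X] [Module 𝒪 X]
  [Module.IsTorsionFree 𝒪 X]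

/-- an eigenvector of the generators is an eigenvector of the algebra they generate -/
theorem t2fn_eigen_adjoin (act : ↥(Algebra.adjoin ℤ G) →+* Module.End 𝒪 X) (x : X)
    (h : ∀ (t : A) (ht : t ∈ G), ∃ c : 𝒪, act ⟨t, Algebra.subset_adjoin ht⟩ x = c • x)
    (t : ↥(Algebra.adjoin ℤ G)) : ∃ c : 𝒪, act t x = c • x := by
  obtain ⟨t, ht⟩ := t
  induction ht using Algebra.adjoin_induction with
  | mem t ht => exact h t ht
  | algebraMap r =>
    refine ⟨(r : 𝒪), ?_⟩
    have h1 : (⟨algebraMap ℤ A r, Subalgebra.algebraMap_mem _ r⟩ : ↥(Algebra.adjoin ℤ G)) =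
        ((r : ℤ) : ↥(Algebra.adjoin ℤ G)) := by
      apply Subtype.ext
      simp
    rw [h1, map_intCast]
    simp [Int.cast_smul_eq_zsmul]
  | add a b ha hb iha ihb =>
    obtain ⟨c, hc⟩ := iha
    obtain ⟨c', hc'⟩ := ihb
    refine ⟨c + c', ?_⟩
    have h1 : (⟨a + b, Subalgebra.add_mem _ ha hb⟩ : ↥(Algebra.adjoin ℤ G)) =
        ⟨a, ha⟩ + ⟨b, hb⟩ := rfl
    rw [h1, map_add, LinearMap.add_apply, hc, hc', add_smul]
  | mul a b ha hb iha ihb =>
    obtain ⟨c, hc⟩ := iha
    obtain ⟨c', hc'⟩ := ihb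
    refine ⟨c' * c, ?_⟩
    have h1 : (⟨a * b, Subalgebra.mul_mem _ ha hb⟩ : ↥(Algebra.adjoin ℤ G)) =
        ⟨a, ha⟩ * ⟨b, hb⟩ := rfl
    rw [h1, map_mul, Module.End.mul_apply, hc', map_smul, hc, smul_smul]

/-- **the eigencharacter of a nonzero eigenvector** -/
theorem t2fn_exists_eigenChar (act : ↥(Algebra.adjoin ℤ G) →+* Module.End 𝒪 X) (x : X)
    (hx : x ≠ 0)
    (h : ∀ (t : A) (ht : t ∈ G), ∃ c : 𝒪, act ⟨t, Algebra.subset_adjoin ht⟩ x = c • x) :
    ∃ χ : ↥(Algebra.adjoin ℤ G) →+* 𝒪, ∀ t, act t x = χ t • x := by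
  classical
  have hex := t2fn_eigen_adjoin G act x h
  choose χ hχ using hex
  have huniq : ∀ c c' : 𝒪, c • x = c' • x → c = c' := by
    intro c c' hcc
    have h1 : (c - c') • x = 0 := by rw [sub_smul, hcc, sub_self]
    rcases smul_eq_zero.mp h1 with h2 | h2
    · exact sub_eq_zero.mp h2
    · exact absurd h2 hx
  refine ⟨{ toFun := χ
            map_one' := ?_
            map_mul' := ?_
            map_zero' := ?_
            map_add' := ?_ }, hχ⟩
  · apply huniq
    rw [← hχ, map_one, Module.End.one_apply, one_smul]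
  · intro a b
    apply huniq
    rw [← hχ, map_mul, Module.End.mul_apply, hχ b, map_smul, hχ a, smul_smul, mul_comm]
  · apply huniq
    rw [← hχ, map_zero, LinearMap.zero_apply, zero_smul]
  · intro a b
    apply huniq
    rw [← hχ, map_add, LinearMap.add_apply, hχ a, hχ b, add_smul]

/-- eigenvalues are unique -/
theorem t2fn_eigenvalue_unique {x : X} (hx : x ≠ 0) {c c' : 𝒪} (hcc : c • x = c' • x) : c = c' := by
  have h1 : (c - c') • x = 0 := by rw [sub_smul, hcc, sub_self]
  rcases smul_eq_zero.mp h1 with h2 | h2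
  · exact sub_eq_zero.mp h2
  · exact absurd h2 hx

/-- **the eigencharacter factors through an injective coefficient embedding** -/
theorem t2fn_exists_complexChar {R : Type*} [CommRing R] (ι : R →+* 𝒪)
    (hι : Function.Injective ι)
    (act : ↥(Algebra.adjoin ℤ G) →+* Module.End 𝒪 X) (x : X) (hx : x ≠ 0)
    (h : ∀ (t : A) (ht : t ∈ G), ∃ r : R, act ⟨t, Algebra.subset_adjoin ht⟩ x = ι r • x) :
    ∃ χ : ↥(Algebra.adjoin ℤ G) →+* R, ∀ t, act t x = ι (χ t) • x := by
  classical
  obtain ⟨χ₀, hχ₀⟩ := t2fn_exists_eigenChar G act x hx fun t ht => ⟨_, (h t ht).choose_spec⟩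
  have hgen : ∀ (t : A) (ht : t ∈ G), ∃ r : R, χ₀ ⟨t, Algebra.subset_adjoin ht⟩ = ι r := by
    intro t ht
    obtain ⟨r, hr⟩ := h t ht
    refine ⟨r, t2fn_eigenvalue_unique hx ?_⟩
    rw [← hχ₀, hr]
  have hrange : ∀ t : ↥(Algebra.adjoin ℤ G), χ₀ t ∈ ι.range := by
    rintro ⟨t, ht⟩
    induction ht using Algebra.adjoin_induction with
    | mem t ht =>
      obtain ⟨r, hr⟩ := hgen t ht
      exact ⟨r, hr.symm⟩
    | algebraMap n =>
      have h1 : (⟨algebraMap ℤ A n, Subalgebra.algebraMap_mem _ n⟩ : ↥(Algebra.adjoin ℤ G)) =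
          ((n : ℤ) : ↥(Algebra.adjoin ℤ G)) := by
        apply Subtype.ext
        simp
      rw [h1, map_intCast]
      exact ⟨(n : R), map_intCast ι n⟩
    | add a b ha hb iha ihb =>
      have h1 : (⟨a + b, Subalgebra.add_mem _ ha hb⟩ : ↥(Algebra.adjoin ℤ G)) =
          ⟨a, ha⟩ + ⟨b, hb⟩ := rfl
      rw [h1, map_add]
      exact ι.range.add_mem iha ihb
    | mul a b ha hb iha ihb =>
      have h1 : (⟨a * b, Subalgebra.mul_mem _ ha hb⟩ : ↥(Algebra.adjoin ℤ G)) =
          ⟨a, ha⟩ * ⟨b, hb⟩ := rfl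
      rw [h1, map_mul]
      exact ι.range.mul_mem iha ihb
  let e : R ≃+* ι.range := RingEquiv.ofBijective ι.rangeRestrict
    ⟨fun a b hab => hι (congrArg Subtype.val hab), ι.rangeRestrict_surjective⟩
  let χ : ↥(Algebra.adjoin ℤ G) →+* R := e.symm.toRingHom.comp (χ₀.codRestrict ι.range hrange)
  have hχ : ∀ t, ι (χ t) = χ₀ t := by
    intro t
    have h1 : e (χ t) = χ₀.codRestrict ι.range hrange t := e.apply_symm_apply _
    have h2 := congrArg Subtype.val h1
    exact h2
  exact ⟨χ, fun t => by rw [hχ, hχ₀]⟩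

end EigenChar

end Fermat.Agent.T2
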