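/-
T2-F (F5, helper1), part 4: **(P3')** `t2f_P3 : T2fP3`: if the eigencharacter `lam` of level `N' q`
does not occur at level `N'`, then `1 + U_q w_q = res ∘ cor` kills every simultaneous eigenvector of
the `T_l`, `l ∤ N' q`, with eigenvalues `lam (T_l)`.
-/
import Mathlib
import Fermat.Agent.Lib.T2.F.ResCor
import Fermat.Agent.Lib.T2.F.WT
import Fermat.Agent.Lib.T2.F.NewAlg

set_option autoImplicit false
set_option linter.unusedSectionVars false
set_option linter.unusedVariables false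
set_option linter.style.haveILetI false

open scoped TensorProduct
open Matrix MatrixGroups CongruenceSubgroup Fermat.Agent.T1 ModularCurve Fermat.Agent.S24Lib
  ModularCurve.Period CuspForm

namespace Fermat.Agent.T2

section Maps

variable (p : ℕ) [hp : Fact p.Prime] (N' q : ℕ) [NeZero N'] [hq : Fact q.Prime] (h : ¬ q ∣ N')

/-- the transfer `TT(N' q) → TT(N')` on the Tate modules -/
noncomputable def t2fCorP : ↥(parabolicHoms ℤ_[p] (Gamma0 (N' * q)) ℤ_[p])
    →ₗ[ℤ_[p]] ↥(parabolicHoms ℤ_[p] (Gamma0 N') ℤ_[p]) :=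
  (t2fSysC N' q h).corPar ℤ_[p] ℤ_[p]

/-- the restriction `TT(N') → TT(N' q)` on the Tate modules -/
noncomputable def t2fResP : ↥(parabolicHoms ℤ_[p] (Gamma0 N') ℤ_[p])
    →ₗ[ℤ_[p]] ↥(parabolicHoms ℤ_[p] (Gamma0 (N' * q)) ℤ_[p]) :=
  t2fResPar (t2f5_Gamma0_le N' q) ℤ_[p] ℤ_[p]

/-- `res ∘ cor = 1 + U_q w_q` on the Tate module -/
theorem t2f5_resP_corP :
    (t2fResP p N' q) ∘ₗ (t2fCorP p N' q h)
      = 1 + tdmHeckeP p (N' * q) (heckeAlgebra.U hq.out (Dvd.intro_left N' rfl)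
          (Set.notMem_empty q)) * t2fW p N' q h := by
  refine LinearMap.ext fun x => ?_
  apply Subtype.ext
  rw [LinearMap.comp_apply, LinearMap.add_apply, Module.End.one_apply, Module.End.mul_apply]
  show t2fRes (t2f5_Gamma0_le N' q) ℤ_[p] ((t2fSysC N' q h).cor ℤ_[p]
    (x : Additive (Gamma0 (N' * q)) →+ ℤ_[p])) = _
  rw [t2f5_res_cor, Submodule.coe_add, tdmHeckeP_U, t2fW_coe]

/-- `cor ∘ res = q + 1` on the Tate module -/
theorem t2f5_corP_resP :
    (t2fCorP p N' q h) ∘ₗ (t2fResP p N' q)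
      = (((q + 1 : ℕ) : ℤ_[p])) • LinearMap.id := by
  refine LinearMap.ext fun x => ?_
  apply Subtype.ext
  rw [LinearMap.comp_apply, LinearMap.smul_apply, LinearMap.id_apply]
  show (t2fSysC N' q h).cor ℤ_[p] (t2fRes (t2f5_Gamma0_le N' q) ℤ_[p]
    (x : Additive (Gamma0 N') →+ ℤ_[p])) = _
  rw [t2f5_cor_res, Submodule.coe_smul, Nat.cast_smul_eq_nsmul]

/-- `res ∘ T_l = T_l ∘ res` on the Tate modules -/
theorem t2f5_resP_T (l : ℕ) (hl : l.Prime) (hlN : ¬ l ∣ N' * q) (hlN' : ¬ l ∣ N') :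
    (t2fResP p N' q) ∘ₗ tdmHeckeP p N' (heckeAlgebra.T hl hlN' (Set.notMem_empty l))
      = tdmHeckeP p (N' * q) (heckeAlgebra.T hl hlN (Set.notMem_empty l)) ∘ₗ (t2fResP p N' q) := by
  refine LinearMap.ext fun x => ?_
  apply Subtype.ext
  rw [LinearMap.comp_apply, LinearMap.comp_apply, tdmHeckeP_T]
  show t2fRes (t2f5_Gamma0_le N' q) ℤ_[p] _ = _
  rw [tdmHeckeP_T, t2f5_res_T N' q l hl hlN hlN']
  rfl

end Maps

/-- **(P3')** -/
theorem t2f_P3 : T2fP3 := by
  classical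
  intro p _ N' q _ hq h 𝒪 _ _ _ _ lam hnew v hv
  haveI : NeZero (N' * q) := ⟨Nat.mul_ne_zero (NeZero.ne N') hq.out.ne_zero⟩
  -- notation
  set TT := ↥(parabolicHoms ℤ_[p] (Gamma0 (N' * q)) ℤ_[p]) with hTT
  set TT' := ↥(parabolicHoms ℤ_[p] (Gamma0 N') ℤ_[p]) with hTT'
  set Uq := tdmHeckeP p (N' * q) (heckeAlgebra.U hq.out (Dvd.intro_left N' rfl)
    (Set.notMem_empty q)) with hUq
  set w := t2fW p N' q h with hw
  set R := (t2fResP p N' q).baseChange 𝒪 with hR
  set C := (t2fCorP p N' q h).baseChange 𝒪 with hC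
  -- `R ∘ C = 1 + U_q w`
  have hRC : ∀ z, R (C z) = z + (Uq * w).baseChange 𝒪 z := by
    intro z
    have h1 := congrArg (fun f => (f.baseChange 𝒪) z) (t2f5_resP_corP p N' q h)
    simp only [LinearMap.baseChange_comp, LinearMap.comp_apply] at h1
    rw [hR, hC, h1, LinearMap.baseChange_add, LinearMap.add_apply]
    congr 1
    rw [Module.End.one_eq_id, LinearMap.baseChange_id, LinearMap.id_apply]
  -- `C ∘ R = q + 1`
  have hCR : ∀ z, C (R z) = (q + 1) • z := by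
    intro z
    have h1 := congrArg (fun f => (f.baseChange 𝒪) z) (t2f5_corP_resP p N' q h)
    simp only [LinearMap.baseChange_comp, LinearMap.comp_apply] at h1
    rw [hR, hC, h1, LinearMap.baseChange_smul, LinearMap.smul_apply, LinearMap.baseChange_id,
      LinearMap.id_apply, Nat.cast_smul_eq_nsmul]
  -- torsion-freeness
  haveI : Module.Free 𝒪 (𝒪 ⊗[ℤ_[p]] TT') := inferInstance
  haveI : Module.IsTorsionFree 𝒪 (𝒪 ⊗[ℤ_[p]] TT') := inferInstance
  have hq1 : ((q + 1 : ℕ) : 𝒪) ≠ 0 := Nat.cast_ne_zero.mpr (Nat.succ_ne_zero q)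
  have hRinj : ∀ z, R z = 0 → z = 0 := by
    intro z hz
    have h1 := hCR z
    rw [hz, map_zero, ← Nat.cast_smul_eq_nsmul 𝒪] at h1
    rcases smul_eq_zero.mp h1.symm with h2 | h2
    · exact absurd h2 hq1
    · exact h2
  -- the vector at level `N'`
  set x := C v with hx
  show v + (Uq * w).baseChange 𝒪 v = 0
  rw [← hRC v]
  by_cases hx0 : x = 0
  · rw [← hx, hx0, map_zero]
  exfalso
  -- `x` is an eigenvector of the `T_l` at level `N'`
  have hxT : ∀ (l : ℕ) (hl : l.Prime) (hlN : ¬ l ∣ N' * q) (hlN' : ¬ l ∣ N'),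
      (tdmHeckeP p N' (heckeAlgebra.T hl hlN' (Set.notMem_empty l))).baseChange 𝒪 x
        = lam (heckeAlgebra.T hl hlN (Set.notMem_empty l)) • x := by
    intro l hl hlN hlN'
    set Tl := tdmHeckeP p (N' * q) (heckeAlgebra.T hl hlN (Set.notMem_empty l)) with hTl
    set Tl' := tdmHeckeP p N' (heckeAlgebra.T hl hlN' (Set.notMem_empty l)) with hTl'
    set c := lam (heckeAlgebra.T hl hlN (Set.notMem_empty l)) with hc
    -- `R ∘ T' = T ∘ R`
    have h1 : ∀ z, R (Tl'.baseChange 𝒪 z) = Tl.baseChange 𝒪 (R z) := by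
      intro z
      have h2 := congrArg (fun f => (f.baseChange 𝒪) z) (t2f5_resP_T p N' q l hl hlN hlN')
      simpa only [LinearMap.baseChange_comp, LinearMap.comp_apply] using h2
    -- `T` commutes with `U_q w`
    have h3 : Tl * (Uq * w) = (Uq * w) * Tl := by
      have hUT : Tl * Uq = Uq * Tl := by
        rw [hTl, hUq, ← map_mul, ← map_mul]
        exact congrArg _ (mul_comm _ _)
      have hwT : w * Tl = Tl * w := t2f_WT p N' q h l hl hlN
      rw [← mul_assoc, hUT, mul_assoc, mul_assoc, hwT]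
    have h4 : ∀ z, Tl.baseChange 𝒪 ((Uq * w).baseChange 𝒪 z)
        = (Uq * w).baseChange 𝒪 (Tl.baseChange 𝒪 z) := by
      intro z
      have h5 := congrArg (fun f : Module.End ℤ_[p] TT => (f.baseChange 𝒪) z) h3
      simpa only [Module.End.mul_eq_comp, LinearMap.baseChange_comp, LinearMap.comp_apply]
        using h5
    rw [← sub_eq_zero]
    apply hRinj
    rw [map_sub, h1, hx, hRC, map_add, h4, hv l hl hlN, map_smul, map_smul, hRC, smul_add,
      sub_self]
  -- the eigencharacter of `x`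
  set S : Set ℕ := {r : ℕ | r ∣ N' * q} with hS
  let inc : heckeAlgebra N' 2 S →+* heckeAlgebra N' 2 (∅ : Set ℕ) :=
    (Subalgebra.inclusion (heckeAlgebra_mono (N := N') (k := 2) (Set.empty_subset S))).toRingHom
  let act : heckeAlgebra N' 2 S →+* Module.End 𝒪 (𝒪 ⊗[ℤ_[p]] TT') :=
    ((Module.End.baseChangeHom ℤ_[p] 𝒪 TT').toRingHom.comp (tdmHeckeP p N')).comp inc
  have hact : ∀ t, act t = (tdmHeckeP p N' (inc t)).baseChange 𝒪 := fun t => rfl
  have hgen : ∀ (t : Module.End ℂ (CuspForm (Gamma0 N') 2)) (ht : t ∈ heckeGenerators N' 2 S),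
      ∃ c : 𝒪, act ⟨t, Algebra.subset_adjoin ht⟩ x = c • x := by
    rintro t (⟨l, hl, hlN', hlS, rfl⟩ | ⟨q', hq'N, hq', hq'S, rfl⟩)
    · have hlN : ¬ l ∣ N' * q := hlS
      exact ⟨_, hxT l hl hlN hlN'⟩
    · exact absurd (show q' ∈ S from Dvd.dvd.mul_right hq'N q) hq'S
  obtain ⟨χ, hχ⟩ : ∃ χ : heckeAlgebra N' 2 S →+* 𝒪, ∀ t, act t x = χ t • x :=
    t2fn_exists_eigenChar (heckeGenerators N' 2 S) act x hx0 hgen
  apply hnew
  refine ⟨χ, fun l hl hlN hlN' => ?_⟩
  apply t2fn_eigenvalue_unique hx0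
  rw [← hχ]
  exact hxT l hl hlN hlN'

end Fermat.Agent.T2
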