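/-
T2-F (F2 = (P5)), helper8: **the eigencharacter of the newform itself, with coefficients in a finite
extension of `O'`**.

In S35 the data are `chig : heckeAlgebra M 2 S →+* ℂ` with `chig T_ℓ = a_ℓ(g)` and
`iota : chig.range →+* O'`.  Since `S` contains the primes dividing `M`, `chig` is the restriction of
the eigencharacter `ψ_g = terEigenCharC hg ∅` of `g` on the FULL Hecke algebra, and `iota` extends to
an INJECTIVE `ι' : ψ_g.range →+* O''` for a finite extension `O''` of `O'` (`t2fn_exists_lamg`).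
-/
import Fermat.Agent.Lib.T2.F.NewAlg
import Fermat.Agent.Lib.T1.Asm.Res.EigenChar
import Fermat.Agent.Lib.T1.Asm.Res.Extension

set_option autoImplicit false
set_option linter.style.haveILetI false
set_option linter.unusedSectionVars false

namespace Fermat.Agent.T2

open ModularFormClass CuspForm Fermat.Agent.Lib.Helper8 Fermat.Agent.T1 IsLocalRing

local notation "Γ₀(" N ")" => CongruenceSubgroup.Gamma0 N

variable {M : ℕ} [NeZero M] {g : CuspForm Γ₀(M) 2}

/-- the eigencharacter away from `S` is the restriction of the full eigencharacter -/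
theorem t2fn_terEigenCharC_incl (hg : g.IsNormalizedEigenform) (S : Set ℕ)
    (t : heckeAlgebra M 2 S) :
    terEigenCharC hg (∅ : Set ℕ) ⟨t.1, heckeAlgebra_mono (Set.empty_subset S) t.2⟩ =
      terEigenCharC hg S t := rfl

/-- a character of the Hecke algebra away from `S ⊇ {q ∣ M}` with `T_ℓ ↦ a_ℓ(g)` is the
eigencharacter of `g` -/
theorem t2fn_chig_eq (hg : g.IsNormalizedEigenform) (S : Set ℕ)
    (hMS : ∀ q : ℕ, q.Prime → q ∣ M → q ∈ S)
    (chig : heckeAlgebra M 2 S →+* ℂ)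
    (hchig : ∀ (ℓ : ℕ) (hℓ : ℓ.Prime) (hℓM : ¬ ℓ ∣ M) (hℓS : ℓ ∉ S),
      chig (heckeAlgebra.T hℓ hℓM hℓS) = qCoeff ⇑g ℓ)
    (t : heckeAlgebra M 2 S) : chig t = terEigenCharC hg S t := by
  obtain ⟨t, ht⟩ := t
  induction ht using Algebra.adjoin_induction with
  | mem t ht =>
    rcases ht with ⟨ℓ, hℓ, hℓN, hℓS, rfl⟩ | ⟨q, hqN, hq, hqS, rfl⟩
    · exact (hchig ℓ hℓ hℓN hℓS).trans (terEigenCharC_T hg S hℓ hℓN hℓS).symm
    · exact absurd (hMS q hq hqN) hqS
  | algebraMap n =>
    have h1 : (⟨algebraMap ℤ _ n, Subalgebra.algebraMap_mem _ n⟩ : heckeAlgebra M 2 S) =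
        ((n : ℤ) : heckeAlgebra M 2 S) := by
      apply Subtype.ext
      simp
    rw [h1, map_intCast, map_intCast]
  | add a b ha hb iha ihb =>
    have h1 : (⟨a + b, Subalgebra.add_mem _ ha hb⟩ : heckeAlgebra M 2 S) = ⟨a, ha⟩ + ⟨b, hb⟩ := rfl
    rw [h1, map_add, map_add, iha, ihb]
  | mul a b ha hb iha ihb =>
    have h1 : (⟨a * b, Subalgebra.mul_mem _ ha hb⟩ : heckeAlgebra M 2 S) = ⟨a, ha⟩ * ⟨b, hb⟩ := rfl
    rw [h1, map_mul, map_mul, iha, ihb]

/-- **the coefficient embedding of the newform**: `iota` extends to an injective ring homomorphism on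
the ring generated by ALL Hecke eigenvalues of `g`, with values in a finite extension of `O'` -/
theorem t2fn_exists_lamg (hg : g.IsNormalizedEigenform) (S : Set ℕ)
    (hMS : ∀ q : ℕ, q.Prime → q ∣ M → q ∈ S)
    (O' : Type) [CommRing O'] [IsDomain O'] [IsDiscreteValuationRing O']
    [IsAdicComplete (maximalIdeal O') O'] [Finite (ResidueField O')] [CharZero O']
    (chig : heckeAlgebra M 2 S →+* ℂ)
    (hchig : ∀ (ℓ : ℕ) (hℓ : ℓ.Prime) (hℓM : ¬ ℓ ∣ M) (hℓS : ℓ ∉ S),
      chig (heckeAlgebra.T hℓ hℓM hℓS) = qCoeff ⇑g ℓ)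
    (iota : chig.range →+* O') :
    ∃ (O'' : Type) (_ : CommRing O'') (_ : IsDomain O'') (_ : IsDiscreteValuationRing O'')
      (_ : IsAdicComplete (maximalIdeal O'') O'') (_ : Finite (ResidueField O''))
      (_ : CharZero O'') (_ : Algebra O' O'') (_ : Module.Finite O' O'')
      (_ : IsLocalHom (algebraMap O' O'')),
      Function.Injective (algebraMap O' O'') ∧
      ∃ ι' : (terEigenCharC hg (∅ : Set ℕ)).range →+* O'', Function.Injective ι' ∧
        ∀ t : heckeAlgebra M 2 S,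
          ι' ((terEigenCharC hg (∅ : Set ℕ)).rangeRestrict
              ⟨t.1, heckeAlgebra_mono (Set.empty_subset S) t.2⟩) =
            algebraMap O' O'' (iota (chig.rangeRestrict t)) := by
  classical
  set ψ := terEigenCharC hg (∅ : Set ℕ) with hψdef
  haveI : Module.Finite ℤ (heckeAlgebra M 2 (∅ : Set ℕ)) :=
    Fermat.Agent.S22Lib.moduleFinite_heckeAlgebra M 2 _
  haveI hfin : Module.Finite ℤ ψ.range :=
    Module.Finite.of_surjective ψ.rangeRestrict.toIntAlgHom.toLinearMap ψ.rangeRestrict_surjective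
  have hle : chig.range ≤ ψ.range := by
    rintro _ ⟨t, rfl⟩
    exact ⟨⟨t.1, heckeAlgebra_mono (Set.empty_subset S) t.2⟩,
      ((t2fn_chig_eq hg S hMS chig hchig t).trans (t2fn_terEigenCharC_incl hg S t).symm).symm⟩
  obtain ⟨O'', i1, i2, i3, i4, i5, i6, i7, i8, i9, hinj, lam, hlam⟩ :=
    ter_exists_extension (Subring.inclusion hle) (Subring.inclusion_injective hle) O' iota
  haveI : Algebra.IsIntegral ℤ ψ.range := Algebra.IsIntegral.of_finite ℤ _
  refine ⟨O'', i1, i2, i3, i4, i5, i6, i7, i8, i9, hinj, lam, t2fn_injective_of_isIntegral lam,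
    fun t => ?_⟩
  rw [← hlam]
  congr 1
  apply Subtype.ext
  show ψ ⟨t.1, _⟩ = chig t
  exact ((t2fn_chig_eq hg S hMS chig hchig t).trans (t2fn_terEigenCharC_incl hg S t).symm).symm

end Fermat.Agent.T2
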