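/-
T2-F (helper3), (F1-f): **statement S35 from the Tate module packages with (H8) and (F2)**.

* `t2fRep_cubic` : (H8) on the Tate module ⟹ `(ρ(φ)² - q²)(ρ(φ) - a) = 0` on the eigen-lattice;
* `t2f_det_frob` : `det ρ(Frob_l) = l` from `DetIsCyclotomic`;
* `t2f_S35_of_package : (∀ p N, T2fPackage p N) → T2fNewform → (statement S35)`.
-/
import Mathlib
import Fermat.Agent.Lib.T2.F.Defs
import Fermat.Agent.Lib.T2.F.NewLam
import Fermat.Agent.Lib.T2.F.Charpoly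
import Fermat.Agent.Lib.T1.Asm.S30Skeleton
import Fermat.Agent.Lib.T1.Asm.Res.Extension
import Fermat.Prelude.Def_GaloisRep_LocalConditions

set_option autoImplicit false
set_option linter.unusedSectionVars false
set_option linter.unusedVariables false
set_option linter.style.haveILetI false

open scoped TensorProduct
open IsLocalRing Polynomial Fermat.Agent.CFT Fermat.Agent.T1 ModularCurve CongruenceSubgroup
  Fermat.Agent.S24Lib

namespace Fermat.Agent.T2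

local notation "Kbar" => AlgebraicClosure ℚ
local notation "GQ" => (AlgebraicClosure ℚ ≃ₐ[ℚ] AlgebraicClosure ℚ)

noncomputable section

section Rep

variable {p : ℕ} [Fact p.Prime] {T : Type} [AddCommGroup T] [Module ℤ_[p] T]
  [Module.Free ℤ_[p] T] [Module.Finite ℤ_[p] T]
  (gal : GQ →* Module.End ℤ_[p] T)
  {𝕋 : Type} [CommRing 𝕋] (hecke : 𝕋 →+* Module.End ℤ_[p] T)
  (hcomm : ∀ σ t, gal σ * hecke t = hecke t * gal σ)
  (hcont : ∀ n : ℕ, ∃ L : IntermediateField ℚ Kbar, FiniteDimensional ℚ L ∧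
    ∀ σ : GQ, (∀ x ∈ L, σ x = x) → ∀ v : T, ∃ w : T, gal σ v - v = (p : ℤ_[p]) ^ n • w)
  {𝒪 : Type} [CommRing 𝒪] [IsDomain 𝒪] [IsDiscreteValuationRing 𝒪] [Algebra ℤ_[p] 𝒪]
  (hp𝒪 : (p : 𝒪) ∈ maximalIdeal 𝒪) (hp0 : (p : 𝒪) ≠ 0)
  (lam : 𝕋 →+* 𝒪) (h2 : Module.finrank 𝒪 ↥(teEigen hecke lam) = 2)

/-- (H8) ⟹ the cubic relation on the eigen-lattice -/
theorem t2fRep_cubic (σ : GQ) (u : 𝕋) (q : ℕ)
    (h : ∀ v ∈ teEigen hecke lam,
      (((gal σ * gal σ - ((q : ℤ_[p]) ^ 2) • (1 : Module.End ℤ_[p] T)) *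
        (gal σ - hecke u)).baseChange 𝒪) v = 0) :
    ((teRep gal hecke hcomm hcont hp𝒪 hp0 lam h2).ρ σ *
        (teRep gal hecke hcomm hcont hp𝒪 hp0 lam h2).ρ σ -
      ((q : 𝒪) ^ 2) • (1 : Module.End 𝒪 (teRep gal hecke hcomm hcont hp𝒪 hp0 lam h2).V)) *
      ((teRep gal hecke hcomm hcont hp𝒪 hp0 lam h2).ρ σ -
        lam u • (1 : Module.End 𝒪 (teRep gal hecke hcomm hcont hp𝒪 hp0 lam h2).V)) = 0 := by
  apply LinearMap.ext
  intro x
  apply Subtype.ext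
  have hx := (mem_teEigen hecke lam).1 (x : teEigen hecke lam).2 u
  have h1 := h (x : teEigen hecke lam).1 (x : teEigen hecke lam).2
  simp only [LinearMap.baseChange_sub, LinearMap.baseChange_mul, LinearMap.baseChange_smul,
    LinearMap.baseChange_one, LinearMap.sub_apply, Module.End.mul_apply, LinearMap.smul_apply,
    Module.End.one_apply, map_sub] at h1
  rw [hx] at h1
  simp only [algebra_compatible_smul 𝒪 ((q : ℤ_[p]) ^ 2), map_pow, map_natCast] at h1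
  show (gal σ).baseChange 𝒪 ((gal σ).baseChange 𝒪
      ((gal σ).baseChange 𝒪 (x : teEigen hecke lam).1 - lam u • (x : teEigen hecke lam).1))
    - ((q : 𝒪) ^ 2) • ((gal σ).baseChange 𝒪 (x : teEigen hecke lam).1
      - lam u • (x : teEigen hecke lam).1) = 0
  rw [map_sub, map_sub, smul_sub, ← h1]
  abel

end Rep

/-- `det ρ(Frob_l) = l` for `l ≠ p`, when the determinant is the `p`-adic cyclotomic character -/
theorem t2f_det_frob {𝒪 : Type} [CommRing 𝒪] [IsDomain 𝒪] [IsDiscreteValuationRing 𝒪]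
    (p : ℕ) [Fact p.Prime] (ρ : GaloisRepAdic 𝒪) (hdet : ρ.DetIsCyclotomic p)
    {l : ℕ} (hl : l.Prime) (hlp : l ≠ p) {A : ValuationSubring Kbar} (hA : A.LiesOverPrime l)
    {φ : GQ} (hφ : A.IsFrobeniusAt φ l) : LinearMap.det (ρ.ρ φ) = (l : 𝒪) := by
  have hp : p.Prime := Fact.out
  have hall : ∀ n : ℕ, LinearMap.det (ρ.ρ φ) - (l : 𝒪) ∈ maximalIdeal 𝒪 ^ n := by
    intro n
    have hcop : Nat.Coprime (p ^ n) l :=
      Nat.Coprime.pow_left n ((Nat.coprime_primes hp hl).2 hlp.symm)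
    have h1 := hdet.2 n φ l (fun μ hμ =>
      Fermat.Agent.TW.twp_frobenius_rootOfUnity hA hφ (pow_pos hp.pos n) hcop hμ)
    have h2 : Ideal.span {((p ^ n : ℕ) : 𝒪)} ≤ maximalIdeal 𝒪 ^ n := by
      rw [Nat.cast_pow, ← Ideal.span_singleton_pow]
      exact Ideal.pow_right_mono ((Ideal.span_singleton_le_iff_mem _).2 hdet.1) n
    exact h2 h1
  have h1 := Ideal.iInf_pow_eq_bot_of_isLocalRing (maximalIdeal 𝒪) Ideal.IsPrime.ne_top'
  have h2 : LinearMap.det (ρ.ρ φ) - (l : 𝒪) ∈ ⨅ i : ℕ, maximalIdeal 𝒪 ^ i := by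
    rw [Submodule.mem_iInf]
    exact hall
  rw [h1] at h2
  exact sub_eq_zero.1 h2

/-- **abstract assembly of S35**: the representation on the eigen-lattice, with the characteristic
polynomials of the Frobenius elements at the primes `l ∉ S` and at the primes `q ∥ N`, `q ≠ p`,
at which the eigencharacter satisfies (H8) -/
theorem t2f_galoisRep_of_package (p : ℕ) [Fact p.Prime] (N : ℕ) (S : Finset ℕ) (hpS : p ∈ S)
    (hNS : ∀ q : ℕ, q.Prime → q ∣ N → q ∈ S)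
    {T : Type} [AddCommGroup T] [Module ℤ_[p] T] [Module.Free ℤ_[p] T] [Module.Finite ℤ_[p] T]
    (gal : GQ →* Module.End ℤ_[p] T)
    {𝕋 : Type} [CommRing 𝕋] (hecke : 𝕋 →+* Module.End ℤ_[p] T)
    (hcomm : ∀ σ t, gal σ * hecke t = hecke t * gal σ)
    (hcont : ∀ n : ℕ, ∃ L : IntermediateField ℚ Kbar, FiniteDimensional ℚ L ∧
      ∀ σ : GQ, (∀ x ∈ L, σ x = x) → ∀ v : T, ∃ w : T, gal σ v - v = (p : ℤ_[p]) ^ n • w)
    (Tl : ℕ → 𝕋)
    (hES : ∀ l : ℕ, l.Prime → ¬ l ∣ N → l ≠ p → ∀ A : ValuationSubring Kbar,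
      A.LiesOverPrime l → ∀ σ : GQ, A.IsFrobeniusAt σ l →
        gal σ * gal σ - hecke (Tl l) * gal σ + (l : ℤ_[p]) • (1 : Module.End ℤ_[p] T) = 0)
    {𝒪 : Type} [CommRing 𝒪] [IsDomain 𝒪] [IsDiscreteValuationRing 𝒪] [CharZero 𝒪]
    [Algebra ℤ_[p] 𝒪] (hp𝒪 : (p : 𝒪) ∈ maximalIdeal 𝒪) (lam : 𝕋 →+* 𝒪)
    (h2 : Module.finrank 𝒪 ↥(teEigen hecke lam) = 2)
    (hc : ∃ c : GQ, ∃ v ∈ teEigen hecke lam, ∀ z : 𝒪, (gal c).baseChange 𝒪 v ≠ z • v) :
    ∃ ρ : GaloisRepAdic 𝒪,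
      (∀ l : ℕ, l.Prime → ¬ l ∣ N → l ∉ S → ∀ A : ValuationSubring Kbar, A.LiesOverPrime l →
        ∀ σ : GQ, A.IsFrobeniusAt σ l →
          LinearMap.charpoly (ρ.ρ σ) = X ^ 2 - C (lam (Tl l)) * X + C (l : 𝒪)) ∧
      (∀ (q : ℕ) (u : 𝕋), q.Prime → q ≠ p → lam u ^ 2 = 1 →
        ∀ A : ValuationSubring Kbar, A.LiesOverPrime q → ∀ σ : GQ, A.IsFrobeniusAt σ q →
          (∀ v ∈ teEigen hecke lam,
            (((gal σ * gal σ - ((q : ℤ_[p]) ^ 2) • (1 : Module.End ℤ_[p] T)) *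
              (gal σ - hecke u)).baseChange 𝒪) v = 0) →
          LinearMap.charpoly (ρ.ρ σ) = X ^ 2 - C ((q : 𝒪) + 1) * X + C (q : 𝒪) ∨
          LinearMap.charpoly (ρ.ρ σ) = X ^ 2 + C ((q : 𝒪) + 1) * X + C (q : 𝒪)) := by
  have hp : p.Prime := Fact.out
  have hp0 : (p : 𝒪) ≠ 0 := Nat.cast_ne_zero.2 hp.ne_zero
  set ρ := teRep gal hecke hcomm hcont hp𝒪 hp0 lam h2 with hρ
  have hlN : ∀ l : ℕ, l.Prime → l ∉ S → ¬ l ∣ N ∧ l ≠ p := fun l hl hlS =>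
    ⟨fun h => hlS (hNS l hl h), fun h => hlS (h ▸ hpS)⟩
  have hq : ∀ l : ℕ, l.Prime → l ∉ S → ∀ A : ValuationSubring Kbar, A.LiesOverPrime l →
      ∀ φ : GQ, A.IsFrobeniusAt φ l →
        ρ.ρ φ * ρ.ρ φ - lam (Tl l) • ρ.ρ φ + (l : 𝒪) • (1 : Module.End 𝒪 ρ.V) = 0 :=
    fun l hl hlS A hA φ hφ =>
      teRep_quadratic gal hecke hcomm hcont hp𝒪 hp0 lam h2 φ (Tl l) l
        (hES l hl (hlN l hl hlS).1 (hlN l hl hlS).2 A hA φ hφ)
  obtain ⟨c, hcv⟩ := hc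
  obtain ⟨hcyc, hchar⟩ := te_charpoly_of_quadratic p ρ S hp𝒪 hpS
    (fun l hl hlS A hA φ hφ => ⟨lam (Tl l), hq l hl hlS A hA φ hφ⟩)
    ⟨c, teRep_not_scalar gal hecke hcomm hcont hp𝒪 hp0 lam h2 c hcv⟩
  refine ⟨ρ, fun l hl _ hlS A hA σ hσ => ?_, fun q u hq' hqp ha A hA σ hσ hrel => ?_⟩
  · exact hchar l hl hlS A hA σ hσ (lam (Tl l)) (hq l hl hlS A hA σ hσ)
  · have hcub := t2fRep_cubic gal hecke hcomm hcont hp𝒪 hp0 lam h2 σ u q hrel
    have hdet := t2f_det_frob p ρ hcyc hq' hqp hA hσ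
    have hcp := t2f_charpoly_of_cubic ρ.finrank_eq (ρ.ρ σ) (lam u) q hq'.two_le ha hdet hcub
    rcases sq_eq_one_iff.mp ha with ha' | ha'
    · left
      rw [hcp, ha', one_mul]
    · right
      rw [hcp, ha', neg_one_mul, map_neg, neg_mul, sub_neg_eq_add]

/-- **statement S35 from the Tate module packages with (H8) and the newness (F2)** -/
theorem t2f_S35_of_package
    (hpkg : ∀ (p : ℕ) [Fact p.Prime] (N : ℕ) [NeZero N], T2fPackage p N) (hnew : T2fNewform)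
    {M : ℕ} [NeZero M] {g : CuspForm (CongruenceSubgroup.Gamma0 M) 2} (hg : g.IsNewform)
    (lam : ℕ) [Fact lam.Prime]
    (S : Finset ℕ)
    (O' : Type) [CommRing O'] [IsDomain O'] [IsDiscreteValuationRing O']
    [IsAdicComplete (IsLocalRing.maximalIdeal O') O'] [Finite (IsLocalRing.ResidueField O')]
    [CharZero O'] (hlamO' : (lam : O') ∈ IsLocalRing.maximalIdeal O')
    (chig : CuspForm.heckeAlgebra M 2 (↑S : Set ℕ) →+* ℂ)
    (hchig : ∀ (ℓ : ℕ) (hℓ : ℓ.Prime) (hℓM : ¬ ℓ ∣ M) (hℓS : ℓ ∉ (↑S : Set ℕ)),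
      chig (CuspForm.heckeAlgebra.T hℓ hℓM hℓS) = ModularFormClass.qCoeff g ℓ)
    (iota : chig.range →+* O')
    (hlamS : lam ∈ S) (hMS : ∀ q : ℕ, q.Prime → q ∣ M → q ∈ S) :
    ∃ (O'' : Type) (_ : CommRing O'') (_ : IsDomain O'') (_ : IsDiscreteValuationRing O'')
      (_ : IsAdicComplete (IsLocalRing.maximalIdeal O'') O'')
      (_ : Finite (IsLocalRing.ResidueField O''))
      (_ : CharZero O'') (_ : Algebra O' O'') (_ : Module.Finite O' O'')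
      (_ : IsLocalHom (algebraMap O' O'')),
      Function.Injective (algebraMap O' O'') ∧
      ∃ ρ : GaloisRepAdic O'',
        (∀ (ℓ : ℕ) (hℓ : ℓ.Prime) (hℓM : ¬ ℓ ∣ M) (hℓS : ℓ ∉ (↑S : Set ℕ)),
          ∀ A : ValuationSubring (AlgebraicClosure ℚ), A.LiesOverPrime ℓ →
            ∀ σ : AlgebraicClosure ℚ ≃ₐ[ℚ] AlgebraicClosure ℚ, A.IsFrobeniusAt σ ℓ →
              LinearMap.charpoly (ρ.ρ σ) =
                X ^ 2 - C (algebraMap O' O'' ((iota.comp chig.rangeRestrict)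
                  (CuspForm.heckeAlgebra.T hℓ hℓM hℓS))) * X + C ((ℓ : O''))) ∧
        (∀ q : ℕ, q.Prime → q ≠ lam → q ∣ M → ¬ q ^ 2 ∣ M →
          ∀ A : ValuationSubring (AlgebraicClosure ℚ), A.LiesOverPrime q →
            ∀ σ : AlgebraicClosure ℚ ≃ₐ[ℚ] AlgebraicClosure ℚ, A.IsFrobeniusAt σ q →
              LinearMap.charpoly (ρ.ρ σ) = X ^ 2 - C ((q : O'') + 1) * X + C ((q : O'')) ∨
              LinearMap.charpoly (ρ.ρ σ) = X ^ 2 + C ((q : O'') + 1) * X + C ((q : O''))) := by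
  classical
  obtain ⟨O'', i1, i2, i3, i4, i5, i6, i7, i8, i9, hinj, ι', hι'inj, hι'⟩ :=
    t2fn_exists_lamg hg.1 (↑S : Set ℕ) hMS O' chig hchig iota
  refine ⟨O'', i1, i2, i3, i4, i5, i6, i7, i8, i9, hinj, ?_⟩
  have hp'' : (lam : O'') ∈ maximalIdeal O'' := by
    rw [mem_maximalIdeal, mem_nonunits_iff] at hlamO' ⊢
    intro hu
    apply hlamO'
    have : (lam : O'') = algebraMap O' O'' (lam : O') := (map_natCast _ lam).symm
    rw [this] at hu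
    exact isUnit_of_map_unit (algebraMap O' O'') _ hu
  letI : Algebra ℤ_[lam] O'' := tePadicAlgebra lam O'' hp''
  obtain ⟨T, j1, j2, j3, j4, gal, hecke, hcomm, hcont, hunr, hES, hH8, h56⟩ := hpkg lam M
  set lamg : CuspForm.heckeAlgebra M 2 (∅ : Set ℕ) →+* O'' :=
    ι'.comp (terEigenCharC hg.1 (∅ : Set ℕ)).rangeRestrict with hlamg
  obtain ⟨h2, hc⟩ := h56 O'' lamg
  set Tl : ℕ → CuspForm.heckeAlgebra M 2 (∅ : Set ℕ) := fun l =>
    if h : l.Prime ∧ ¬ l ∣ M then CuspForm.heckeAlgebra.T h.1 h.2 (Set.notMem_empty l) else 0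
    with hTl
  have hTl' : ∀ (l : ℕ) (hl : l.Prime) (hlM : ¬ l ∣ M),
      Tl l = CuspForm.heckeAlgebra.T hl hlM (Set.notMem_empty l) := by
    intro l hl hlM
    rw [hTl]
    simp only
    rw [dif_pos ⟨hl, hlM⟩]
  obtain ⟨ρ, hρ1, hρ2⟩ := t2f_galoisRep_of_package lam M S hlamS hMS gal hecke hcomm hcont Tl
    (fun l hl hlM hlp A hA σ hσ => by rw [hTl' l hl hlM]; exact hES l hl hlM hlp A hA σ hσ)
    hp'' lamg h2 hc
  refine ⟨ρ, fun ℓ hℓ hℓM hℓS A hA σ hσ => ?_, fun q hq hqlam hqM hq2 A hA σ hσ => ?_⟩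
  · rw [hρ1 ℓ hℓ hℓM hℓS A hA σ hσ, hTl' ℓ hℓ hℓM, RingHom.comp_apply, RingHom.comp_apply,
      ← hι' (CuspForm.heckeAlgebra.T hℓ hℓM hℓS)]
    rfl
  · obtain ⟨N', hN'⟩ := hqM
    have hM : M = N' * q := by rw [hN', mul_comm]
    have hN'0 : N' ≠ 0 := by
      rintro rfl
      rw [zero_mul] at hM
      exact NeZero.ne M hM
    haveI : NeZero N' := ⟨hN'0⟩
    have hqN' : ¬ q ∣ N' := by
      rintro ⟨r, rfl⟩
      apply hq2
      rw [hN', pow_two]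
      exact ⟨r, by ring⟩
    have hqM' : q ∣ M := ⟨N', hN'⟩
    have hnew' : T2fNewAt M N' lamg := hnew M g hg N' q hM hq O'' ι'
    obtain ⟨ha, hrel⟩ := hH8 q hq hqM' hqlam N' hM hqN' O'' lamg hnew'
    exact hρ2 q _ hq hqlam ha A hA σ hσ (hrel A hA σ hσ)

end

end Fermat.Agent.T2
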