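/-
T2-F (F2 = (P5)), helper8: **the newness core**.

* `t2fn_exists_eigenform_of_char` : every ring homomorphism `χ : heckeAlgebra N 2 S →+* ℂ` is the
  system of eigenvalues of a normalised eigenform of level `N` (going-up to the full Hecke algebra and
  the Eichler–Shimura lattice of level `N`).
* `t2fn_eq_zero_of_newform` : `g` a NEWFORM of level `M`, `N' ∣ M` a proper divisor, `X` a torsion-free
  module over a domain `𝒪` with an action of the Hecke algebra of level `N'` generated by the `T_ℓ`,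
  `ℓ ∤ M`.  A vector `x` with `T_ℓ x = ι (a_ℓ(g)) x` for all primes `ℓ ∤ M`, where `ι` is an injective
  ring homomorphism from a ring `R` of complex numbers containing the `a_ℓ(g)`, vanishes.
-/
import Fermat.Agent.Lib.T2.F.NewAlg
import Fermat.Agent.Lib.T1.Asm.Res.MultCusp
import Fermat.Agent.Lib.T1.Asm.Res.EigenChar
import Fermat.Agent.Lib.T1.Mono.Lattice
import Fermat.Agent.Lib.Helper8.HeckeEigen
import Fermat.Prelude.Def_CuspForm_Newforms

set_option autoImplicit false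
set_option linter.style.haveILetI false
set_option linter.unusedSectionVars false

namespace Fermat.Agent.T2

open ModularFormClass CuspForm Fermat.Agent.Lib.Helper8 Fermat.Agent.T1

local notation "Γ₀(" N ")" => CongruenceSubgroup.Gamma0 N

/-- **every complex character of a Hecke algebra of level `N` is the eigensystem of a normalised
eigenform of level `N`** -/
theorem t2fn_exists_eigenform_of_char (N : ℕ) [NeZero N] (S : Set ℕ)
    (χ : heckeAlgebra N 2 S →+* ℂ) :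
    ∃ f : CuspForm Γ₀(N) 2, f.IsNormalizedEigenform ∧
      ∀ (ℓ : ℕ) (hℓ : ℓ.Prime) (hℓN : ¬ ℓ ∣ N) (hℓS : ℓ ∉ S),
        qCoeff ⇑f ℓ = χ (heckeAlgebra.T hℓ hℓN hℓS) := by
  classical
  haveI : Module.Finite ℤ (heckeAlgebra N 2 (∅ : Set ℕ)) :=
    Fermat.Agent.S22Lib.moduleFinite_heckeAlgebra N 2 _
  let inc : heckeAlgebra N 2 S →+* heckeAlgebra N 2 (∅ : Set ℕ) :=
    (Subalgebra.inclusion (heckeAlgebra_mono (N := N) (k := 2) (Set.empty_subset S))).toRingHom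
  have hinc : Function.Injective inc := Subalgebra.inclusion_injective _
  have hint : inc.IsIntegral := by
    intro b
    obtain ⟨P, hP, hPb⟩ := (Algebra.IsIntegral.isIntegral (R := ℤ) b)
    refine ⟨P.map (Int.castRingHom _), hP.map _, ?_⟩
    rw [Polynomial.eval₂_map]
    have h1 : inc.comp (Int.castRingHom (heckeAlgebra N 2 S)) =
        algebraMap ℤ (heckeAlgebra N 2 (∅ : Set ℕ)) := RingHom.ext_int _ _
    rw [h1]
    exact hPb
  obtain ⟨ψ, hψ⟩ := t2fn_exists_lift_algClosed inc hinc hint χ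
  obtain ⟨f, hf1, hf⟩ :=
    (terCuspData (tdmHecke N) (tdmPhi N) (tdmHecke_spec N)).exists_eigenform ψ
  have hf1' : qCoeff ⇑f 1 = 1 := hf1
  have hf' : ∀ t : heckeAlgebra N 2 (∅ : Set ℕ),
      (t : Module.End ℂ (CuspForm Γ₀(N) 2)) f = ψ t • f := hf
  refine ⟨f, h8_isNormalizedEigenform_of_eigenvector f hf1' fun T hT => ⟨ψ ⟨T, hT⟩, hf' ⟨T, hT⟩⟩,
    fun ℓ hℓ hℓN hℓS => ?_⟩
  rw [← hψ]
  exact h8_qCoeff_prime_eq_eigenvalue f hf1' hℓ hℓN _
    (hf' (inc (heckeAlgebra.T hℓ hℓN hℓS)))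

/-- **the newness core**: the eigensystem of a newform of level `M` does not occur in a torsion-free
Hecke module of a proper divisor level -/
theorem t2fn_eq_zero_of_newform {M : ℕ} [NeZero M] {g : CuspForm Γ₀(M) 2} (hg : g.IsNewform)
    {N' : ℕ} [NeZero N'] (hN' : N' ∣ M) (hne : N' ≠ M)
    (S : Set ℕ) (hS : ∀ ℓ : ℕ, ℓ.Prime → (ℓ ∈ S ↔ ℓ ∣ M))
    {R : Type*} [CommRing R] (emb : R →+* ℂ)
    {𝒪 : Type*} [CommRing 𝒪] [IsDomain 𝒪] (ι : R →+* 𝒪) (hι : Function.Injective ι)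
    {X : Type*} [AddCommGroup X] [Module 𝒪 X] [Module.IsTorsionFree 𝒪 X]
    (act : heckeAlgebra N' 2 S →+* Module.End 𝒪 X) (x : X)
    (a : ℕ → R) (ha : ∀ ℓ : ℕ, ℓ.Prime → ¬ ℓ ∣ M → emb (a ℓ) = qCoeff ⇑g ℓ)
    (hx : ∀ (ℓ : ℕ) (hℓ : ℓ.Prime) (hℓM : ¬ ℓ ∣ M),
      act (heckeAlgebra.T hℓ (fun h => hℓM (h.trans hN')) (fun h => hℓM ((hS ℓ hℓ).mp h))) x =
        ι (a ℓ) • x) :
    x = 0 := by
  classical
  by_contra hx0
  have hgen : ∀ (t : Module.End ℂ (CuspForm Γ₀(N') 2)) (ht : t ∈ heckeGenerators N' 2 S),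
      ∃ r : R, act ⟨t, Algebra.subset_adjoin ht⟩ x = ι r • x := by
    rintro t (⟨ℓ, hℓ, hℓN, hℓS, rfl⟩ | ⟨q, hqN, hq, hqS, rfl⟩)
    · have hℓM : ¬ ℓ ∣ M := fun h => hℓS ((hS ℓ hℓ).mpr h)
      exact ⟨a ℓ, hx ℓ hℓ hℓM⟩
    · exact absurd ((hS q hq).mpr (hqN.trans hN')) hqS
  obtain ⟨χ, hχ⟩ : ∃ χ : heckeAlgebra N' 2 S →+* R, ∀ t, act t x = ι (χ t) • x :=
    t2fn_exists_complexChar (heckeGenerators N' 2 S) ι hι act x hx0 hgen
  obtain ⟨f, hf, hfℓ⟩ := t2fn_exists_eigenform_of_char N' S (emb.comp χ)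
  refine hg.2 N' hN' hne ⟨f, hf, fun ℓ hℓ hℓM => ?_⟩
  rw [hfℓ ℓ hℓ (fun h => hℓM (h.trans hN')) (fun h => hℓM ((hS ℓ hℓ).mp h)), RingHom.comp_apply,
    ← ha ℓ hℓ hℓM]
  congr 1
  apply hι
  apply t2fn_eigenvalue_unique hx0
  rw [← hχ]
  exact hx ℓ hℓ hℓM

end Fermat.Agent.T2
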