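/-
T2-F (F2), helper8: **`t2f_newform : T2fNewform`** — the full eigencharacter of a newform of level
`M = N' q` (composed with any ring homomorphism from its range to a domain of characteristic zero)
does not occur at level `N'`.

Proof: such a `j` is injective (`t2fn_injective_of_isIntegral`); a character `lam'` of the Hecke
algebra of level `N'` away from `M` with `lam' T_l = j (a_l(g))` makes `𝒪` a torsion-free Hecke
module of level `N'` in which `1` is an eigenvector with the eigenvalues of `g`, contradicting the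
newness core `t2fn_eq_zero_of_newform`.
-/
import Fermat.Agent.Lib.T2.F.Defs
import Fermat.Agent.Lib.T2.F.NewCore

set_option autoImplicit false
set_option linter.style.haveILetI false
set_option linter.unusedSectionVars false

namespace Fermat.Agent.T2

open ModularFormClass CuspForm Fermat.Agent.Lib.Helper8 Fermat.Agent.T1

/-- **(F2)** -/
theorem t2f_newform : T2fNewform := by
  classical
  intro M _ g hg N' q _ hM hq 𝒪 _ _ _ j
  rintro ⟨lam', hlam'⟩
  let ψ := terEigenCharC hg.1 (∅ : Set ℕ)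
  haveI : Module.Finite ℤ (heckeAlgebra M 2 (∅ : Set ℕ)) :=
    Fermat.Agent.S22Lib.moduleFinite_heckeAlgebra M 2 _
  haveI hfin : Module.Finite ℤ ψ.range :=
    Module.Finite.of_surjective ψ.rangeRestrict.toIntAlgHom.toLinearMap ψ.rangeRestrict_surjective
  haveI : Algebra.IsIntegral ℤ ψ.range := Algebra.IsIntegral.of_finite ℤ _
  have hj : Function.Injective j := t2fn_injective_of_isIntegral j
  have hN'M : N' ∣ M := ⟨q, hM⟩
  have hne : N' ≠ M := by
    intro h
    have h2 := hq.two_le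
    have h0 : 0 < N' := Nat.pos_of_ne_zero (NeZero.ne N')
    rw [hM] at h
    nlinarith
  let S : Set ℕ := {r : ℕ | r ∣ M}
  have hS : ∀ ℓ : ℕ, ℓ.Prime → (ℓ ∈ S ↔ ℓ ∣ M) := fun ℓ _ => Iff.rfl
  let act : heckeAlgebra N' 2 S →+* Module.End 𝒪 𝒪 :=
    (Algebra.lmul 𝒪 𝒪).toRingHom.comp lam'
  have hact : ∀ t, act t (1 : 𝒪) = lam' t := fun t => by
    show lam' t * 1 = lam' t
    rw [mul_one]
  let a : ℕ → ψ.range := fun ℓ =>
    if h : ℓ.Prime ∧ ¬ ℓ ∣ M then ψ.rangeRestrict (heckeAlgebra.T h.1 h.2 (Set.notMem_empty ℓ))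
    else 0
  have ha : ∀ (ℓ : ℕ) (hℓ : ℓ.Prime) (hℓM : ¬ ℓ ∣ M),
      a ℓ = ψ.rangeRestrict (heckeAlgebra.T hℓ hℓM (Set.notMem_empty ℓ)) := by
    intro ℓ hℓ hℓM
    simp only [a]
    rw [dif_pos ⟨hℓ, hℓM⟩]
  have h1 : (1 : 𝒪) = 0 := by
    refine t2fn_eq_zero_of_newform hg hN'M hne S hS ψ.range.subtype j hj act (1 : 𝒪) a ?_ ?_
    · intro ℓ hℓ hℓM
      rw [ha ℓ hℓ hℓM]
      exact terEigenCharC_T hg.1 _ hℓ hℓM _
    · intro ℓ hℓ hℓM
      rw [hact, ha ℓ hℓ hℓM, smul_eq_mul, mul_one]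
      exact hlam' ℓ hℓ hℓM (fun h => hℓM (h.trans hN'M))
  exact one_ne_zero h1

end Fermat.Agent.T2
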