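/-
T2-F (helper3), (F1-e): **the Tate module package with (H8)** `T2fPackage p N`, from the dictionary,
(K3), and the four inputs (P1-K), (P4-K), (WT), (P3).
`t2f_package` is a copy of `tdm_package` (Lib/T1/Mono/Package.lean) with the additional output (H8)
(`t2f_H8`, from `t2f_frob_rel` and `t2f_a_sq`).
-/
import Mathlib
import Fermat.Agent.Lib.T1.Mono.Final
import Fermat.Agent.Lib.T2.F.H8
import Fermat.Agent.Lib.T1.Dict.DescentSurj
import Fermat.Agent.Lib.T1.Kron.K3Bridge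
import Fermat.Agent.Lib.T1.S18.AllLevels

set_option autoImplicit false
set_option linter.unusedSectionVars false
set_option linter.unusedVariables false
set_option linter.style.haveILetI false

namespace Fermat.Agent.T2

open Complex Set Filter Topology Matrix MatrixGroups CongruenceSubgroup ModularCurve
open UpperHalfPlane hiding I
open Fermat.Agent.S24Lib ModularCurve.Period Fermat.Agent.T1
open scoped TensorProduct

local notation "Kbar" => AlgebraicClosure ℚ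
local notation "GQ" => (AlgebraicClosure ℚ ≃ₐ[ℚ] AlgebraicClosure ℚ)

noncomputable section

/-- **(H8)** for the Tate module of `J₀(N)` -/
theorem t2f_H8 (p : ℕ) [hp : Fact p.Prime] (N : ℕ) [NeZero N] {DK : TdmDict Kbar N}
    {DC : TdmDictC N} (E : TdmDescent N DK DC) (hDK : DK.toMer = KMod.toMer Kbar N)
    (h1 : T2fP1K) (h4 : T2fP4K) (hwt : T2fWT) (h3 : T2fP3)
    (h5 : ∀ (𝒪 : Type) [CommRing 𝒪] [IsDomain 𝒪] [IsDiscreteValuationRing 𝒪] [CharZero 𝒪]
      [Algebra ℤ_[p] 𝒪] (lam : CuspForm.heckeAlgebra N 2 (∅ : Set ℕ) →+* 𝒪),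
      Module.finrank 𝒪 ↥(teEigen (tdmHeckeP p N) lam) = 2) :
    T2fH8 p N (t2fGal p E) (tdmHeckeP p N) := by
  intro q hq hqN hqp N' _ hN hqN' 𝒪 _ _ _ _ _ lam hnew
  subst hN
  haveI : Fact q.Prime := ⟨hq⟩
  -- a non-zero vector of the eigen-lattice
  have hex : ∃ v ∈ teEigen (tdmHeckeP p (N' * q)) lam, v ≠ 0 := by
    by_contra hcon
    have hbot : teEigen (tdmHeckeP p (N' * q)) lam = ⊥ :=
      (Submodule.eq_bot_iff _).mpr (fun v hv => by_contra (fun h0 => hcon ⟨v, hv, h0⟩))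
    have h2 := h5 𝒪 lam
    rw [hbot, finrank_bot] at h2
    exact absurd h2 (by norm_num)
  obtain ⟨v0, hv0, hv0'⟩ := hex
  have ha : t2fA N' q lam ^ 2 = 1 := t2f_a_sq p N' q hqN' lam hwt h3 hnew hv0 hv0'
  refine ⟨ha, fun A hA φ hφ v hv => ?_⟩
  exact t2f_frob_rel p N' q hqN' E lam h1 h4 hwt h3 hqp hDK hnew ha A hA φ hφ hv

section Package

variable (p : ℕ) [hp : Fact p.Prime] (N : ℕ) [NeZero N]

local notation "𝕋" => CuspForm.heckeAlgebra N 2 (∅ : Set ℕ)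
set_option quotPrecheck false in
local notation "TT" => ↥(parabolicHoms ℤ_[p] (Gamma0 N) ℤ_[p])

/-- **the Tate module package with (H8)**: copy of `tdm_package` with the additional output (H8) -/
theorem t2f_package (DK : TdmDict Kbar N) (hDK : DK.toMer = KMod.toMer Kbar N) (DC : TdmDictC N)
    (E : TdmDescent N DK DC)
    (hconj : ∀ y : ↥(modularFunctionFieldBar N),
      DK.fn (arithmeticRingAut (modularFunctionFieldFull N) complexConjugation y)
        = tdmConj (DK.fn y))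
    (hfix : ∀ y : ↥(modularFunctionFieldBar N), ∃ L : IntermediateField ℚ Kbar,
      FiniteDimensional ℚ L ∧ ∀ σ : GQ, (∀ x ∈ L, σ x = x) →
        arithmeticRingAut (modularFunctionFieldFull N) σ y = y)
    (hK3 : ∀ q : ℕ, q.Prime → ¬ q ∣ N → q ≠ p → ∀ A : ValuationSubring Kbar,
      A.LiesOverPrime q → ∀ k : ℕ, TkrK12 N (p ^ k) A ∧ TkrNormal N A)
    (h1 : T2fP1K) (h4 : T2fP4K) (hwt : T2fWT) (h3 : T2fP3)
    (hheckeT : ∀ (l : ℕ) (hl : l.Prime) (hlN : ¬ l ∣ N) (φ : TT),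
      ((tdmHeckeP p N (CuspForm.heckeAlgebra.T hl hlN (Set.notMem_empty l)) φ : TT) :
        Additive (Gamma0 N) →+ ℤ_[p])
        = (tdmSysT N l hl hlN).hom ℤ_[p] (φ : Additive (Gamma0 N) →+ ℤ_[p]))
    (hheckeU : ∀ (q : ℕ) (hq : q.Prime) (hqN : q ∣ N) (φ : TT),
      ((tdmHeckeP p N (CuspForm.heckeAlgebra.U hq hqN (Set.notMem_empty q)) φ : TT) :
        Additive (Gamma0 N) →+ ℤ_[p])
        = (tdmSysU N q hqN hq.ne_zero).hom ℤ_[p] (φ : Additive (Gamma0 N) →+ ℤ_[p]))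
    (h5 : ∀ (𝒪 : Type) [CommRing 𝒪] [IsDomain 𝒪] [IsDiscreteValuationRing 𝒪] [CharZero 𝒪]
      [Algebra ℤ_[p] 𝒪] (lam : 𝕋 →+* 𝒪), Module.finrank 𝒪 ↥(teEigen (tdmHeckeP p N) lam) = 2)
    (h6 : ∀ w : Module.End ℤ_[p] TT,
      (∀ φ : TT, ((w φ : TT) : Additive (Gamma0 N) →+ ℤ_[p])
        = -(charInvolution N ℤ_[p] ℤ_[p] (φ : Additive (Gamma0 N) →+ ℤ_[p]))) →
      ∀ (𝒪 : Type) [CommRing 𝒪] [IsDomain 𝒪] [IsDiscreteValuationRing 𝒪] [CharZero 𝒪]
        [Algebra ℤ_[p] 𝒪] (lam : 𝕋 →+* 𝒪),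
        ∃ v ∈ teEigen (tdmHeckeP p N) lam, ∀ z : 𝒪, w.baseChange 𝒪 v ≠ z • v) :
    T2fPackage p N := by
  classical
  set hecke : 𝕋 →+* Module.End ℤ_[p] TT := tdmHeckeP p N with hhecke
  set D := tdmTowerN p N with hD
  set gal : GQ →* Module.End ℤ_[p] TT := t2fGal p E with hgal
  have hιgal : ∀ (σ : GQ) (x : TT) (k : ℕ), D.ι k (gal σ x) = E.galW p k σ (D.ι k x) :=
    fun σ x k => D.ι_action (E.galW p) (E.galW_compat p) σ x k
  -- Hecke operators at finite level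
  have hιT : ∀ (l : ℕ) (hl : l.Prime) (hlN : ¬ l ∣ N) (k : ℕ) (x : TT),
      D.ι k (hecke (CuspForm.heckeAlgebra.T hl hlN (Set.notMem_empty l)) x)
        = MonoidHom.toAdditive ((tdmSysT N l hl hlN).homX (p ^ k)) (D.ι k x) :=
    fun l hl hlN k x => tdm_ι_hom p (tdmSysT N l hl hlN) k x _ (hheckeT l hl hlN x)
  have hιU : ∀ (q : ℕ) (hq : q.Prime) (hqN : q ∣ N) (k : ℕ) (x : TT),
      D.ι k (hecke (CuspForm.heckeAlgebra.U hq hqN (Set.notMem_empty q)) x)
        = MonoidHom.toAdditive ((tdmSysU N q hqN hq.ne_zero).homX (p ^ k)) (D.ι k x) :=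
    fun q hq hqN k x => tdm_ι_hom p (tdmSysU N q hqN hq.ne_zero) k x _ (hheckeU q hq hqN x)
  -- (H1)
  have hcomm : ∀ (σ : GQ) (t : 𝕋), gal σ * hecke t = hecke t * gal σ := by
    intro σ t
    obtain ⟨t, ht⟩ := t
    induction ht using Algebra.adjoin_induction with
    | mem x hx =>
      rcases hx with ⟨l, hl, hlN, -, rfl⟩ | ⟨q, hqN, hq, -, rfl⟩
      · apply D.end_ext
        intro k x
        have e1 : (⟨CuspForm.heckeTLin 2 hl hlN, Algebra.subset_adjoin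
            (Or.inl ⟨l, hl, hlN, Set.notMem_empty l, rfl⟩)⟩ : 𝕋)
            = CuspForm.heckeAlgebra.T hl hlN (Set.notMem_empty l) := rfl
        rw [e1, Module.End.mul_apply, Module.End.mul_apply, hιgal, hιT, hιT, hιgal]
        exact congrArg Additive.ofMul (E.galX_op (tdmSysT N l hl hlN) (tdm_prime_pow_ne_zero p k)
          (tkrHeckeUnits N l) (DK.fn_heckeT hDK l hl hlN) (tkrHeckeUnits_sig l) σ _)
      · apply D.end_ext
        intro k x
        have e1 : (⟨CuspForm.heckeULin 2 hqN, Algebra.subset_adjoin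
            (Or.inr ⟨q, hqN, hq, Set.notMem_empty q, rfl⟩)⟩ : 𝕋)
            = CuspForm.heckeAlgebra.U hq hqN (Set.notMem_empty q) := rfl
        rw [e1, Module.End.mul_apply, Module.End.mul_apply, hιgal, hιU, hιU, hιgal]
        exact congrArg Additive.ofMul (E.galX_op (tdmSysU N q hqN hq.ne_zero)
          (tdm_prime_pow_ne_zero p k)
          (tkrHeckeUUnits N q) (DK.fn_heckeU hDK q hq hqN) (tkrHeckeUUnits_sig q) σ _)
    | algebraMap r =>
      have e1 : (⟨algebraMap ℤ (Module.End ℂ (CuspForm (Gamma0 N) 2)) r,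
          Subalgebra.algebraMap_mem _ r⟩ : 𝕋) = ((r : ℤ) : 𝕋) := by
        apply Subtype.ext
        simp
      rw [e1, map_intCast]
      exact (Int.cast_commute r (gal σ)).symm.eq
    | add x y hx hy ihx ihy =>
      have e1 : (⟨x + y, add_mem hx hy⟩ : 𝕋) = ⟨x, hx⟩ + ⟨y, hy⟩ := rfl
      rw [e1, map_add, mul_add, add_mul, ihx, ihy]
    | mul x y hx hy ihx ihy =>
      have e1 : (⟨x * y, mul_mem hx hy⟩ : 𝕋) = ⟨x, hx⟩ * ⟨y, hy⟩ := rfl
      rw [e1, map_mul, ← mul_assoc, ihx, mul_assoc, ihy, mul_assoc]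
  -- (H2)
  have hcont : ∀ n : ℕ, ∃ L : IntermediateField ℚ Kbar, FiniteDimensional ℚ L ∧
      ∀ σ : GQ, (∀ x ∈ L, σ x = x) → ∀ v : TT, ∃ w : TT, gal σ v - v = (p : ℤ_[p]) ^ n • w := by
    intro n
    obtain ⟨L, hL, h1⟩ := E.galX_cont (tdm_prime_pow_ne_zero p n) hfix
    refine ⟨L, hL, fun σ hσ v => ?_⟩
    apply D.exists_of_ι_eq_zero n
    rw [map_sub, hιgal, E.galW_apply p, h1 σ hσ, sub_eq_zero]
    rfl
  -- (H3)
  have hunr : ∀ q : ℕ, q.Prime → ¬ q ∣ N → q ≠ p → ∀ P : ValuationSubring Kbar,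
      P.LiesOverPrime q → ∀ σ ∈ P.inertiaSubgroupIn ℚ, gal σ = 1 := by
    intro q hq hqN hqp P hP σ hσ
    apply D.end_ext
    intro k x
    rw [hιgal, E.galW_apply p, Module.End.one_apply,
      E.galX_eq_self (tdm_prime_pow_ne_zero p k) σ (fun y hy =>
        tkr_K3_inertia (hK3 q hq hqN hqp P hP k).1 (hK3 q hq hqN hqp P hP k).2
          (tdm_prime_pow_ne_zero p k) hσ hy)]
    rfl
  -- (H4)
  have hES : ∀ (l : ℕ) (hl : l.Prime) (hlN : ¬ l ∣ N), l ≠ p → ∀ A : ValuationSubring Kbar,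
      A.LiesOverPrime l → ∀ σ : GQ, A.IsFrobeniusAt σ l →
        gal σ * gal σ - hecke (CuspForm.heckeAlgebra.T hl hlN (Set.notMem_empty l)) * gal σ +
          (l : ℤ_[p]) • (1 : Module.End ℤ_[p] TT) = 0 := by
    intro l hl hlN hlp A hA σ hσ
    apply D.end_ext
    intro k x
    have h2 : D.ι k (((l : ℤ_[p]) • (1 : Module.End ℤ_[p] TT)) x) = l • D.ι k x := by
      rw [LinearMap.smul_apply, Module.End.one_apply, Nat.cast_smul_eq_nsmul, map_nsmul]
    have h3 := E.galX_frob (tdmSysT N l hl hlN) (tdm_prime_pow_ne_zero p k) l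
      (tkrHeckeUnits N l) (DK.fn_heckeT hDK l hl hlN) σ (fun y hy hT =>
        tkr_K3_frob (hK3 l hl hlN hlp A hA k).1 (hK3 l hl hlN hlp A hA k).2
          (tdm_prime_pow_ne_zero p k) hl hlN hA hσ hy hT) (Additive.toMul (D.ι k x))
    have h4 : E.galW p k σ (E.galW p k σ (D.ι k x)) + l • D.ι k x
        = MonoidHom.toAdditive ((tdmSysT N l hl hlN).homX (p ^ k)) (E.galW p k σ (D.ι k x)) :=
      congrArg Additive.ofMul h3
    simp only [LinearMap.add_apply, LinearMap.sub_apply, Module.End.mul_apply, map_add, map_sub,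
      hιgal, hιT, h2, LinearMap.zero_apply, map_zero]
    rw [← h4]
    abel
  -- complex conjugation
  have hc : ∀ φ : TT, ((gal complexConjugation φ : TT) : Additive (Gamma0 N) →+ ℤ_[p])
      = -(charInvolution N ℤ_[p] ℤ_[p] (φ : Additive (Gamma0 N) →+ ℤ_[p])) := by
    intro φ
    set ψ : TT := ⟨-(charInvolution N ℤ_[p] ℤ_[p] (φ : Additive (Gamma0 N) →+ ℤ_[p])),
      (parabolicHoms ℤ_[p] (Gamma0 N) ℤ_[p]).neg_mem
        (charInvolution_mem_parabolicHoms N ℤ_[p] ℤ_[p] φ.2)⟩ with hψ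
    have h1 : gal complexConjugation φ = ψ := by
      apply D.ext_elem
      intro k
      rw [hιgal, tdm_ι_conj p k φ ψ rfl, E.galW_apply p,
        E.galX_conj (tdm_prime_pow_ne_zero p k) complexConjugation hconj]
      rfl
    rw [h1]
  refine ⟨TT, inferInstance, inferInstance, inferInstance, inferInstance, gal, hecke, hcomm, hcont,
    hunr, hES, t2f_H8 p N E hDK h1 h4 hwt h3 h5, fun 𝒪 _ _ _ _ _ lam => ⟨h5 𝒪 lam, ?_⟩⟩
  obtain ⟨v, hv, hvz⟩ := h6 (gal complexConjugation) hc 𝒪 lam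
  exact ⟨complexConjugation, v, hv, hvz⟩

end Package

variable (p : ℕ) [hp : Fact p.Prime] (N : ℕ) [NeZero N]

/-- **the Tate module package with (H8) from the dictionary, (K3) and the four inputs** -/
theorem t2f_package_of_dict (DK : TdmDict Kbar N) (hDK : DK.toMer = KMod.toMer Kbar N)
    (DC : TdmDictC N) (E : TdmDescent N DK DC)
    (hK3 : ∀ q : ℕ, q.Prime → ¬ q ∣ N → q ≠ p → ∀ A : ValuationSubring Kbar,
      A.LiesOverPrime q → ∀ k : ℕ, TkrK12 N (p ^ k) A ∧ TkrNormal N A)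
    (h1 : T2fP1K) (h4 : T2fP4K) (hwt : T2fWT) (h3 : T2fP3) :
    T2fPackage p N := by
  refine t2f_package p N DK hDK DC E ?_ (tdd_exists_finite_fixing N) hK3 h1 h4 hwt h3
    (tdmHeckeP_T p N) (tdmHeckeP_U p N) ?_ ?_
  · intro y
    rw [TdmDict.fn_apply, TdmDict.fn_apply, hDK]
    exact tdd_toMer_conj N y
  · intro 𝒪 _ _ _ _ _ lam
    exact ter_finrank_teEigen (tdmHecke N) (tdmPhi N) (tdmHecke_spec N) (tdmBC N ℤ_[p])
      (tdmHeckeP p N) (tdmHeckeP_he p N) lam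
  · intro w hw 𝒪 _ _ _ _ _ lam
    refine ter_exists_not_scalar_teEigen_neg (tdmHecke N) (tdmPhi N) (tdmHecke_spec N)
      (tdmW N ℤ ℤ) (tdmW_spec N) (tdmBC N ℤ_[p]) (tdmHeckeP p N) (tdmHeckeP_he p N) lam w ?_
    intro x
    apply Subtype.ext
    rw [hw, LinearMap.baseChange_neg, LinearMap.neg_apply, map_neg, tdmBC_tdmW]
    rfl

/-- the Tate module package of `J₀(N)` with (H8), from the four inputs -/
theorem t2f_package_all (h1 : T2fP1K) (h4 : T2fP4K) (hwt : T2fWT) (h3 : T2fP3) :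
    T2fPackage p N :=
  t2f_package_of_dict p N (tddDict (AlgebraicClosure ℚ) N)
    (tddDict_toMer (AlgebraicClosure ℚ) N)
    (tddDictC N (tddDict ℂ N) (tddDict_toMer ℂ N))
    (tddDescent N)
    (tkr_hK3_of_inputs N
      (fun 𝔓 _ _ hM H hH => tbq_allLevelsOK 𝔓 _ hM H hH)
      (fun 𝔓 _ _ hM h49 => tkr_barOK 𝔓 h49 hM) p Fact.out)
    h1 h4 hwt h3

end

end Fermat.Agent.T2
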