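/-
T2-F (L2) (helper1): pure linear algebra for the S35 glue.

`t2f_charpoly_of_cubic`: an endomorphism `f` of a free module of rank two over a domain of
characteristic zero with `det f = q` (`2 ≤ q`) and `(f² - q²)(f - a) = 0`, `a² = 1`, has
characteristic polynomial `X² - a (q + 1) X + q = (X - a)(X - q a)`.
-/
import Mathlib
set_option autoImplicit false

namespace Fermat.Agent.T2

/-- the matrix form of `t2f_charpoly_of_cubic`: trace of a `2 × 2` matrix with `det = q` and
`(M² - q²)(M - a) = 0`, `a² = 1`, `2 ≤ q`, over a domain of characteristic zero -/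
theorem t2f_trace_of_cubic {R : Type*} [CommRing R] [IsDomain R] [CharZero R]
    (M : Matrix (Fin 2) (Fin 2) R) (a : R) (q : ℕ) (hq : 2 ≤ q) (ha : a ^ 2 = 1)
    (hdet : M.det = (q : R))
    (h : (M * M - ((q : R) ^ 2) • (1 : Matrix (Fin 2) (Fin 2) R)) * (M - a • 1) = 0) :
    M.trace = a * ((q : R) + 1) := by
  have hq0 : (q : R) ≠ 0 := by
    have : q ≠ 0 := by omega
    exact_mod_cast this
  have hq1 : (q : R) ≠ 1 := by
    have : q ≠ 1 := by omega
    exact_mod_cast this
  set x := M 0 0 with hx
  set y := M 0 1 with hy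
  set z := M 1 0 with hz
  set w := M 1 1 with hw
  have hd : x * w - y * z = (q : R) := by
    rw [← hdet, Matrix.det_fin_two]
  have e00 := congrFun (congrFun h 0) 0
  have e01 := congrFun (congrFun h 0) 1
  have e10 := congrFun (congrFun h 1) 0
  have e11 := congrFun (congrFun h 1) 1
  simp only [Matrix.mul_apply, Fin.sum_univ_two, Matrix.sub_apply, Matrix.smul_apply,
    Matrix.one_apply_eq, Matrix.one_apply_ne, ne_eq, Fin.isValue, zero_ne_one, one_ne_zero,
    not_false_eq_true, smul_eq_mul, mul_one, mul_zero, sub_zero, Matrix.zero_apply,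
    ← hx, ← hy, ← hz, ← hw] at e00 e01 e10 e11
  rw [Matrix.trace_fin_two, ← hx, ← hw]
  set t := x + w with ht
  set c := t ^ 2 - a * t - (q : R) - (q : R) ^ 2 with hc
  set e := a * ((q : R) + (q : R) ^ 2) - t * (q : R) with he
  have h00 : c * x + e = 0 := by
    rw [hc, he, ht]; linear_combination e00 + (2 * x + w - a) * hd
  have h01 : c * y = 0 := by
    rw [hc, ht]; linear_combination e01 + y * hd
  have h10 : c * z = 0 := by
    rw [hc, ht]; linear_combination e10 + z * hd
  have h11 : c * w + e = 0 := by
    rw [hc, he, ht]; linear_combination e11 + (x + 2 * w - a) * hd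
  by_cases hc0 : c = 0
  · have he0 : e = 0 := by rw [hc0, zero_mul, zero_add] at h00; exact h00
    have : (q : R) * (a * ((q : R) + 1) - t) = 0 := by rw [← he0, he]; ring
    rcases mul_eq_zero.mp this with h1 | h1
    · exact absurd h1 hq0
    · exact (sub_eq_zero.mp h1).symm
  · exfalso
    have hy0 : y = 0 := (mul_eq_zero.mp h01).resolve_left hc0
    have hz0 : z = 0 := (mul_eq_zero.mp h10).resolve_left hc0
    have hxw : x = w := by
      have : c * (x - w) = 0 := by linear_combination h00 - h11
      exact sub_eq_zero.mp ((mul_eq_zero.mp this).resolve_left hc0)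
    have hs : x * x = (q : R) := by
      rw [hy0, hz0, ← hxw] at hd; linear_combination hd
    have hfin : (q : R) * (1 - (q : R)) * (x - a) = 0 := by
      have h00' := h00
      rw [hc, he, ht, ← hxw] at h00'
      linear_combination h00' + (-(4 : R) * x + 2 * a) * hs
    have hxa : x = a := by
      rcases mul_eq_zero.mp hfin with h1 | h1
      · rcases mul_eq_zero.mp h1 with h2 | h2
        · exact absurd h2 hq0
        · exact absurd (sub_eq_zero.mp h2).symm hq1
      · exact sub_eq_zero.mp h1
    apply hq1
    rw [← hs, hxa, ← pow_two, ha]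

/-- an endomorphism `f` of a free module of rank two over a domain of characteristic zero with
`det f = q`, `2 ≤ q`, `(f² - q²)(f - a) = 0` and `a² = 1` has characteristic polynomial
`X² - a (q + 1) X + q` -/
theorem t2f_charpoly_of_cubic {R V : Type*} [CommRing R] [IsDomain R] [CharZero R]
    [AddCommGroup V] [Module R V] [Module.Free R V] [Module.Finite R V]
    (hV : Module.finrank R V = 2) (f : Module.End R V) (a : R) (q : ℕ) (hq : 2 ≤ q)
    (ha : a ^ 2 = 1) (hdet : LinearMap.det f = (q : R))
    (h : (f * f - ((q : R) ^ 2) • (1 : Module.End R V)) * (f - a • (1 : Module.End R V)) = 0) :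
    LinearMap.charpoly f =
      Polynomial.X ^ 2 - Polynomial.C (a * ((q : R) + 1)) * Polynomial.X
        + Polynomial.C (q : R) := by
  classical
  let b : Module.Basis (Fin 2) R V := Module.finBasisOfFinrankEq R V hV
  set M := LinearMap.toMatrix b b f with hM
  have hdetM : M.det = (q : R) := by rw [hM, LinearMap.det_toMatrix]; exact hdet
  have hrel : (M * M - ((q : R) ^ 2) • (1 : Matrix (Fin 2) (Fin 2) R)) * (M - a • 1) = 0 := by
    have := congrArg (LinearMap.toMatrix b b) h
    rw [LinearMap.toMatrix_mul, map_sub, map_sub, LinearMap.toMatrix_mul, map_smul, map_smul,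
      LinearMap.toMatrix_one, map_zero] at this
    exact this
  have htr := t2f_trace_of_cubic M a q hq ha hdetM hrel
  rw [← LinearMap.charpoly_toMatrix f b, Matrix.charpoly_fin_two, ← hM, htr, hdetM]

end Fermat.Agent.T2
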