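/-
T2-F (F2 = (P5)), helper8: **the eigen-lattice of a newform is killed by every Hecke-equivariant map to
a Tate module of lower level**.

`t2fn_baseChange_eq_zero` : `g` a newform of level `M`, `lam_g = ι' ∘ ψ_g` its eigencharacter with
values in `𝒪` (`ι'` injective, `t2fn_exists_lamg`); `T`, `T'` the `p`-adic Hecke modules of level `M`
and `N' ∣ M`, `N' ≠ M`; `α : T → T'` a `ℤ_p`-linear map with `α ∘ T_ℓ = T_ℓ ∘ α` for the primes
`ℓ ∤ M`.  Then `α ⊗ 𝒪` kills `teEigen hecke lam_g`.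
-/
import Fermat.Agent.Lib.T2.F.NewCore
import Fermat.Agent.Lib.T2.F.NewLam
import Fermat.Agent.Lib.T1.Asm.EigenRep

set_option autoImplicit false
set_option linter.style.haveILetI false
set_option linter.unusedSectionVars false

open scoped TensorProduct

namespace Fermat.Agent.T2

open ModularFormClass CuspForm Fermat.Agent.Lib.Helper8 Fermat.Agent.T1

local notation "Γ₀(" N ")" => CongruenceSubgroup.Gamma0 N

/-- **(P5)**: the eigen-lattice of a newform dies in every lower level -/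
theorem t2fn_baseChange_eq_zero {p : ℕ} [Fact p.Prime] {M : ℕ} [NeZero M]
    {g : CuspForm Γ₀(M) 2} (hg : g.IsNewform)
    {N' : ℕ} [NeZero N'] (hN' : N' ∣ M) (hne : N' ≠ M)
    {T T' : Type} [AddCommGroup T] [Module ℤ_[p] T] [AddCommGroup T'] [Module ℤ_[p] T']
    [Module.Free ℤ_[p] T']
    (hecke : heckeAlgebra M 2 (∅ : Set ℕ) →+* Module.End ℤ_[p] T)
    (hecke' : heckeAlgebra N' 2 (∅ : Set ℕ) →+* Module.End ℤ_[p] T')
    (α : T →ₗ[ℤ_[p]] T')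
    (hα : ∀ (ℓ : ℕ) (hℓ : ℓ.Prime) (hℓM : ¬ ℓ ∣ M),
      α ∘ₗ hecke (heckeAlgebra.T hℓ hℓM (Set.notMem_empty ℓ)) =
        hecke' (heckeAlgebra.T hℓ (fun h => hℓM (h.trans hN')) (Set.notMem_empty ℓ)) ∘ₗ α)
    {𝒪 : Type} [CommRing 𝒪] [IsDomain 𝒪] [Algebra ℤ_[p] 𝒪]
    (ι' : (terEigenCharC hg.1 (∅ : Set ℕ)).range →+* 𝒪) (hι' : Function.Injective ι')
    {v : 𝒪 ⊗[ℤ_[p]] T}
    (hv : v ∈ teEigen hecke (ι'.comp (terEigenCharC hg.1 (∅ : Set ℕ)).rangeRestrict)) :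
    α.baseChange 𝒪 v = 0 := by
  classical
  let ψ := terEigenCharC hg.1 (∅ : Set ℕ)
  let S : Set ℕ := {ℓ | ℓ ∣ M}
  have hS : ∀ ℓ : ℕ, ℓ.Prime → (ℓ ∈ S ↔ ℓ ∣ M) := fun ℓ _ => Iff.rfl
  let inc : heckeAlgebra N' 2 S →+* heckeAlgebra N' 2 (∅ : Set ℕ) :=
    (Subalgebra.inclusion (heckeAlgebra_mono (N := N') (k := 2) (Set.empty_subset S))).toRingHom
  let act : heckeAlgebra N' 2 S →+* Module.End 𝒪 (𝒪 ⊗[ℤ_[p]] T') :=
    ((Module.End.baseChangeHom ℤ_[p] 𝒪 T').toRingHom.comp hecke').comp inc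
  have hact : ∀ t, act t = (hecke' (inc t)).baseChange 𝒪 := fun t => rfl
  let a : ℕ → ψ.range := fun ℓ =>
    if h : ℓ.Prime ∧ ¬ ℓ ∣ M then ψ.rangeRestrict (heckeAlgebra.T h.1 h.2 (Set.notMem_empty ℓ))
    else 0
  have ha : ∀ (ℓ : ℕ) (hℓ : ℓ.Prime) (hℓM : ¬ ℓ ∣ M),
      a ℓ = ψ.rangeRestrict (heckeAlgebra.T hℓ hℓM (Set.notMem_empty ℓ)) := by
    intro ℓ hℓ hℓM
    simp only [a]
    rw [dif_pos ⟨hℓ, hℓM⟩]
  haveI : Module.Free 𝒪 (𝒪 ⊗[ℤ_[p]] T') := inferInstance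
  haveI : Module.IsTorsionFree 𝒪 (𝒪 ⊗[ℤ_[p]] T') := inferInstance
  refine t2fn_eq_zero_of_newform hg hN' hne S hS ψ.range.subtype ι' hι' act
    (α.baseChange 𝒪 v) a ?_ ?_
  · intro ℓ hℓ hℓM
    rw [ha ℓ hℓ hℓM]
    exact terEigenCharC_T hg.1 _ hℓ hℓM _
  · intro ℓ hℓ hℓM
    rw [hact, ha ℓ hℓ hℓM]
    have h1 : inc (heckeAlgebra.T hℓ (fun h => hℓM (h.trans hN'))
        (fun h => hℓM ((hS ℓ hℓ).mp h))) =
        heckeAlgebra.T hℓ (fun h => hℓM (h.trans hN')) (Set.notMem_empty ℓ) := rfl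
    rw [h1]
    have h2 := (mem_teEigen hecke _).mp hv (heckeAlgebra.T hℓ hℓM (Set.notMem_empty ℓ))
    rw [RingHom.comp_apply] at h2
    rw [← LinearMap.comp_apply, ← LinearMap.baseChange_comp, ← hα ℓ hℓ hℓM,
      LinearMap.baseChange_comp, LinearMap.comp_apply, h2, map_smul]

end Fermat.Agent.T2
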